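import Fermat.Agent.S17.El.Defs

/-!
# S17/El: calculus of M-constants   (WP EL-MC)

Everything here is elementary: `γ.val v = a_v * m_v ^ N` with `a_v ∈ {1, A+1}` and
`m_v = max(1, v c₁, …) ≥ 1`.  For a non-archimedean `v` one has `v (n : K) ≤ 1` and
`v (∑ f i) ≤ max v (f i)`; for any `v`, `v (∑_{i ∈ s} f i) ≤ s.card * max`.
-/

set_option autoImplicit false

namespace Fermat.Agent.S17.El

variable {K : Type*} [Field K]

namespace MC

/-- `max(1, v c₁, …)`. -/
noncomputable def mx (v : AbsoluteValue K ℝ) (l : List K) : ℝ :=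
  l.foldr (fun a r => max (v a) r) 1

open Classical in
/-- the archimedean factor. -/
noncomputable def af (v : AbsoluteValue K ℝ) (A : ℕ) : ℝ :=
  if IsNonarchimedean v then 1 else ((A : ℝ) + 1)

theorem val_eq (γ : MC K) (v : AbsoluteValue K ℝ) : γ.val v = af v γ.A * mx v γ.c ^ γ.N := rfl

theorem one_le_mx (v : AbsoluteValue K ℝ) (l : List K) : 1 ≤ mx v l := by
  induction l with
  | nil => exact le_rfl
  | cons a l ih => exact le_max_of_le_right ih

theorem mx_le_append_left (v : AbsoluteValue K ℝ) (l l' : List K) : mx v l ≤ mx v (l ++ l') := by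
  induction l with
  | nil => exact one_le_mx v _
  | cons a l ih => exact max_le_max le_rfl ih

theorem mx_le_append_right (v : AbsoluteValue K ℝ) (l l' : List K) :
    mx v l' ≤ mx v (l ++ l') := by
  induction l with
  | nil => exact le_rfl
  | cons a l ih => exact le_max_of_le_right ih

theorem one_le_af (v : AbsoluteValue K ℝ) (A : ℕ) : 1 ≤ af v A := by
  unfold af
  split_ifs
  · exact le_rfl
  · have : (0 : ℝ) ≤ A := Nat.cast_nonneg A
    linarith

theorem one_le_val (γ : MC K) (v : AbsoluteValue K ℝ) : 1 ≤ γ.val v := by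
  rw [val_eq]
  exact one_le_mul_of_one_le_of_one_le (one_le_af v _) (one_le_pow₀ (one_le_mx v _))

theorem val_pos (γ : MC K) (v : AbsoluteValue K ℝ) : 0 < γ.val v :=
  lt_of_lt_of_le one_pos (one_le_val γ v)

/-- product of two M-constants. -/
def mul (γ γ' : MC K) : MC K := ⟨γ.c ++ γ'.c, γ.N + γ'.N, (γ.A + 1) * (γ'.A + 1)⟩

theorem val_mul_le (γ γ' : MC K) (v : AbsoluteValue K ℝ) :
    γ.val v * γ'.val v ≤ (γ.mul γ').val v := by
  rw [val_eq, val_eq, val_eq]
  change _ ≤ af v ((γ.A + 1) * (γ'.A + 1)) * mx v (γ.c ++ γ'.c) ^ (γ.N + γ'.N)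
  have h1 : af v γ.A * af v γ'.A ≤ af v ((γ.A + 1) * (γ'.A + 1)) := by
    unfold af
    split_ifs
    · simp
    · push_cast
      linarith
  have hm := one_le_mx v γ.c
  have hm' := one_le_mx v γ'.c
  have h2 : mx v γ.c ^ γ.N ≤ mx v (γ.c ++ γ'.c) ^ γ.N :=
    pow_le_pow_left₀ (by linarith) (mx_le_append_left v _ _) _
  have h3 : mx v γ'.c ^ γ'.N ≤ mx v (γ.c ++ γ'.c) ^ γ'.N :=
    pow_le_pow_left₀ (by linarith) (mx_le_append_right v _ _) _
  have ha := one_le_af v γ.A
  have ha' := one_le_af v γ'.A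
  calc af v γ.A * mx v γ.c ^ γ.N * (af v γ'.A * mx v γ'.c ^ γ'.N)
      = (af v γ.A * af v γ'.A) * (mx v γ.c ^ γ.N * mx v γ'.c ^ γ'.N) := by ring
    _ ≤ af v ((γ.A + 1) * (γ'.A + 1)) *
          (mx v (γ.c ++ γ'.c) ^ γ.N * mx v (γ.c ++ γ'.c) ^ γ'.N) := by
        have hmm := one_le_mx v (γ.c ++ γ'.c)
        have haa := one_le_af v ((γ.A + 1) * (γ'.A + 1))
        refine mul_le_mul h1 (mul_le_mul h2 h3 (by positivity) (by positivity)) (by positivity)
          (by linarith)
    _ = _ := by rw [pow_add]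

theorem le_mul_left (γ γ' : MC K) (v : AbsoluteValue K ℝ) : γ.val v ≤ (γ.mul γ').val v :=
  le_trans (le_mul_of_one_le_right (val_pos γ v).le (one_le_val γ' v)) (val_mul_le γ γ' v)

theorem le_mul_right (γ γ' : MC K) (v : AbsoluteValue K ℝ) : γ'.val v ≤ (γ.mul γ').val v :=
  le_trans (le_mul_of_one_le_left (val_pos γ' v).le (one_le_val γ v)) (val_mul_le γ γ' v)

/-- power of an M-constant. -/
def pow (γ : MC K) (k : ℕ) : MC K := ⟨γ.c, γ.N * k, (γ.A + 1) ^ k⟩

theorem val_pow_le (γ : MC K) (k : ℕ) (v : AbsoluteValue K ℝ) :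
    γ.val v ^ k ≤ (γ.pow k).val v := by
  rw [val_eq, val_eq]
  change _ ≤ af v ((γ.A + 1) ^ k) * mx v γ.c ^ (γ.N * k)
  have h1 : af v γ.A ^ k ≤ af v ((γ.A + 1) ^ k) := by
    unfold af
    split_ifs
    · simp
    · push_cast
      linarith
  have hm := one_le_mx v γ.c
  rw [mul_pow, ← pow_mul]
  gcongr

/-- the M-constant of one element. -/
def ofElem (a : K) : MC K := ⟨[a], 1, 0⟩

theorem le_ofElem (a : K) (v : AbsoluteValue K ℝ) : v a ≤ (ofElem a).val v := by
  rw [val_eq]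
  change v a ≤ af v 0 * (max (v a) 1) ^ 1
  have h1 := one_le_af v 0
  have h2 : v a ≤ max (v a) 1 := le_max_left _ _
  have h3 : (0 : ℝ) ≤ max (v a) 1 := le_trans zero_le_one (le_max_right _ _)
  rw [pow_one]
  nlinarith

/-- the M-constant of a natural number (`1` at the non-archimedean absolute values). -/
def ofNat (n : ℕ) : MC K := ⟨[], 0, n⟩

theorem val_ofNat (n : ℕ) (v : AbsoluteValue K ℝ) : (ofNat n : MC K).val v = af v n := by
  rw [val_eq]
  change af v n * _ ^ 0 = _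
  rw [pow_zero, mul_one]

theorem natCast_le (n : ℕ) (v : AbsoluteValue K ℝ) : v (n : K) ≤ (ofNat n : MC K).val v := by
  rw [val_ofNat]
  unfold af
  split_ifs with h
  · exact IsNonarchimedean.apply_natCast_le_one h
  · have : v (n : K) ≤ n := by
      induction n with
      | zero => simp
      | succ n ih =>
        push_cast
        calc v ((n : K) + 1) ≤ v (n : K) + v 1 := v.add_le _ _
          _ ≤ n + 1 := by rw [map_one]; linarith
    linarith

theorem sum_le {ι : Type*} (s : Finset ι) (f : ι → K) (v : AbsoluteValue K ℝ) {B : ℝ}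
    (hB0 : 0 ≤ B) (hB : ∀ i ∈ s, v (f i) ≤ B) :
    v (∑ i ∈ s, f i) ≤ (ofNat s.card : MC K).val v * B := by
  rw [val_ofNat]
  unfold af
  split_ifs with h
  · rw [one_mul]
    rcases s.eq_empty_or_nonempty with rfl | hs
    · simpa using hB0
    · exact le_trans (IsNonarchimedean.apply_sum_le_sup h hs) (Finset.sup'_le hs _ hB)
  · calc v (∑ i ∈ s, f i) ≤ ∑ i ∈ s, v (f i) := v.sum_le _ _
      _ ≤ ∑ _i ∈ s, B := Finset.sum_le_sum hB
      _ = s.card * B := by rw [Finset.sum_const, nsmul_eq_mul]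
      _ ≤ (s.card + 1) * B := by nlinarith

/-- a finite family of M-constants is dominated by one M-constant. -/
theorem exists_sup {ι : Type*} [Finite ι] (γs : ι → MC K) :
    ∃ γ : MC K, ∀ i v, (γs i).val v ≤ γ.val v := by
  classical
  have := Fintype.ofFinite ι
  have key : ∀ s : Finset ι, ∃ γ : MC K, ∀ i ∈ s, ∀ v, (γs i).val v ≤ γ.val v := by
    intro s
    induction s using Finset.induction_on with
    | empty => exact ⟨⟨[], 0, 0⟩, fun i hi => by simp at hi⟩
    | insert a s _ ih =>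
      obtain ⟨γ, hγ⟩ := ih
      refine ⟨(γs a).mul γ, fun i hi v => ?_⟩
      rcases Finset.mem_insert.mp hi with rfl | hi
      · exact le_mul_left _ _ v
      · exact le_trans (hγ i hi v) (le_mul_right _ _ v)
  obtain ⟨γ, hγ⟩ := key Finset.univ
  exact ⟨γ, fun i v => hγ i (Finset.mem_univ i) v⟩

/-- the coefficients of a polynomial are bounded by an M-constant. -/
theorem exists_coeff_le {σ : Type*} (p : MvPolynomial σ K) :
    ∃ γ : MC K, ∀ (v : AbsoluteValue K ℝ) (m : σ →₀ ℕ), v (p.coeff m) ≤ γ.val v := by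
  classical
  obtain ⟨γ, hγ⟩ := exists_sup (fun m : p.support => ofElem (p.coeff m))
  refine ⟨γ, fun v m => ?_⟩
  by_cases hm : m ∈ p.support
  · exact le_trans (le_ofElem _ v) (hγ ⟨m, hm⟩ v)
  · rw [MvPolynomial.notMem_support_iff.mp hm, map_zero]
    exact (val_pos γ v).le

/-- a polynomial is bounded by an M-constant on the unit polydisc. -/
theorem exists_eval_le {σ : Type*} (p : MvPolynomial σ K) :
    ∃ γ : MC K, ∀ (v : AbsoluteValue K ℝ) (z : σ → K), (∀ i, v (z i) ≤ 1) →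
      v (MvPolynomial.eval z p) ≤ γ.val v := by
  obtain ⟨γ, hγ⟩ := exists_coeff_le p
  refine ⟨(ofNat p.support.card).mul γ, fun v z hz => ?_⟩
  rw [MvPolynomial.eval_eq]
  refine le_trans (sum_le _ _ v (val_pos γ v).le fun m _ => ?_) (val_mul_le _ _ v)
  rw [map_mul, map_prod]
  calc v (p.coeff m) * ∏ i ∈ m.support, v (z i ^ m i) ≤ γ.val v * 1 := by
        refine mul_le_mul (hγ v m) ?_ (Finset.prod_nonneg fun i _ => v.nonneg _) (val_pos γ v).le
        refine Finset.prod_le_one (fun i _ => v.nonneg _) fun i _ => ?_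
        rw [map_pow]
        exact pow_le_one₀ (v.nonneg _) (hz i)
    _ = γ.val v := mul_one _

/-- extraction of roots: `γ ≥ 1`. -/
theorem le_of_pow_le (γ : MC K) (v : AbsoluteValue K ℝ) {a b : ℝ} (ha : 0 ≤ a) (hb : 0 ≤ b)
    {k : ℕ} (hk : k ≠ 0) (h : a ^ k ≤ γ.val v * b ^ k) : a ≤ γ.val v * b := by
  have h1 := one_le_val γ v
  have h2 : γ.val v ≤ γ.val v ^ k := le_self_pow₀ h1 hk
  have h3 : a ^ k ≤ (γ.val v * b) ^ k := by
    rw [mul_pow]
    exact le_trans h (mul_le_mul_of_nonneg_right h2 (pow_nonneg hb k))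
  exact (pow_le_pow_iff_left₀ ha (mul_nonneg (val_pos γ v).le hb) hk).mp h3

end MC

section nrm

variable {ι : Type*} [Finite ι] (v : AbsoluteValue K ℝ)

theorem le_nrm (z : ι → K) (i : ι) : v (z i) ≤ nrm v z :=
  le_ciSup (Set.finite_range fun i => v (z i)).bddAbove i

omit [Finite ι] in
theorem nrm_nonneg (z : ι → K) : 0 ≤ nrm v z :=
  Real.iSup_nonneg fun _ => v.nonneg _

omit [Finite ι] in
theorem nrm_le {z : ι → K} {B : ℝ} (hB0 : 0 ≤ B) (h : ∀ i, v (z i) ≤ B) : nrm v z ≤ B :=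
  Real.iSup_le h hB0

theorem exists_eq_nrm [Nonempty ι] (z : ι → K) : ∃ i, nrm v z = v (z i) := by
  obtain ⟨i, hi⟩ := exists_eq_ciSup_of_finite (f := fun i => v (z i))
  exact ⟨i, hi.symm⟩

theorem nrm_pos {z : ι → K} (hz : z ≠ 0) : 0 < nrm v z := by
  obtain ⟨i, hi⟩ := Function.ne_iff.mp hz
  exact lt_of_lt_of_le (v.pos hi) (le_nrm v z i)

omit [Finite ι] in
theorem nrm_smul (a : K) (z : ι → K) : nrm v (fun i => a * z i) = v a * nrm v z := by
  unfold nrm
  rw [Real.mul_iSup_of_nonneg (v.nonneg a)]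
  simp only [map_mul]

end nrm

namespace MC

/-- a homogeneous polynomial of degree `d` is bounded by `γ * |z|^d`. -/
theorem exists_eval_le_hom {σ : Type*} [Finite σ] (p : MvPolynomial σ K) (d : ℕ)
    (hp : p.IsHomogeneous d) :
    ∃ γ : MC K, ∀ (v : AbsoluteValue K ℝ) (z : σ → K),
      v (MvPolynomial.eval z p) ≤ γ.val v * nrm v z ^ d := by
  obtain ⟨γ, hγ⟩ := exists_coeff_le p
  refine ⟨(ofNat p.support.card).mul γ, fun v z => ?_⟩
  rw [MvPolynomial.eval_eq]
  have hn := nrm_nonneg v z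
  refine le_trans (sum_le _ _ v (B := γ.val v * nrm v z ^ d)
    (mul_nonneg (val_pos γ v).le (pow_nonneg hn d)) fun m hm => ?_) ?_
  · rw [map_mul, map_prod]
    refine mul_le_mul (hγ v m) ?_ (Finset.prod_nonneg fun i _ => v.nonneg _) (val_pos γ v).le
    have hd : ∑ i ∈ m.support, m i = d := by
      have := hp (MvPolynomial.mem_support_iff.mp hm)
      rw [← this, Finsupp.weight_apply]
      simp [Finsupp.sum]
    rw [← hd, ← Finset.prod_pow_eq_pow_sum]
    refine Finset.prod_le_prod (fun i _ => v.nonneg _) fun i _ => ?_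
    rw [map_pow]
    exact pow_le_pow_left₀ (v.nonneg _) (le_nrm v z i) _
  · rw [← mul_assoc]
    exact mul_le_mul_of_nonneg_right (val_mul_le _ _ v) (pow_nonneg hn d)

end MC

end Fermat.Agent.S17.El
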