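import Fermat.Agent.S17.El.MCBasic

/-!
# S17/El: THEOREM M (Nullstellensatz ⇒ uniform lower bounds at all absolute values)  (WP EL-M)

Variables in blocks `b : β`, block `b` has the coordinates `⟨b, i⟩`, `i : ι b`.
`Φ t` multihomogeneous of multidegree `d`, `I` an ideal whose zero set is stable under rescaling
of the blocks.  If every common zero of `I` and the `Φ t` has a vanishing block then
`∏_b |z^(b)|^(d b) ≤ γ_v max_t v(Φ_t(z))` on `V(I)`.

PROOF.  For every choice function `s : ∀ b, ι b` the monomial `μ_s = ∏_b X ⟨b, s b⟩` vanishes on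
the zero locus of `J = I + (Φ t)`, hence (`MvPolynomial.vanishingIdeal_zeroLocus_eq_radical`)
`μ_s ^ N = a + ∑_t q_{s,t} Φ_t`, `a ∈ I` (`Submodule.mem_sup`, `Ideal.mem_span_range_iff_exists_fun`/
`Finsupp`).  Let `γ` dominate (`MC.exists_sup`, `MC.exists_eval_le`, `MC.sum_le`) all `q_{s,t}` on the
unit polydisc.  Given `v`, `z`, choose `s b` with `v (z ⟨b, s b⟩) = |z^(b)| > 0`, `l b = (z ⟨b, s b⟩)⁻¹`,
`z' = l • z`: all coordinates of `z'` have `v ≤ 1`, `μ_s(z') = 1`, `z' ∈ V(I)`; so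
`1 = v(∑_t q_{s,t}(z') Φ_t(z')) ≤ γ max_t v(Φ_t(z')) = γ max_t v(Φ_t(z)) / ∏_b |z^(b)|^(d b)`.
-/

set_option autoImplicit false

namespace Fermat.Agent.S17.El

open MvPolynomial

variable {K : Type*} [Field K] [IsAlgClosed K]

theorem thmM {β : Type*} [Fintype β] {ι : β → Type*} [∀ b, Finite (ι b)] {τ : Type*} [Finite τ]
    (I : Ideal (MvPolynomial (Σ b, ι b) K)) (Φ : τ → MvPolynomial (Σ b, ι b) K) (d : β → ℕ)
    (hhom : ∀ (t : τ) (z : (Σ b, ι b) → K) (l : β → K),
      eval (fun p => l p.1 * z p) (Φ t) = (∏ b, l b ^ d b) * eval z (Φ t))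
    (hI : ∀ (z : (Σ b, ι b) → K) (l : β → K), (∀ b, l b ≠ 0) → (∀ p ∈ I, eval z p = 0) →
      ∀ p ∈ I, eval (fun q => l q.1 * z q) p = 0)
    (hzero : ∀ z : (Σ b, ι b) → K, (∀ p ∈ I, eval z p = 0) → (∀ t, eval z (Φ t) = 0) →
      ∃ b, ∀ i, z ⟨b, i⟩ = 0) :
    ∃ γ : MC K, ∀ (v : AbsoluteValue K ℝ) (z : (Σ b, ι b) → K), (∀ p ∈ I, eval z p = 0) →
      (∀ b, ∃ i, z ⟨b, i⟩ ≠ 0) →
      ∏ b, (nrm v fun i => z ⟨b, i⟩) ^ d b ≤ γ.val v * nrm v fun t => eval z (Φ t) := by
  classical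
  cases nonempty_fintype τ
  -- Step 1: Nullstellensatz
  have key : ∀ s : (∀ b, ι b), ∃ (n : ℕ) (a : MvPolynomial (Σ b, ι b) K)
      (q : τ → MvPolynomial (Σ b, ι b) K), a ∈ I ∧
      (∏ b, (X (⟨b, s b⟩ : Σ b, ι b) : MvPolynomial (Σ b, ι b) K)) ^ n = a + ∑ t, q t * Φ t := by
    intro s
    have hmem : (∏ b, (X (⟨b, s b⟩ : Σ b, ι b) : MvPolynomial (Σ b, ι b) K)) ∈
        (I ⊔ Ideal.span (Set.range Φ)).radical := by
      rw [← vanishingIdeal_zeroLocus_eq_radical (K := K), mem_vanishingIdeal_iff]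
      intro z hz
      rw [mem_zeroLocus_iff] at hz
      obtain ⟨b, hb⟩ := hzero z
        (fun p hp => by simpa [aeval_eq_eval] using hz p (Ideal.mem_sup_left hp))
        (fun t => by
          simpa [aeval_eq_eval] using
            hz (Φ t) (Ideal.mem_sup_right (Ideal.subset_span ⟨t, rfl⟩)))
      rw [map_prod]
      exact Finset.prod_eq_zero (Finset.mem_univ b) (by simp [hb])
    obtain ⟨n, hn⟩ := hmem
    obtain ⟨a, ha, c, hc, hac⟩ := Submodule.mem_sup.1 hn
    obtain ⟨q, hq⟩ := Ideal.mem_span_range_iff_exists_fun.1 hc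
    exact ⟨n, a, q, ha, by rw [← hac, hq]⟩
  choose n a q ha hq using key
  -- Step 2: the constants
  have hex : ∀ (s : ∀ b, ι b) (t : τ), ∃ γ : MC K, ∀ (v : AbsoluteValue K ℝ)
      (z : (Σ b, ι b) → K), (∀ i, v (z i) ≤ 1) → v (eval z (q s t)) ≤ γ.val v :=
    fun s t => MC.exists_eval_le (q s t)
  choose γq hγq using hex
  obtain ⟨γ₀, hγ₀⟩ := MC.exists_sup (fun st : (∀ b, ι b) × τ => γq st.1 st.2)
  refine ⟨(MC.ofNat (Fintype.card τ)).mul γ₀, ?_⟩
  intro v z hz hnz
  have hch : ∀ b, ∃ i, nrm v (fun i => z ⟨b, i⟩) = v (z ⟨b, i⟩) := fun b => by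
    have : Nonempty (ι b) := ⟨(hnz b).choose⟩
    exact exists_eq_nrm v _
  choose s hs using hch
  have hpos : ∀ b, 0 < nrm v (fun i => z ⟨b, i⟩) := fun b => nrm_pos v (by
    obtain ⟨i, hi⟩ := hnz b
    intro h
    exact hi (congrFun h i))
  have hsne : ∀ b, z ⟨b, s b⟩ ≠ 0 := fun b h => by
    have := hpos b
    rw [hs b, h, map_zero] at this
    exact lt_irrefl _ this
  set l : β → K := fun b => (z ⟨b, s b⟩)⁻¹ with hl
  set z' : (Σ b, ι b) → K := fun p => l p.1 * z p with hz'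
  have hz'1 : ∀ p, v (z' p) ≤ 1 := by
    rintro ⟨b, i⟩
    simp only [hz', hl, map_mul, map_inv₀]
    rw [← hs b, inv_mul_le_iff₀ (hpos b), mul_one]
    exact le_nrm v (fun i => z ⟨b, i⟩) i
  have hz'I : ∀ p ∈ I, eval z' p = 0 := hI z l (fun b => inv_ne_zero (hsne b)) hz
  have hμ : eval z' (∏ b, (X (⟨b, s b⟩ : Σ b, ι b) : MvPolynomial (Σ b, ι b) K)) = 1 := by
    rw [map_prod]
    refine Finset.prod_eq_one fun b _ => ?_
    simp only [eval_X, hz', hl]
    exact inv_mul_cancel₀ (hsne b)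
  have h1 : (1 : K) = ∑ t, eval z' (q s t) * eval z' (Φ t) := by
    have h := congrArg (eval z') (hq s)
    rw [map_pow, hμ, one_pow, map_add, hz'I _ (ha s), zero_add, map_sum] at h
    simpa only [map_mul] using h
  have hnn : 0 ≤ nrm v (fun t => eval z' (Φ t)) := nrm_nonneg v _
  have hB : ∀ t ∈ (Finset.univ : Finset τ), v (eval z' (q s t) * eval z' (Φ t)) ≤
      γ₀.val v * nrm v (fun t => eval z' (Φ t)) := by
    intro t _
    rw [map_mul]
    exact mul_le_mul ((hγq s t v z' hz'1).trans (hγ₀ (s, t) v))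
      (le_nrm v (fun t => eval z' (Φ t)) t) (apply_nonneg v _) (γ₀.val_pos v).le
  have h2 : (1 : ℝ) ≤ (MC.ofNat (Fintype.card τ) : MC K).val v *
      (γ₀.val v * nrm v (fun t => eval z' (Φ t))) := by
    have h := MC.sum_le Finset.univ (fun t => eval z' (q s t) * eval z' (Φ t)) v
      (mul_nonneg (γ₀.val_pos v).le hnn) hB
    rw [← h1, map_one] at h
    simpa using h
  have h3 : nrm v (fun t => eval z' (Φ t)) =
      (∏ b, (nrm v fun i => z ⟨b, i⟩) ^ d b)⁻¹ * nrm v (fun t => eval z (Φ t)) := by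
    have : (fun t => eval z' (Φ t)) = fun t => (∏ b, l b ^ d b) * eval z (Φ t) := by
      funext t
      exact hhom t z l
    rw [this, nrm_smul, map_prod, ← Finset.prod_inv_distrib]
    congr 1
    refine Finset.prod_congr rfl fun b _ => ?_
    rw [map_pow, hs b, ← inv_pow]
    simp only [hl, map_inv₀]
  have hP : 0 < ∏ b, (nrm v fun i => z ⟨b, i⟩) ^ d b :=
    Finset.prod_pos fun b _ => pow_pos (hpos b) _
  rw [h3] at h2
  have h4 : (1 : ℝ) ≤ (∏ b, (nrm v fun i => z ⟨b, i⟩) ^ d b)⁻¹ *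
      (((MC.ofNat (Fintype.card τ) : MC K).val v * γ₀.val v) *
        nrm v (fun t => eval z (Φ t))) := by
    calc (1 : ℝ) ≤ _ := h2
      _ = _ := by ring
  rw [← div_eq_inv_mul, one_le_div hP] at h4
  exact h4.trans (mul_le_mul_of_nonneg_right (MC.val_mul_le _ _ v) (nrm_nonneg v _))

omit [IsAlgClosed K] in
/-- evaluation of a homogeneous polynomial at a rescaled point. -/
theorem eval_smul_of_isHomogeneous {ι : Type*} {p : MvPolynomial ι K} {d : ℕ}
    (hp : p.IsHomogeneous d) (c : K) (z : ι → K) :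
    eval (fun i => c * z i) p = c ^ d * eval z p := by
  rw [eval_eq, eval_eq, Finset.mul_sum]
  refine Finset.sum_congr rfl fun m hm => ?_
  have hdeg : ∑ i ∈ m.support, m i = d := by
    have := hp (mem_support_iff.1 hm)
    rw [Finsupp.weight_apply] at this
    simpa [Finsupp.sum] using this
  simp only [mul_pow, Finset.prod_mul_distrib, Finset.prod_pow_eq_pow_sum, hdeg]
  ring

/-- one block, no ideal. -/
theorem thmM_one {ι : Type*} [Finite ι] {τ : Type*} [Finite τ]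
    (Φ : τ → MvPolynomial ι K) (d : ℕ) (hhom : ∀ t, (Φ t).IsHomogeneous d)
    (hzero : ∀ z : ι → K, (∀ t, eval z (Φ t) = 0) → z = 0) :
    ∃ γ : MC K, ∀ (v : AbsoluteValue K ℝ) (z : ι → K), z ≠ 0 →
      nrm v z ^ d ≤ γ.val v * nrm v fun t => eval z (Φ t) := by
  classical
  let f : ι → (Σ _ : Unit, ι) := fun i => ⟨(), i⟩
  obtain ⟨γ, hγ⟩ := thmM (β := Unit) (ι := fun _ => ι) (⊥ : Ideal (MvPolynomial (Σ _ : Unit, ι) K))
    (fun t => rename f (Φ t)) (fun _ => d)
    (by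
      intro t z l
      rw [eval_rename, eval_rename, Fintype.prod_unique]
      exact eval_smul_of_isHomogeneous (hhom t) (l ()) (z ∘ f))
    (by
      intro z l _ _ p hp
      rw [(Submodule.mem_bot _).1 hp, map_zero])
    (by
      intro z _ hz
      refine ⟨(), fun i => ?_⟩
      have := hzero (z ∘ f) (fun t => by simpa [eval_rename] using hz t)
      exact congrFun this i)
  refine ⟨γ, fun v z hz => ?_⟩
  have h := hγ v (fun p => z p.2) (by
      intro p hp
      rw [(Submodule.mem_bot _).1 hp, map_zero])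
    (by
      intro _
      by_contra hcon
      push Not at hcon
      exact hz (funext hcon))
  have he : ∀ t, eval (fun p : (Σ _ : Unit, ι) => z p.2) (rename f (Φ t)) = eval z (Φ t) := by
    intro t
    rw [eval_rename]
    rfl
  simpa [he] using h

end Fermat.Agent.S17.El
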