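import Fermat.Agent.S17.El.Defs

/-!
# S17/El: LEMMA CLOSED (the cone over the image of the curve is Zariski closed)  (WP EL-CL)

`φ_i ∈ L(G)` base point free.  Every `z ≠ 0` killed by all homogeneous relations of the `φ_i` is a
multiple of the normalised evaluation vector at a place.

PROOF.  Pick `i₁` with `z i₁ ≠ 0`; then `φ i₁ ≠ 0` (the relation `X_{i₁}`).  `B₀ := K[φ_i/φ_{i₁}] ⊆ F`
(`Algebra.adjoin`).  `θ : B₀ → K`, `φ_i/φ_{i₁} ↦ z_i/z_{i₁}` is well defined: a relation
`p(φ_i/φ_{i₁}) = 0` homogenises to a homogeneous relation `P(φ) = 0` (P = ∑ monomials * X_{i₁}^(D - deg)),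
so `P(z) = 0`, i.e. `p(z_i/z_{i₁}) = 0`.  (Concretely: `θ` = the map induced on the quotient of
`MvPolynomial ι K` by the kernel of `aeval (φ_i/φ_{i₁})`.)  If all `φ_i/φ_{i₁}` are constants the claim
holds for any place (`IsFF1.nonempty_place`), with `i₀` given by `hbpf`.
Otherwise `m = ker θ` is a maximal ideal of `B₀`, the local ring `(B₀)_m` is dominated by a valuation
subring `O` of `F` (`LocalSubring.exists_le_valuationSubring` / `ValuationSubring` API), `O ≠ ⊤` because
`m ≠ 0` (a nonconstant `u = φ_i/φ_{i₁}`: `u - θ u ∈ m` is a non unit of `O`), `K ⊆ O`; so `O` is the ring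
of a place `P` (`S24.IsFiniteParam.exists_place_eq` for a parameter `y ∈ O`: `u` is a finite parameter, see
`S27.exists_regular_param`, `S27.adic_place`, or RED/FF `exists_place_eq'`).  For `a ∈ B₀`:
`S27.val P a = θ a` (`a - θ a ∈ m ⊆ m_O`, `S27.val_unique`).  All `φ_i/φ_{i₁} ∈ O_P`, so
`ord_P φ_{i₁} = min_i ord_P φ_i = -G P` by `hbpf`; take `i₀ = i₁`, `l = z i₁`.
-/

set_option autoImplicit false

open AlgebraicCurve

namespace Fermat.Agent.S17.El

section homog

variable {K : Type*} [Field K] {ι : Type*}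

/-- homogenisation of `p` with respect to the variable `i₁`. -/
noncomputable def homogAt (i₁ : ι) (p : MvPolynomial ι K) : MvPolynomial ι K :=
  ∑ m ∈ p.support, MvPolynomial.monomial (m + Finsupp.single i₁ (p.totalDegree - m.degree))
    (p.coeff m)

theorem degree_le_totalDegree_cl {p : MvPolynomial ι K} {m : ι →₀ ℕ} (hm : m ∈ p.support) :
    m.degree ≤ p.totalDegree := MvPolynomial.le_totalDegree hm

theorem homogAt_isHomogeneous (i₁ : ι) (p : MvPolynomial ι K) :
    (homogAt i₁ p).IsHomogeneous p.totalDegree := by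
  unfold homogAt
  refine MvPolynomial.IsHomogeneous.sum _ _ _ fun m hm => ?_
  refine MvPolynomial.isHomogeneous_monomial _ ?_
  have h1 : m.degree ≤ p.totalDegree := degree_le_totalDegree_cl hm
  rw [map_add, Finsupp.degree_single]
  omega

theorem aeval_homogAt {S : Type*} [Field S] [Algebra K S] (w : ι → S) (i₁ : ι) (hw : w i₁ ≠ 0)
    (p : MvPolynomial ι K) :
    MvPolynomial.aeval w (homogAt i₁ p) =
      w i₁ ^ p.totalDegree * MvPolynomial.aeval (fun i => w i / w i₁) p := by
  have hp : MvPolynomial.aeval (fun i => w i / w i₁) p = ∑ m ∈ p.support,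
      MvPolynomial.aeval (fun i => w i / w i₁) (MvPolynomial.monomial m (p.coeff m)) := by
    conv_lhs => rw [p.as_sum]
    rw [map_sum]
  rw [hp]
  unfold homogAt
  rw [map_sum, Finset.mul_sum]
  refine Finset.sum_congr rfl fun m hm => ?_
  have h1 : m.degree ≤ p.totalDegree := degree_le_totalDegree_cl hm
  rw [MvPolynomial.aeval_monomial, MvPolynomial.aeval_monomial,
    Finsupp.prod_add_index' (h := fun i k => w i ^ k) (fun _ => pow_zero _)
      (fun _ _ _ => pow_add _ _ _),
    Finsupp.prod_single_index (h := fun i k => w i ^ k) (pow_zero _)]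
  have h2 : (m.prod fun i k => w i ^ k) =
      (m.prod fun i k => (w i / w i₁) ^ k) * w i₁ ^ m.degree := by
    rw [Finsupp.degree_apply, ← Finset.prod_pow_eq_pow_sum, Finsupp.prod, Finsupp.prod,
      ← Finset.prod_mul_distrib]
    refine Finset.prod_congr rfl fun i _ => ?_
    rw [← mul_pow, div_mul_cancel₀ _ hw]
  have h3 : w i₁ ^ p.totalDegree = w i₁ ^ m.degree * w i₁ ^ (p.totalDegree - m.degree) := by
    rw [← pow_add]
    congr 1
    omega
  rw [h2, h3]
  ring

end homog

variable {K F : Type*} [Field K] [Field F] [Algebra K F] [IsAlgClosed K] [CharZero K]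
  [S27.IsFF K F]

/-- a `K`-point of the closure of the image of an affine map is the value at a place. -/
theorem exists_place_of_relations {ι : Type*} (u : ι → F) (c : ι → K)
    (hrel : ∀ p : MvPolynomial ι K, MvPolynomial.aeval u p = 0 → MvPolynomial.eval c p = 0) :
    ∃ P : Place K F, ∀ i, P.adicValuation (u i - algebraMap K F (c i)) < 1 := by
  classical
  let A : Subring F := (MvPolynomial.aeval u : MvPolynomial ι K →ₐ[K] F).range.toSubring
  let π : MvPolynomial ι K →+* A :=
    (MvPolynomial.aeval u : MvPolynomial ι K →ₐ[K] F).toRingHom.codRestrict A (fun p => ⟨p, rfl⟩)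
  have hπ : Function.Surjective π := by
    rintro ⟨_, p, rfl⟩
    exact ⟨p, rfl⟩
  let J : Ideal (MvPolynomial ι K) := RingHom.ker (MvPolynomial.eval c)
  have hJ : J ≠ ⊤ := RingHom.ker_ne_top _
  have hker : RingHom.ker π ≤ J := by
    intro p hp
    rw [RingHom.mem_ker] at hp
    exact (RingHom.mem_ker).2 (hrel p (congrArg Subtype.val hp))
  have hI : J.map π ≠ ⊤ := by
    intro h
    apply hJ
    have h1 := Ideal.comap_map_of_surjective π hπ J
    rw [h, Ideal.comap_top] at h1
    rw [h1]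
    exact (sup_eq_left.2 hker).symm
  obtain ⟨B, hAB, hB⟩ := Ideal.image_subset_nonunits_valuationSubring (J.map π) hI
  have hu : ∀ i, u i - algebraMap K F (c i) ∈ B.nonunits := by
    intro i
    apply hB
    refine ⟨π (MvPolynomial.X i - MvPolynomial.C (c i)),
      Ideal.mem_map_of_mem _ ((RingHom.mem_ker).2 (by simp)), ?_⟩
    show MvPolynomial.aeval u (MvPolynomial.X i - MvPolynomial.C (c i)) = _
    simp
  have hK : ∀ a : K, algebraMap K F a ∈ B := fun a => hAB ⟨MvPolynomial.C a, by simp⟩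
  by_cases hBt : B = ⊤
  · obtain ⟨P⟩ : Nonempty (Place K F) := (S27.infinite_places (K := K) (F := F)).nonempty
    refine ⟨P, fun i => ?_⟩
    have h0 : u i - algebraMap K F (c i) = 0 := by
      have h1 := hu i
      rw [ValuationSubring.mem_nonunits_iff] at h1
      by_contra hne
      have h2 : (u i - algebraMap K F (c i))⁻¹ ∈ B := by rw [hBt]; trivial
      rw [← ValuationSubring.valuation_le_one_iff, map_inv₀] at h2
      have h3 : B.valuation (u i - algebraMap K F (c i)) ≠ 0 := (Valuation.ne_zero_iff _).2 hne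
      exact absurd h1 (not_lt.2 ((inv_le_one₀ (zero_lt_iff.2 h3)).1 h2))
    rw [h0, map_zero]
    exact zero_lt_one
  · obtain ⟨x, hx⟩ := S27.IsFF.exists_param (K := K) (F := F)
    obtain ⟨y, hy, hyB⟩ : ∃ y, S24.IsFiniteParam K y ∧ y ∈ B := by
      rcases B.mem_or_inv_mem x with h | h
      · exact ⟨x, hx, h⟩
      · exact ⟨x⁻¹, hx.inv, h⟩
    obtain ⟨P, hP⟩ := hy.exists_place_eq B hK hyB hBt
    refine ⟨P, fun i => ?_⟩
    have h1 := hu i
    rw [ValuationSubring.mem_nonunits_iff] at h1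
    by_contra hlt
    rw [not_lt] at hlt
    have hne : u i - algebraMap K F (c i) ≠ 0 := by
      intro h0
      rw [h0, map_zero] at hlt
      exact absurd hlt (not_le.2 zero_lt_one)
    have h2 : (u i - algebraMap K F (c i))⁻¹ ∈ B := by
      rw [← hP, ← S27.adic_le_one_iff_mem, map_inv₀]
      exact inv_le_one_of_one_le₀ hlt
    rw [← ValuationSubring.valuation_le_one_iff, map_inv₀] at h2
    have h3 : B.valuation (u i - algebraMap K F (c i)) ≠ 0 := (Valuation.ne_zero_iff _).2 hne
    exact absurd h1 (not_lt.2 ((inv_le_one₀ (zero_lt_iff.2 h3)).1 h2))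

theorem closed_cone {ι : Type*} [Finite ι] (φ : ι → F) (G : Divisor K F)
    (hφ : ∀ i, φ i ∈ riemannRochSpace G)
    (hbpf : ∀ P : Place K F, ∃ i, φ i ≠ 0 ∧ P.ord (φ i) = - G P)
    (z : ι → K) (hz : z ≠ 0)
    (hrel : ∀ (d : ℕ) (p : MvPolynomial ι K), p.IsHomogeneous d → MvPolynomial.aeval φ p = 0 →
      MvPolynomial.eval z p = 0) :
    ∃ (P : Place K F) (i₀ : ι) (l : K), l ≠ 0 ∧ φ i₀ ≠ 0 ∧ P.ord (φ i₀) = - G P ∧
      ∀ i, z i = l * S27.val P (φ i / φ i₀) := by
  obtain ⟨i₁, hi₁⟩ : ∃ i, z i ≠ 0 := by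
    by_contra h
    push Not at h
    exact hz (funext h)
  have hφ1 : φ i₁ ≠ 0 := by
    intro h0
    apply hi₁
    have := hrel 1 (MvPolynomial.X i₁) (MvPolynomial.isHomogeneous_X _ _) (by simpa using h0)
    simpa using this
  obtain ⟨P, hP⟩ := exists_place_of_relations (fun i => φ i / φ i₁) (fun i => z i / z i₁) (by
    intro p hp
    have h1 := hrel _ _ (homogAt_isHomogeneous i₁ p) (by rw [aeval_homogAt φ i₁ hφ1, hp, mul_zero])
    rw [← MvPolynomial.aeval_eq_eval, aeval_homogAt z i₁ hi₁] at h1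
    rcases mul_eq_zero.1 h1 with h | h
    · exact absurd h (pow_ne_zero _ hi₁)
    · rw [← MvPolynomial.aeval_eq_eval]; exact h)
  have hval : ∀ i, S27.val P (φ i / φ i₁) = z i / z i₁ := fun i => S27.val_unique P (hP i)
  have hreg : ∀ i, P.adicValuation (φ i / φ i₁) ≤ 1 := by
    intro i
    have h1 : φ i / φ i₁ = (φ i / φ i₁ - algebraMap K F (z i / z i₁)) +
        algebraMap K F (z i / z i₁) := by ring
    rw [h1]
    exact le_trans (Valuation.map_add _ _ _)
      (max_le (hP i).le (P.adicValuation_algebraMap_le_one _))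
  refine ⟨P, i₁, z i₁, hi₁, hφ1, ?_, fun i => ?_⟩
  · obtain ⟨i, hi0, hi⟩ := hbpf P
    have h1 : 0 ≤ P.ord (φ i / φ i₁) :=
      ((P.adicValuation_le_one_iff).1 (hreg i)).resolve_left (div_ne_zero hi0 hφ1)
    rw [div_eq_mul_inv, P.ord_mul hi0 (inv_ne_zero hφ1), P.ord_inv] at h1
    have h2 : - G P ≤ P.ord (φ i₁) :=
      ((mem_riemannRochSpace_iff.1 (hφ i₁)) P).resolve_left hφ1
    omega
  · rw [hval i, mul_div_cancel₀ _ hi₁]

end Fermat.Agent.S17.El
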