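import Fermat.Agent.S17.El.ThmM
import Fermat.Agent.S17.El.Closed

/-!
# S17/El: base-point-free comparison on `C` and on `C × P^s`   (WP EL-BPF)

Both are THEOREM M relative to the ideal `I` of all polynomials vanishing on the cone
`{ l • (val P (φ i / φ i₀))_i }` (equivalently: generated by the homogeneous relations of `φ`), using
LEMMA CLOSED to identify `V(I)`.

* `bpf_curve`: apply `bpf_prod`-type argument to the family `(φ, ψ)` (still base point free) and
  `Φ = the variables Z_i, i ∈ ι`: a point of the cone with all `Z_i = 0` would be a place `P` where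
  every `φ_i / (generator)` vanishes, contradicting `hbpf`.
* `bpf_prod`: blocks `Z` (cone over the curve) and `U` (free).  `Φ t` bihomogeneous of bidegree `(d₁,d₂)`.
  For `P` with `G P = 0` the vector `(val P (φ i))_i` is a nonzero multiple of the normalised one.
-/

set_option autoImplicit false

open AlgebraicCurve

namespace Fermat.Agent.S17.El

universe u₁ u₂

/-- the two blocks of variables. -/
def blk (ι : Type u₁) (υ : Type u₂) : Bool → Type (max u₁ u₂)
  | false => ULift.{max u₁ u₂} ι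
  | true => ULift.{max u₁ u₂} υ

instance blk_finite (ι : Type u₁) (υ : Type u₂) [Finite ι] [Finite υ] :
    ∀ b, Finite (blk ι υ b)
  | false => inferInstanceAs (Finite (ULift ι))
  | true => inferInstanceAs (Finite (ULift υ))

/-- the inclusion of the variables. -/
def blkIn (ι : Type u₁) (υ : Type u₂) : ι ⊕ υ → (Σ b, blk ι υ b)
  | Sum.inl i => ⟨false, (ULift.up i : ULift ι)⟩
  | Sum.inr k => ⟨true, (ULift.up k : ULift υ)⟩

/-- the inverse of `blkIn`. -/
def blkOut (ι : Type u₁) (υ : Type u₂) : (Σ b, blk ι υ b) → ι ⊕ υ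
  | ⟨false, i⟩ => Sum.inl (ULift.down (i : ULift ι))
  | ⟨true, k⟩ => Sum.inr (ULift.down (k : ULift υ))

theorem blkOut_blkIn (ι : Type u₁) (υ : Type u₂) (x : ι ⊕ υ) : blkOut ι υ (blkIn ι υ x) = x := by
  cases x <;> rfl

theorem blkIn_blkOut (ι : Type u₁) (υ : Type u₂) (x : Σ b, blk ι υ b) :
    blkIn ι υ (blkOut ι υ x) = x := by
  obtain ⟨b, x⟩ := x
  cases b <;> rfl

section nrm

variable {K : Type*} [Field K]

theorem nrm_comp_equiv {ι ι' : Type*} (v : AbsoluteValue K ℝ) (e : ι ≃ ι') (z : ι' → K) :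
    nrm v (fun i => z (e i)) = nrm v z :=
  e.iSup_comp (g := fun i => v (z i))

end nrm

variable {K F : Type*} [Field K] [Field F] [Algebra K F] [IsAlgClosed K] [CharZero K]
  [S27.IsFF K F]

theorem val_mvAeval {ι : Type*} (P : Place K F) (φ : ι → F) (hφ : ∀ i, P.adicValuation (φ i) ≤ 1)
    (p : MvPolynomial ι K) :
    P.adicValuation (MvPolynomial.aeval φ p) ≤ 1 ∧
      S27.val P (MvPolynomial.aeval φ p) = MvPolynomial.eval (fun i => S27.val P (φ i)) p := by
  induction p using MvPolynomial.induction_on with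
  | C a =>
    simp only [MvPolynomial.aeval_C, MvPolynomial.eval_C]
    exact ⟨P.adicValuation_algebraMap_le_one a, S27.val_algebraMap P a⟩
  | add p q hp hq =>
    rw [map_add, S27.val_add P hp.1 hq.1, hp.2, hq.2]
    exact ⟨(Valuation.map_add _ _ _).trans (max_le hp.1 hq.1), (map_add _ p q).symm⟩
  | mul_X p i hp =>
    rw [map_mul, S27.val_mul P hp.1 (by simpa using hφ i), hp.2, MvPolynomial.aeval_X,
      map_mul, map_mul, MvPolynomial.eval_X]
    exact ⟨mul_le_one' hp.1 (hφ i), rfl⟩

omit [IsAlgClosed K] [CharZero K] [S27.IsFF K F] in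
theorem adic_le_one_of_mem {G : Divisor K F} {f : F} (hf : f ∈ riemannRochSpace G)
    {P : Place K F} (hP : G P = 0) : P.adicValuation f ≤ 1 := by
  rw [P.adicValuation_le_one_iff]
  rcases mem_riemannRochSpace_iff.1 hf P with h | h
  · exact Or.inl h
  · right
    rwa [hP, neg_zero] at h

theorem val_ne_zero_of_ord {f : F} (hf : f ≠ 0) {P : Place K F} (hP : P.ord f = 0) :
    S27.val P f ≠ 0 := by
  have h1 : P.adicValuation f = 1 := by
    rw [P.adicValuation_eq_exp_neg_ord hf, hP]
    simp
  rw [Ne, S27.val_eq_zero_iff P h1.le, h1]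
  exact lt_irrefl _

theorem bpf_prod {ι υ τ : Type*} [Finite ι] [Finite υ] [Finite τ] (φ : ι → F) (G : Divisor K F)
    (hφ : ∀ i, φ i ∈ riemannRochSpace G)
    (hbpf : ∀ P : Place K F, ∃ i, φ i ≠ 0 ∧ P.ord (φ i) = - G P)
    (Φ : τ → MvPolynomial (ι ⊕ υ) K) (d₁ d₂ : ℕ)
    (hhom : ∀ (t : τ) (z : ι → K) (u : υ → K) (a b : K),
      MvPolynomial.eval (Sum.elim (fun i => a * z i) (fun k => b * u k)) (Φ t) =
        a ^ d₁ * b ^ d₂ * MvPolynomial.eval (Sum.elim z u) (Φ t))
    (hnz : ∀ (P : Place K F) (i₀ : ι), φ i₀ ≠ 0 → P.ord (φ i₀) = - G P → ∀ u : υ → K, u ≠ 0 →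
      ∃ t, MvPolynomial.eval (Sum.elim (fun i => S27.val P (φ i / φ i₀)) u) (Φ t) ≠ 0) :
    ∃ γ : MC K, ∀ (v : AbsoluteValue K ℝ) (P : Place K F), G P = 0 → ∀ u : υ → K, u ≠ 0 →
      (nrm v fun i => S27.val P (φ i)) ^ d₁ * nrm v u ^ d₂ ≤
        γ.val v * nrm v fun t => MvPolynomial.eval (Sum.elim (fun i => S27.val P (φ i)) u) (Φ t) := by
  classical
  -- the generators of the ideal
  let S : Set (MvPolynomial (Σ b, blk ι υ b) K) :=
    {q | ∃ (d : ℕ) (p : MvPolynomial ι K), p.IsHomogeneous d ∧ MvPolynomial.aeval φ p = 0 ∧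
      q = MvPolynomial.rename (fun i => blkIn ι υ (Sum.inl i)) p}
  have hspan : ∀ z : (Σ b, blk ι υ b) → K, (∀ q ∈ S, MvPolynomial.eval z q = 0) →
      ∀ q ∈ Ideal.span S, MvPolynomial.eval z q = 0 := by
    intro z hz q hq
    have : Ideal.span S ≤ RingHom.ker (MvPolynomial.eval z) :=
      Ideal.span_le.2 fun q hq => hz q hq
    exact this hq
  have hsplit : ∀ z : (Σ b, blk ι υ b) → K, (fun x => z (blkIn ι υ x)) =
      Sum.elim (fun i => z (blkIn ι υ (Sum.inl i))) (fun k => z (blkIn ι υ (Sum.inr k))) := by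
    intro z
    funext x
    cases x <;> rfl
  obtain ⟨γ, hγ⟩ := thmM (K := K) (β := Bool) (ι := blk ι υ) (τ := τ) (Ideal.span S)
    (fun t => MvPolynomial.rename (blkIn ι υ) (Φ t)) (fun b => bif b then d₂ else d₁)
    (by
      intro t z l
      rw [MvPolynomial.eval_rename, MvPolynomial.eval_rename]
      have h := hhom t (fun i => z (blkIn ι υ (Sum.inl i))) (fun k => z (blkIn ι υ (Sum.inr k)))
        (l false) (l true)
      rw [← hsplit z] at h
      have h2 : ((fun p : (Σ b, blk ι υ b) => l p.1 * z p) ∘ blkIn ι υ) =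
          Sum.elim (fun i => l false * z (blkIn ι υ (Sum.inl i)))
            (fun k => l true * z (blkIn ι υ (Sum.inr k))) := by
        funext x
        cases x <;> rfl
      rw [h2, h]
      simp [Function.comp_def, mul_comm])
    (by
      intro z l _ hz
      refine hspan _ ?_
      rintro q ⟨d, p, hp, hp0, rfl⟩
      have h0 := hz _ (Ideal.subset_span ⟨d, p, hp, hp0, rfl⟩)
      rw [MvPolynomial.eval_rename] at h0 ⊢
      have := eval_smul_of_isHomogeneous hp (l false) (z ∘ fun i => blkIn ι υ (Sum.inl i))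
      rw [h0, mul_zero] at this
      exact this)
    (by
      intro z hz hΦ
      by_contra hcon
      push Not at hcon
      obtain ⟨i₁, hi₁⟩ := hcon false
      obtain ⟨k₁, hk₁⟩ := hcon true
      set z₁ : ι → K := fun i => z (blkIn ι υ (Sum.inl i)) with hz₁
      set u : υ → K := fun k => z (blkIn ι υ (Sum.inr k)) with hu
      have hz₁0 : z₁ ≠ 0 := fun h => hi₁ (congrFun h (ULift.down (i₁ : ULift ι)))
      have hu0 : u ≠ 0 := fun h => hk₁ (congrFun h (ULift.down (k₁ : ULift υ)))
      obtain ⟨P, i₀, l, hl, hi₀, hord, hzl⟩ := closed_cone φ G hφ hbpf z₁ hz₁0 (by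
        intro d p hp hp0
        have h0 := hz _ (Ideal.subset_span ⟨d, p, hp, hp0, rfl⟩)
        rwa [MvPolynomial.eval_rename] at h0)
      obtain ⟨t, ht⟩ := hnz P i₀ hi₀ hord u hu0
      have h1 := hΦ t
      rw [MvPolynomial.eval_rename] at h1
      have h2 : z ∘ blkIn ι υ =
          Sum.elim (fun i => l * S27.val P (φ i / φ i₀)) (fun k => 1 * u k) := by
        have := hsplit z
        rw [Function.comp_def, this]
        congr 1
        · funext i; exact hzl i
        · funext k; rw [one_mul]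
      rw [h2, hhom] at h1
      exact ht (by simpa [hl] using h1))
  refine ⟨γ, fun v P hP u hu => ?_⟩
  set w : ι ⊕ υ → K := Sum.elim (fun i => S27.val P (φ i)) u with hw
  have hadic : ∀ i, P.adicValuation (φ i) ≤ 1 := fun i => adic_le_one_of_mem (hφ i) hP
  have h := hγ v (fun x => w (blkOut ι υ x))
    (by
      refine hspan _ ?_
      rintro q ⟨d, p, hp, hp0, rfl⟩
      rw [MvPolynomial.eval_rename]
      have := (val_mvAeval P φ hadic p).2
      rw [hp0] at this
      have h0 : S27.val P (0 : F) = 0 := by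
        have := S27.val_algebraMap P (0 : K)
        rwa [map_zero] at this
      rw [h0] at this
      rw [this]
      rfl)
    (by
      intro b
      cases b with
      | false =>
        obtain ⟨i, hi0, hi⟩ := hbpf P
        rw [hP, neg_zero] at hi
        exact ⟨(ULift.up i : ULift ι), val_ne_zero_of_ord hi0 hi⟩
      | true =>
        have : ∃ k, u k ≠ 0 := by
          by_contra hcon
          push Not at hcon
          exact hu (funext hcon)
        obtain ⟨k, hk⟩ := this
        exact ⟨(ULift.up k : ULift υ), hk⟩)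
  have he : ∀ t, MvPolynomial.eval (fun x => w (blkOut ι υ x))
      (MvPolynomial.rename (blkIn ι υ) (Φ t)) = MvPolynomial.eval w (Φ t) := by
    intro t
    rw [MvPolynomial.eval_rename]
    congr 2
    funext x
    simp [blkOut_blkIn]
  simp only [he, Fintype.prod_bool, cond_true, cond_false] at h
  have hn1 : (nrm v fun i : blk ι υ false => w (blkOut ι υ ⟨false, i⟩)) =
      nrm v fun i => S27.val P (φ i) :=
    nrm_comp_equiv v (Equiv.ulift : ULift ι ≃ ι) (fun i => S27.val P (φ i))
  have hn2 : (nrm v fun k : blk ι υ true => w (blkOut ι υ ⟨true, k⟩)) = nrm v u :=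
    nrm_comp_equiv v (Equiv.ulift : ULift υ ≃ υ) u
  rw [hn1, hn2, mul_comm] at h
  exact h

theorem bpf_curve {ι : Type*} [Finite ι] (φ : ι → F) (G : Divisor K F)
    (hφ : ∀ i, φ i ∈ riemannRochSpace G)
    (hbpf : ∀ P : Place K F, ∃ i, φ i ≠ 0 ∧ P.ord (φ i) = - G P)
    (ψ : F) (hψ : ψ ∈ riemannRochSpace G) :
    ∃ γ : MC K, ∀ (v : AbsoluteValue K ℝ) (P : Place K F), G P = 0 →
      v (S27.val P ψ) ≤ γ.val v * nrm v fun i => S27.val P (φ i) := by
  classical
  obtain ⟨γ, hγ⟩ := bpf_prod (υ := Unit) (τ := ι) (fun o : Option ι => o.elim ψ φ) G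
    (by
      intro o
      cases o with
      | none => exact hψ
      | some i => exact hφ i)
    (by
      intro P
      obtain ⟨i, hi⟩ := hbpf P
      exact ⟨some i, hi⟩)
    (fun i => MvPolynomial.X (Sum.inl (some i))) 1 0
    (by
      intro t z u a b
      simp)
    (by
      intro P i₀ hi₀ hord u _
      obtain ⟨i, hi0, hi⟩ := hbpf P
      refine ⟨i, ?_⟩
      simp only [MvPolynomial.eval_X, Sum.elim_inl, Option.elim_some]
      refine val_ne_zero_of_ord (div_ne_zero hi0 hi₀) ?_
      rw [div_eq_mul_inv, P.ord_mul hi0 (inv_ne_zero hi₀), P.ord_inv, hi, hord, add_neg_cancel])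
  refine ⟨γ, fun v P hP => ?_⟩
  have h := hγ v P hP (fun _ => 1) (by
    intro h
    exact one_ne_zero (congrFun h ()))
  simp only [pow_one, pow_zero, mul_one, MvPolynomial.eval_X, Sum.elim_inl, Option.elim_some] at h
  exact (le_nrm v (fun o : Option ι => S27.val P (o.elim ψ φ)) none).trans h

end Fermat.Agent.S17.El
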