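import Mathlib
import Fermat.Agent.S27.Val
import Fermat.Agent.S27.LSpace.IsFF1
import Fermat.Agent.RR.Weil

/-!
# S17 (Mordell-Weil for J0(N)), height part: basic definitions of the LOCAL theory

Blueprint: board #1100 (topic S17).  FROZEN FILE (owner helper44): do not edit.

`K` algebraically closed of characteristic `0`, `F/K` a function field (`S27.IsFF`), `oo` a place.
All local estimates are statements about an ARBITRARY absolute value `v : AbsoluteValue K ℝ`
with constants of the shape `γ.val v`, `γ : MC K` ("M-constants"), independent of `v` and of the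
points.  All estimates are written in `n`-th powers (`n = deg x`), so that no real powers occur.
-/

set_option autoImplicit false

open AlgebraicCurve

namespace Fermat.Agent.S17.El

/-- data of an `M`-constant: finitely many elements of `K`, an exponent, an archimedean factor. -/
structure MC (K : Type*) where
  c : List K
  N : ℕ
  A : ℕ

section MC

variable {K : Type*} [Field K]

open Classical in
/-- the value of an `M`-constant at the absolute value `v`:
`(A + 1 if v is archimedean, 1 otherwise) * max(1, v c₁, …, v c_t) ^ N`. -/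
noncomputable def MC.val (γ : MC K) (v : AbsoluteValue K ℝ) : ℝ :=
  (if IsNonarchimedean v then 1 else ((γ.A : ℝ) + 1)) *
    (γ.c.foldr (fun a r => max (v a) r) 1) ^ γ.N

/-- sup norm of a finite tuple. -/
noncomputable def nrm {ι : Type*} (v : AbsoluteValue K ℝ) (z : ι → K) : ℝ := ⨆ i, v (z i)

end MC

variable {K F : Type*} [Field K] [Field F] [Algebra K F]

/-- the ring `A` of functions regular outside `oo`. -/
def Reg (oo : Place K F) : Subalgebra K F where
  carrier := {f | ∀ P : Place K F, P ≠ oo → f ∈ P.toValuationSubring}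
  mul_mem' := fun ha hb P hP => mul_mem (ha P hP) (hb P hP)
  add_mem' := fun ha hb P hP => add_mem (ha P hP) (hb P hP)
  algebraMap_mem' := fun a P _ => P.algebraMap_mem' a

theorem mem_Reg {oo : Place K F} {f : F} :
    f ∈ Reg oo ↔ ∀ P : Place K F, P ≠ oo → f ∈ P.toValuationSubring := Iff.rfl

/-- `V oo k = L(k·oo)`. -/
noncomputable abbrev V (oo : Place K F) (k : ℕ) : Submodule K F :=
  riemannRochSpace (Finsupp.single oo (k : ℤ))

/-- the degree (pole order at `oo`) of `f`. -/
noncomputable def dg (oo : Place K F) (f : F) : ℕ := (-(oo.ord f)).toNat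

section zprod

variable [HasPrincipalDivisors K F]

open Classical in
/-- `∏_{P ∈ Z(f)} φ P` (affine zeros of `f`, with multiplicities). -/
noncomputable def zprod {M : Type*} [CommMonoid M] (oo : Place K F) (f : F)
    (φ : Place K F → M) : M :=
  ∏ P ∈ (RR.divOf K f).support.erase oo, φ P ^ (P.ord f).toNat

open Classical in
/-- `∏_{Q ∈ Z(f), Q ≠ P} φ Q` (affine zeros of `f` other than `P`, with multiplicities). -/
noncomputable def zprodE {M : Type*} [CommMonoid M] (oo : Place K F) (f : F) (P : Place K F)
    (φ : Place K F → M) : M :=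
  ∏ Q ∈ ((RR.divOf K f).support.erase oo).erase P, φ Q ^ (Q.ord f).toNat

end zprod

/-- The fixed data of the local theory. -/
structure Cv (K F : Type*) [Field K] [Field F] [Algebra K F] where
  /-- the base place -/
  oo : Place K F
  /-- a uniformiser at `oo` (normalises leading coefficients) -/
  t : F
  ht : oo.ord t = 1
  /-- the function defining the size of a point -/
  x : F
  hx : x ∈ Reg oo
  n : ℕ
  hn : 0 < n
  hxn : oo.ord x = -(n : ℤ)
  /-- the degree of the projective embedding used for the distance -/
  κ : ℕ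
  hκ : 2 * genusFF K F + 2 ≤ κ
  r : ℕ
  /-- a basis of `L(κ·oo)` -/
  e : Fin r → F
  he : LinearIndependent K e
  hspan : Submodule.span K (Set.range e) = V oo κ

namespace Cv

variable (C : Cv K F) (v : AbsoluteValue K ℝ)

/-- `X v P = |P|_v ^ n = max(1, v(x(P)))`. -/
noncomputable def X (P : Place K F) : ℝ := max 1 (v (S27.val P C.x))

/-- Plücker coordinate of the secant through `P`, `R`. -/
noncomputable def pl (P R : Place K F) (a b : Fin C.r) : K :=
  S27.val P (C.e a) * S27.val R (C.e b) - S27.val P (C.e b) * S27.val R (C.e a)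

/-- `D v P R = max_{a,b} v(e_a(P) e_b(R) - e_b(P) e_a(R))`. -/
noncomputable def D (P R : Place K F) : ℝ := ⨆ ab : Fin C.r × Fin C.r, v (C.pl P R ab.1 ab.2)

/-- `dn v P R = d_v(P,R) ^ n`, the `n`-th power of the unnormalised distance
`d_v(P,R) = D_v(P,R) / (|P|_v |R|_v)^(κ-1)`. -/
noncomputable def dn (P R : Place K F) : ℝ := C.D v P R ^ C.n / (C.X v P * C.X v R) ^ (C.κ - 1)

/-- leading coefficient at `oo`. -/
noncomputable def lc (f : F) : K := S27.val C.oo (f * C.t ^ dg C.oo f)

variable [HasPrincipalDivisors K F]

/-- `mun v f = μ_v(f) ^ n`, `μ_v(f) = v(lc f) ∏_{P ∈ Z(f)} |P|_v` (the Mahler measure of `f`). -/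
noncomputable def mun (f : F) : ℝ := v (C.lc f) ^ C.n * zprod C.oo f (C.X v)

/-- `y^P_{ab} = e_a(P) e_b - e_b(P) e_a`, a function in `L(κ·oo - P)`. -/
noncomputable def yy (P : Place K F) (a b : Fin C.r) : F :=
  S27.val P (C.e a) • C.e b - S27.val P (C.e b) • C.e a

/-- the affine ramification points of `x`. -/
def RamSet : Set (Place K F) :=
  {Q | Q ≠ C.oo ∧ 2 ≤ Q.ord (C.x - algebraMap K F (S27.val Q C.x))}

/-- ramification exponent `e_Q - 1 = ord_Q(dx)` at an affine place. -/
noncomputable def ram (Q : Place K F) : ℕ :=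
  (Q.ord (C.x - algebraMap K F (S27.val Q C.x)) - 1).toNat

end Cv

end Fermat.Agent.S17.El
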