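import Fermat.Agent.S17.El.DiffBpf

/-!
# S17/El: the lower bound `X(P)^(2κ+2g-2) ≤ γ max_ab v(Wr_ab(P))^n ∏_Q dn(Q,P)^(ram Q)`   (part of WP EL-DIFF)
-/

set_option autoImplicit false
set_option linter.unusedSectionVars false

open AlgebraicCurve

namespace Fermat.Agent.S17.El

variable {K F : Type*} [Field K] [Field F] [Algebra K F] [IsAlgClosed K] [CharZero K]
  [S27.IsFF K F]

namespace Cv

variable (C : Cv K F)

theorem diff_x_mem_ball (Q₀ : Place K F) :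
    C.x ∈ RR.ball Q₀ ((Finsupp.single C.oo (C.n : ℤ) : Divisor K F) Q₀) := by
  classical
  by_cases h : Q₀ = C.oo
  · subst h
    rw [Finsupp.single_eq_same]
    exact RR.mem_ball_iff.2 (Or.inr (by rw [C.hxn]))
  · rw [Finsupp.single_apply, if_neg (Ne.symm h)]
    exact RR.mem_ball_zero_iff.2 (C.hx Q₀ h)

/-- a base point free family of `L(M·oo)` controls the size. -/
theorem X_pow_le_bpf (M : ℕ) {ι : Type*} [Finite ι] (φ : ι → F) (hφ : ∀ i, φ i ∈ V C.oo M)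
    (hbpf : ∀ P : Place K F, ∃ i, φ i ≠ 0 ∧
      P.ord (φ i) = - (Finsupp.single C.oo (M : ℤ) : Divisor K F) P) :
    ∃ γ : MC K, ∀ (v : AbsoluteValue K ℝ) (P : Place K F), P ≠ C.oo →
      C.X v P ^ M ≤ γ.val v * (nrm v fun i => S27.val P (φ i)) ^ C.n := by
  classical
  set G : Divisor K F := C.n • Finsupp.single C.oo (M : ℤ) with hG
  have hGa : ∀ P, G P = (C.n : ℤ) * (Finsupp.single C.oo (M : ℤ) : Divisor K F) P := by
    intro P
    rw [hG, Finsupp.smul_apply, nsmul_eq_mul]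
  have h1 : ∀ i, φ i ^ C.n ∈ riemannRochSpace G := by
    intro i
    refine RR.mem_riemannRochSpace_iff_ball.2 fun P => ?_
    rw [hGa]
    exact diff_pow_mem_ball (RR.mem_riemannRochSpace_iff_ball.1 (hφ i) P) _
  have h2 : ∀ P : Place K F, ∃ i, φ i ^ C.n ≠ 0 ∧ P.ord (φ i ^ C.n) = - G P := by
    intro P
    obtain ⟨i, hi⟩ := hbpf P
    refine ⟨i, ?_⟩
    rw [hGa]
    exact ExOrd.pow (v := P) hi C.n
  have hGnn : ∀ P, 0 ≤ G P := by
    intro P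
    rw [hGa, Finsupp.single_apply]
    split_ifs <;> positivity
  have h3 : (1 : F) ∈ riemannRochSpace G :=
    RR.mem_riemannRochSpace_iff_ball.2 fun P => RR.ball_mono P (hGnn P) (RR.one_mem_ball_zero P)
  have h4 : C.x ^ M ∈ riemannRochSpace G := by
    refine RR.mem_riemannRochSpace_iff_ball.2 fun P => ?_
    have := diff_pow_mem_ball (C.diff_x_mem_ball P) M
    have hE : G P = (M : ℤ) * (Finsupp.single C.oo (C.n : ℤ) : Divisor K F) P := by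
      rw [hGa, Finsupp.single_apply, Finsupp.single_apply]
      split_ifs
      · exact mul_comm _ _
      · simp
    rw [hE]
    exact this
  obtain ⟨γ₁, hγ₁⟩ := bpf_curve (fun i => φ i ^ C.n) G h1 h2 1 h3
  obtain ⟨γ₂, hγ₂⟩ := bpf_curve (fun i => φ i ^ C.n) G h1 h2 (C.x ^ M) h4
  refine ⟨γ₁.mul γ₂, fun v P hP => ?_⟩
  have hGP : G P = 0 := by
    rw [hGa, Finsupp.single_apply, if_neg (Ne.symm hP), mul_zero]
  have hmem : ∀ i, φ i ∈ P.toValuationSubring := fun i => (mem_V_iff.1 (hφ i)).1 P hP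
  have hA : ∀ {g : F}, g ∈ P.toValuationSubring → P.adicValuation g ≤ 1 :=
    fun hg => (S27.adic_le_one_iff_mem P).2 hg
  have hn0 : 0 ≤ nrm v fun i => S27.val P (φ i) := nrm_nonneg v _
  have hle : (nrm v fun i => S27.val P (φ i ^ C.n)) ≤ (nrm v fun i => S27.val P (φ i)) ^ C.n := by
    refine nrm_le v (pow_nonneg hn0 _) fun i => ?_
    rw [S27.val_pow P (hA (hmem i)), map_pow]
    exact pow_le_pow_left₀ (v.nonneg _) (le_nrm v (fun i => S27.val P (φ i)) i) _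
  have hB : 0 ≤ (nrm v fun i => S27.val P (φ i)) ^ C.n := pow_nonneg hn0 _
  have e1 : (1 : ℝ) ≤ (γ₁.mul γ₂).val v * (nrm v fun i => S27.val P (φ i)) ^ C.n := by
    have := hγ₁ v P hGP
    rw [S27.val_one, map_one] at this
    calc (1 : ℝ) ≤ γ₁.val v * nrm v fun i => S27.val P (φ i ^ C.n) := this
      _ ≤ γ₁.val v * (nrm v fun i => S27.val P (φ i)) ^ C.n :=
        mul_le_mul_of_nonneg_left hle (γ₁.val_pos v).le
      _ ≤ _ := mul_le_mul_of_nonneg_right (γ₁.le_mul_left γ₂ v) hB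
  have e2 : v (S27.val P C.x) ^ M ≤ (γ₁.mul γ₂).val v * (nrm v fun i => S27.val P (φ i)) ^ C.n := by
    have := hγ₂ v P hGP
    rw [S27.val_pow P (hA (C.hx P hP)), map_pow] at this
    calc v (S27.val P C.x) ^ M ≤ γ₂.val v * nrm v fun i => S27.val P (φ i ^ C.n) := this
      _ ≤ γ₂.val v * (nrm v fun i => S27.val P (φ i)) ^ C.n :=
        mul_le_mul_of_nonneg_left hle (γ₂.val_pos v).le
      _ ≤ _ := mul_le_mul_of_nonneg_right (γ₁.le_mul_right γ₂ v) hB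
  unfold X
  rcases le_total 1 (v (S27.val P C.x)) with h | h
  · rw [max_eq_right h]; exact e2
  · rw [max_eq_left h, one_pow]; exact e1

theorem diff_D_pow_eq (v : AbsoluteValue K ℝ) (P R : Place K F) :
    C.D v P R ^ C.n = C.dn v P R * (C.X v P * C.X v R) ^ (C.κ - 1) := by
  unfold dn
  rw [div_mul_cancel₀]
  exact pow_ne_zero _ (mul_pos (C.X_pos v P) (C.X_pos v R)).ne'

theorem diff_X_le_ofElem (v : AbsoluteValue K ℝ) (Q : Place K F) :
    C.X v Q ≤ (MC.ofElem (S27.val Q C.x)).val v :=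
  max_le (MC.one_le_val _ v) (MC.le_ofElem _ v)

/-- the value of a member of the family at an unramified affine place. -/
theorem abv_val_fam_le (v : AbsoluteValue K ℝ) {P : Place K F} (hP : P ≠ C.oo)
    (hr : P ∉ C.RamSet) (i : C.Idx) :
    v (S27.val P (C.fam i)) ≤
      (nrm v fun ab : Fin C.r × Fin C.r => S27.val P (C.wr (C.e ab.1) (C.e ab.2))) *
        ∏ Q ∈ C.Rm, C.D v Q P ^ C.ram Q := by
  have hA : ∀ {g : F}, g ∈ P.toValuationSubring → P.adicValuation g ≤ 1 :=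
    fun hg => (S27.adic_le_one_iff_mem P).2 hg
  have he : ∀ a, C.e a ∈ P.toValuationSubring := fun a => (mem_V_iff.1 (C.e_mem a)).1 P hP
  have hy : ∀ (Q : Place K F) a b, C.yy Q a b ∈ P.toValuationSubring :=
    fun Q a b => (mem_V_iff.1 (C.yy_mem Q a b)).1 P hP
  have hw := C.wr_mem hP hr (he i.1.1) (he i.1.2)
  obtain ⟨hp1, hp2⟩ := diff_val_finset_prod P Finset.univ
    (fun Q : C.Rm => C.yy (Q : Place K F) (i.2 Q).1 (i.2 Q).2 ^ C.ram Q)
    (fun Q _ => pow_mem (hy _ _ _) _)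
  rw [fam, S27.val_mul P (hA hw) (hA hp1), hp2, map_mul, map_prod]
  refine mul_le_mul (le_nrm v
    (fun ab : Fin C.r × Fin C.r => S27.val P (C.wr (C.e ab.1) (C.e ab.2))) i.1) ?_
    (Finset.prod_nonneg fun _ _ => v.nonneg _) (nrm_nonneg v _)
  rw [← Finset.prod_coe_sort C.Rm (fun Q => C.D v Q P ^ C.ram Q)]
  refine Finset.prod_le_prod (fun _ _ => v.nonneg _) fun Q _ => ?_
  rw [S27.val_pow P (hA (hy _ _ _)), map_pow, C.val_yy hP]
  exact pow_le_pow_left₀ (v.nonneg _) (C.le_D v _ _ _ _) _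

/-- the lower bound for the Wronskians. -/
theorem wr_lower :
    ∃ γ : MC K, ∀ (v : AbsoluteValue K ℝ) (P : Place K F), P ≠ C.oo → P ∉ C.RamSet →
      C.X v P ^ (2 * (C.κ - 1) + 2 * genusFF K F) ≤ γ.val v *
        ((nrm v fun ab : Fin C.r × Fin C.r => S27.val P (C.wr (C.e ab.1) (C.e ab.2))) ^ C.n *
          ∏ Q ∈ C.Rm, C.dn v Q P ^ C.ram Q) := by
  classical
  obtain ⟨γ₂, hγ₂⟩ := C.X_pow_le_bpf C.MM C.fam C.fam_mem C.fam_bpf
  obtain ⟨γ₀, hγ₀⟩ := MC.exists_sup (fun Q : C.Rm => MC.ofElem (S27.val (Q : Place K F) C.x))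
  refine ⟨γ₂.mul (γ₀.pow ((C.κ - 1) * C.dl)), fun v P hP hr => ?_⟩
  set W := nrm v fun ab : Fin C.r × Fin C.r => S27.val P (C.wr (C.e ab.1) (C.e ab.2)) with hW
  have hW0 : 0 ≤ W := nrm_nonneg v _
  have hXP := C.X_pos v P
  have hD0 : 0 ≤ ∏ Q ∈ C.Rm, C.D v Q P ^ C.ram Q :=
    Finset.prod_nonneg fun Q _ => pow_nonneg (C.D_nonneg v Q P) _
  have hdn0 : 0 ≤ ∏ Q ∈ C.Rm, C.dn v Q P ^ C.ram Q :=
    Finset.prod_nonneg fun Q _ => pow_nonneg (C.dn_nonneg v Q P) _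
  have h1 : (nrm v fun i => S27.val P (C.fam i)) ≤ W * ∏ Q ∈ C.Rm, C.D v Q P ^ C.ram Q :=
    nrm_le v (mul_nonneg hW0 hD0) fun i => C.abv_val_fam_le v hP hr i
  have h2 : (∏ Q ∈ C.Rm, C.D v Q P ^ C.ram Q) ^ C.n ≤
      (∏ Q ∈ C.Rm, C.dn v Q P ^ C.ram Q) *
        ((γ₀.pow ((C.κ - 1) * C.dl)).val v * C.X v P ^ ((C.κ - 1) * C.dl)) := by
    have e1 : (∏ Q ∈ C.Rm, C.D v Q P ^ C.ram Q) ^ C.n =
        (∏ Q ∈ C.Rm, C.dn v Q P ^ C.ram Q) *
          ((∏ Q ∈ C.Rm, (C.X v Q ^ (C.κ - 1)) ^ C.ram Q) * C.X v P ^ ((C.κ - 1) * C.dl)) := by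
      rw [← Finset.prod_pow, dl, Finset.mul_sum, ← Finset.prod_pow_eq_pow_sum,
        ← Finset.prod_mul_distrib, ← Finset.prod_mul_distrib]
      refine Finset.prod_congr rfl fun Q _ => ?_
      rw [← pow_mul, mul_comm (C.ram Q) C.n, pow_mul, C.diff_D_pow_eq, mul_pow, mul_pow, mul_pow,
        pow_mul]
    rw [e1]
    refine mul_le_mul_of_nonneg_left ?_ hdn0
    refine mul_le_mul_of_nonneg_right ?_ (pow_nonneg hXP.le _)
    calc ∏ Q ∈ C.Rm, (C.X v Q ^ (C.κ - 1)) ^ C.ram Q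
        ≤ ∏ Q ∈ C.Rm, (γ₀.val v ^ (C.κ - 1)) ^ C.ram Q := by
          refine Finset.prod_le_prod
            (fun Q _ => pow_nonneg (pow_nonneg (C.X_pos v Q).le _) _) fun Q hQ => ?_
          refine pow_le_pow_left₀ (pow_nonneg (C.X_pos v Q).le _) ?_ _
          refine pow_le_pow_left₀ (C.X_pos v Q).le ?_ _
          exact (C.diff_X_le_ofElem v Q).trans (hγ₀ ⟨Q, hQ⟩ v)
      _ = γ₀.val v ^ ((C.κ - 1) * C.dl) := by
          rw [Finset.prod_pow_eq_pow_sum, ← pow_mul, dl]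
      _ ≤ _ := γ₀.val_pow_le _ v
  have h3 := hγ₂ v P hP
  have h4 : C.X v P ^ (2 * (C.κ - 1) + 2 * genusFF K F) * C.X v P ^ ((C.κ - 1) * C.dl) ≤
      ((γ₂.mul (γ₀.pow ((C.κ - 1) * C.dl))).val v *
        (W ^ C.n * ∏ Q ∈ C.Rm, C.dn v Q P ^ C.ram Q)) * C.X v P ^ ((C.κ - 1) * C.dl) := by
    rw [← pow_add]
    calc C.X v P ^ (2 * (C.κ - 1) + 2 * genusFF K F + (C.κ - 1) * C.dl)
        ≤ γ₂.val v * (nrm v fun i => S27.val P (C.fam i)) ^ C.n := h3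
      _ ≤ γ₂.val v * (W * ∏ Q ∈ C.Rm, C.D v Q P ^ C.ram Q) ^ C.n :=
          mul_le_mul_of_nonneg_left (pow_le_pow_left₀ (nrm_nonneg v _) h1 _) (γ₂.val_pos v).le
      _ = γ₂.val v * (W ^ C.n * (∏ Q ∈ C.Rm, C.D v Q P ^ C.ram Q) ^ C.n) := by rw [mul_pow]
      _ ≤ γ₂.val v * (W ^ C.n * ((∏ Q ∈ C.Rm, C.dn v Q P ^ C.ram Q) *
            ((γ₀.pow ((C.κ - 1) * C.dl)).val v * C.X v P ^ ((C.κ - 1) * C.dl)))) :=
          mul_le_mul_of_nonneg_left (mul_le_mul_of_nonneg_left h2 (pow_nonneg hW0 _))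
            (γ₂.val_pos v).le
      _ = (γ₂.val v * (γ₀.pow ((C.κ - 1) * C.dl)).val v) *
            ((W ^ C.n * ∏ Q ∈ C.Rm, C.dn v Q P ^ C.ram Q) * C.X v P ^ ((C.κ - 1) * C.dl)) := by
          ring
      _ ≤ (γ₂.mul (γ₀.pow ((C.κ - 1) * C.dl))).val v *
            ((W ^ C.n * ∏ Q ∈ C.Rm, C.dn v Q P ^ C.ram Q) * C.X v P ^ ((C.κ - 1) * C.dl)) :=
          mul_le_mul_of_nonneg_right (γ₂.val_mul_le _ v)
            (mul_nonneg (mul_nonneg (pow_nonneg hW0 _) hdn0) (pow_nonneg hXP.le _))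
      _ = _ := by ring
  exact le_of_mul_le_mul_right h4 (pow_pos hXP _)

end Cv

end Fermat.Agent.S17.El
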