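import Fermat.Agent.S17.El.ZP
import Fermat.Agent.RR.Hurwitz

/-!
# S17/El: ramification of `x`   (WP EL-RAM)

`ram Q = ord_Q(dx)` for `Q` affine (`RR.ordDifferential_D_eq` applied to `x - x(Q)`, char. 0), `ord_oo(dx) = -n-1`, finiteness
(`RR.finite_ordDifferential_ne_zero`), `∑_Q ram Q = 2g - 2 + n + 1` (`RR.degree_kaehler`; `dx ≠ 0`: `RR.D_ne_zero_of_ord_eq_one`-type / `ordDifferential_D_eq`).
-/

set_option autoImplicit false
set_option linter.unusedSectionVars false

open AlgebraicCurve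

namespace Fermat.Agent.S17.El

variable {K F : Type*} [Field K] [Field F] [Algebra K F] [IsAlgClosed K] [CharZero K]
  [S27.IsFF K F]

variable (K F) in
/-- `Ω[F/K]` is one-dimensional. -/
theorem finrank_kaehler_FF : Module.finrank F Ω[F⁄K] = 1 := by
  obtain ⟨x, hx⟩ := S27.IsFF.exists_param (K := K) (F := F)
  have := hx.finite
  have : Algebra.IsSeparable (IntermediateField.adjoin K {x}) F := inferInstance
  exact RR.finrank_kaehler_of_isSeparable (x := x)

/-- `f - f(P)` vanishes at `P`. -/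
theorem ord_sub_val_pos {P : Place K F} {f : F} (hf : f ∈ P.toValuationSubring)
    (h0 : f - algebraMap K F (S27.val P f) ≠ 0) :
    1 ≤ P.ord (f - algebraMap K F (S27.val P f)) := by
  have h := S27.val_spec P ((S27.adic_le_one_iff_mem P).2 hf)
  have := ((S27.adic_lt_one_iff_ord P).1 h).resolve_left h0
  omega

namespace Cv

variable (C : Cv K F)

theorem x_sub_const_ne_zero (c : K) : C.x - algebraMap K F c ≠ 0 := by
  intro h
  have hx : C.x = algebraMap K F c := sub_eq_zero.mp h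
  have h1 := C.hxn
  rw [hx] at h1
  have hn := C.hn
  rcases eq_or_ne c 0 with rfl | hc
  · simp at h1
    omega
  · rw [S24.Place.ord_algebraMap] at h1
    omega

theorem one_le_ord_x_sub {Q : Place K F} (hQ : Q ≠ C.oo) :
    1 ≤ Q.ord (C.x - algebraMap K F (S27.val Q C.x)) :=
  ord_sub_val_pos (C.hx Q hQ) (C.x_sub_const_ne_zero _)

theorem D_x_sub_const (c : K) :
    KaehlerDifferential.D K F (C.x - algebraMap K F c) = KaehlerDifferential.D K F C.x := by
  rw [map_sub, Derivation.map_algebraMap, sub_zero]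

/-- `ram Q = ord_Q(dx)`. -/
theorem ordDifferential_dx {Q : Place K F} (hQ : Q ≠ C.oo) :
    Q.ordDifferential (KaehlerDifferential.D K F C.x) = C.ram Q := by
  have h1 := C.one_le_ord_x_sub hQ
  have h2 := RR.ordDifferential_D_eq (finrank_kaehler_FF K F) Q
    (g := C.x - algebraMap K F (S27.val Q C.x)) (by
      rw [Ne, Int.cast_eq_zero]; omega)
  rw [C.D_x_sub_const] at h2
  rw [h2, ram, Int.toNat_of_nonneg (by omega)]

theorem ordDifferential_dx_oo :
    C.oo.ordDifferential (KaehlerDifferential.D K F C.x) = -(C.n : ℤ) - 1 := by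
  have hn := C.hn
  have h2 := RR.ordDifferential_D_eq (finrank_kaehler_FF K F) C.oo (g := C.x) (by
      rw [Ne, Int.cast_eq_zero, C.hxn]; omega)
  rw [h2, C.hxn]

theorem D_x_ne_zero : KaehlerDifferential.D K F C.x ≠ 0 := by
  intro h
  have h1 := C.ordDifferential_dx_oo
  rw [h] at h1
  have h2 : C.oo.ordDifferential (0 : Ω[F⁄K]) = 0 := by
    have := RR.dCoordGenerates (finrank_kaehler_FF K F) C.oo
    have := RR.nontrivial_kaehler (finrank_kaehler_FF K F)
    rw [Place.ordDifferential, Place.differentialCoeff_zero, Place.ord_zero]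
  have hn := C.hn
  omega

theorem mem_ramSet_iff {Q : Place K F} : Q ∈ C.RamSet ↔ Q ≠ C.oo ∧ C.ram Q ≠ 0 := by
  unfold RamSet ram
  simp only [Set.mem_ofPred_eq]
  constructor
  · rintro ⟨h1, h2⟩
    exact ⟨h1, by omega⟩
  · rintro ⟨h1, h2⟩
    exact ⟨h1, by omega⟩

theorem finite_ramSet : C.RamSet.Finite := by
  refine (RR.finite_ordDifferential_ne_zero (finrank_kaehler_FF K F) C.D_x_ne_zero).subset ?_
  intro Q hQ
  obtain ⟨h1, h2⟩ := C.mem_ramSet_iff.1 hQ
  show Q.ordDifferential _ ≠ 0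
  rw [C.ordDifferential_dx h1]
  exact_mod_cast h2

theorem sum_ram : ∑ Q ∈ C.finite_ramSet.toFinset, C.ram Q = 2 * genusFF K F + C.n - 1 := by
  classical
  have h1 := finrank_kaehler_FF K F
  obtain ⟨W, hW⟩ := (RR.hasCanonicalDivisor h1).exists_divisor _ C.D_x_ne_zero
  have hdeg := RR.degree_kaehler h1 C.D_x_ne_zero hW
  have hoo : C.oo ∉ C.finite_ramSet.toFinset := by
    rw [Set.Finite.mem_toFinset]
    intro h
    exact (C.mem_ramSet_iff.1 h).1 rfl
  have hsub : W.support ⊆ insert C.oo C.finite_ramSet.toFinset := by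
    intro Q hQ
    rw [Finsupp.mem_support_iff, hW] at hQ
    rw [Finset.mem_insert, Set.Finite.mem_toFinset]
    by_cases hQo : Q = C.oo
    · exact Or.inl hQo
    · right
      rw [C.ordDifferential_dx hQo] at hQ
      exact C.mem_ramSet_iff.2 ⟨hQo, by exact_mod_cast hQ⟩
  rw [S27.degree_eq_sum W _ hsub, Finset.sum_insert hoo, hW, C.ordDifferential_dx_oo] at hdeg
  have hsum : ∑ Q ∈ C.finite_ramSet.toFinset, W Q =
      ((∑ Q ∈ C.finite_ramSet.toFinset, C.ram Q : ℕ) : ℤ) := by
    rw [Nat.cast_sum]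
    refine Finset.sum_congr rfl fun Q hQ => ?_
    rw [Set.Finite.mem_toFinset] at hQ
    rw [hW, C.ordDifferential_dx (C.mem_ramSet_iff.1 hQ).1]
  rw [hsum] at hdeg
  have hn := C.hn
  omega

theorem ord_sub_val_eq_one {P : Place K F} (hP : P ≠ C.oo) (hr : P ∉ C.RamSet) :
    P.ord (C.x - algebraMap K F (S27.val P C.x)) = 1 := by
  have h1 := C.one_le_ord_x_sub hP
  have h2 : ¬ (2 ≤ P.ord (C.x - algebraMap K F (S27.val P C.x))) := fun h => hr ⟨hP, h⟩
  omega

end Cv

end Fermat.Agent.S17.El
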