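import Fermat.Agent.S17.El.K2d
import Fermat.Agent.S17.El.Ram
import Fermat.Agent.S17.El.DiffLow

/-!
# S17/El: (DIFF) the different   (WP EL-DIFF; EL-RAM is in Ram.lean)

For `P` affine, unramified for `x`:
`∏_{P' ∈ Z(x - x(P)) - P} dn(P',P) * X(P)^(2g) ≤ γ ∏_{Q ∈ Ram} dn(Q,P)^(ram Q)`.

EL-RAM: `ram Q = ord_Q(dx)` for `Q` affine (`RR.ordDifferential_D_eq` applied to `x - x(Q)`), `ord_oo(dx) = -n-1`, finiteness
 (`RR.finite_ordDifferential_ne_zero`), `∑_Q ram Q = 2g - 2 + n + 1` (`RR.degree_kaehler`).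
EL-DIFF.  `Wr_ab := (e_a de_b - e_b de_a)/dx ∈ F` (`Ω[F/K]` is one-dimensional, `RR.finrank_kaehler`).  For `P` affine unramified:
 `val P Wr_ab = (yy P a b / (x - x(P)))(P)`  (l'Hôpital: `y = (x - x(P)) h` ⇒ `dy = h dx + (x - x(P)) dh`).
 (1) `Cv.K2d` with `y = x - x(P)`, `f = yy P a b` (when `Wr_ab(P) ≠ 0`, i.e. `ord_P y = 1`; `m = max n κ`):
     `LHS₀ * v(Wr_ab(P))^n ≤ γ v(lc y)^n ∏_{Q ∈ Z(y)-P} dn(Q,P) ≤ γ' mun(y)/X(P) * X(P)^(κ-1) ≤ γ'' X(P)^(2κ-2)`   (`dn_le`, `K1a`, `size_le`; `lc (x - c) = lc x` fixed),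
     `LHS₀ := ∏_{P' ∈ Z(x-x(P))-P} dn(P',P)`.   (`wr_upper` below)
 (2) the family `Wr_ab * ∏_{Q ∈ Ram} y_Q ^ ram Q` (`y_Q` running through `yy Q a' b'`) lies in `L(M·oo)`, `M = 2κ - n - 1 + κ δ`, `δ = ∑ ram Q = 2g + n - 1`, and is base
     point free (`DiffBpf.lean`).  So `X(P)^M ≤ γ max v(...)^n` (`X_pow_le_bpf`), and
     `v(y_{Q}(P)) ≤ D(Q,P)`, `D(Q,P)^n = dn(Q,P) (X(Q)X(P))^(κ-1)`, `X(Q)` fixed.  Hence `X(P)^(2κ+2g-2) ≤ γ max_ab v(Wr_ab(P))^n ∏_Q dn(Q,P)^(ram Q)`  (`wr_lower`, `DiffLow.lean`).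
 (1)+(2) give the claim.
-/

set_option autoImplicit false
set_option linter.unusedSectionVars false

open AlgebraicCurve

namespace Fermat.Agent.S17.El

variable {K F : Type*} [Field K] [Field F] [Algebra K F] [IsAlgClosed K] [CharZero K]
  [S27.IsFF K F]

namespace Cv

variable (C : Cv K F)

theorem diff_dg_x : dg C.oo C.x = C.n := by
  rw [dg, C.hxn]; simp

theorem diff_x_mem_V : C.x ∈ V C.oo C.n :=
  mem_V_iff.2 ⟨C.hx, Or.inr (by rw [C.hxn])⟩

theorem diff_const_mem_V (k : ℕ) (c : K) : algebraMap K F c ∈ V C.oo k := by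
  refine mem_V_iff.2 ⟨(Reg C.oo).algebraMap_mem c, ?_⟩
  rcases eq_or_ne c 0 with rfl | hc
  · left; simp
  · right; rw [S24.Place.ord_algebraMap]; omega

/-- `∏_{Q ∈ Z(y) - P} dn(Q,P) ≤ (γ X(P))^(κ-1) ∏_{Q ∈ Z(y) - P} X(Q)`. -/
theorem zprodE_dn_le (γd : MC K)
    (hγd : ∀ (v : AbsoluteValue K ℝ) (P R : Place K F), P ≠ C.oo → R ≠ C.oo →
      C.dn v P R ≤ γd.val v * (C.X v P * C.X v R))
    (v : AbsoluteValue K ℝ) {P : Place K F} (hP : P ≠ C.oo) {y : F} (hy : y ∈ V C.oo C.κ)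
    (hy1 : P.ord y = 1) :
    zprodE C.oo y P (fun Q => C.dn v Q P) ≤
      (γd.val v * C.X v P) ^ (C.κ - 1) * zprodE C.oo y P (C.X v) := by
  classical
  have hy0 : y ≠ 0 := by rintro rfl; simp at hy1
  have hyR : y ∈ Reg C.oo := (mem_V_iff.1 hy).1
  have hsum := sum_ord_eq_dg hyR hy0
  have hPm : P ∈ (RR.divOf K y).support.erase C.oo := by
    rw [Finset.mem_erase, Finsupp.mem_support_iff, RR.divOf_apply, hy1]
    exact ⟨hP, one_ne_zero⟩
  rw [← Finset.add_sum_erase _ _ hPm, hy1] at hsum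
  have hdg : dg C.oo y ≤ C.κ := by
    have := (mem_V_iff.1 hy).2.resolve_left hy0
    rw [dg]; omega
  have hs : ∑ Q ∈ ((RR.divOf K y).support.erase C.oo).erase P, (Q.ord y).toNat ≤ C.κ - 1 := by
    simp only [Int.toNat_one] at hsum
    omega
  have hb : 1 ≤ γd.val v * C.X v P := by
    have h1 := γd.one_le_val v
    have h2 := C.one_le_X v P
    nlinarith
  unfold zprodE
  calc ∏ Q ∈ ((RR.divOf K y).support.erase C.oo).erase P, C.dn v Q P ^ (Q.ord y).toNat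
      ≤ ∏ Q ∈ ((RR.divOf K y).support.erase C.oo).erase P,
          ((γd.val v * C.X v P) * C.X v Q) ^ (Q.ord y).toNat := by
        refine Finset.prod_le_prod (fun Q _ => pow_nonneg (C.dn_nonneg v Q P) _) fun Q hQ => ?_
        refine pow_le_pow_left₀ (C.dn_nonneg v Q P) ?_ _
        have hQo : Q ≠ C.oo := (Finset.mem_erase.1 (Finset.mem_erase.1 hQ).2).1
        calc C.dn v Q P ≤ γd.val v * (C.X v Q * C.X v P) := hγd v Q P hQo hP
          _ = _ := by ring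
    _ = (γd.val v * C.X v P) ^
          (∑ Q ∈ ((RR.divOf K y).support.erase C.oo).erase P, (Q.ord y).toNat) *
        ∏ Q ∈ ((RR.divOf K y).support.erase C.oo).erase P, C.X v Q ^ (Q.ord y).toNat := by
        rw [← Finset.prod_pow_eq_pow_sum, ← Finset.prod_mul_distrib]
        exact Finset.prod_congr rfl fun Q _ => mul_pow _ _ _
    _ ≤ _ := by
        refine mul_le_mul_of_nonneg_right (pow_le_pow_right₀ hb hs) ?_
        exact Finset.prod_nonneg fun Q _ => pow_nonneg (C.X_pos v Q).le _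

/-- the upper bound for the Wronskians. -/
theorem wr_upper :
    ∃ γ : MC K, ∀ (v : AbsoluteValue K ℝ) (P : Place K F), P ≠ C.oo → P ∉ C.RamSet →
      ∀ a b : Fin C.r,
        v (S27.val P (C.wr (C.e a) (C.e b))) ^ C.n *
          zprodE C.oo (C.x - algebraMap K F (S27.val P C.x)) P (fun P' => C.dn v P' P) ≤
        γ.val v * C.X v P ^ (2 * (C.κ - 1)) := by
  classical
  obtain ⟨γ₂, hγ₂⟩ := C.K2d (max C.n C.κ)
  obtain ⟨γd, hγd⟩ := C.dn_le
  choose γK hγK using fun ab : Fin C.r × Fin C.r =>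
    C.K1a ![C.e ab.2, C.e ab.1] (by
      intro i
      fin_cases i
      · exact (mem_V_iff.1 (C.e_mem ab.2)).1
      · exact (mem_V_iff.1 (C.e_mem ab.1)).1)
  obtain ⟨γK', hγK'⟩ := MC.exists_sup γK
  choose γs hγs using fun a : Fin C.r => C.size_le C.κ (C.e_mem a)
  obtain ⟨γs', hγs'⟩ := MC.exists_sup γs
  set γl : MC K := (MC.ofElem (C.lc C.x)⁻¹).pow C.n with hγl
  refine ⟨γl.mul (γ₂.mul ((γd.pow (C.κ - 1)).mul (γK'.mul γs'))), fun v P hP hr a b => ?_⟩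
  set t := C.x - algebraMap K F (S27.val P C.x) with ht
  set y := C.yy P a b with hy
  set L₀ := zprodE C.oo t P (fun P' => C.dn v P' P) with hL₀
  have hXP := C.X_pos v P
  have hκ : C.κ = (C.κ - 1) + 1 := by have := C.hκ; omega
  have hL₀nn : 0 ≤ L₀ := Finset.prod_nonneg fun Q _ => pow_nonneg (C.dn_nonneg v Q P) _
  have he : ∀ a, C.e a ∈ P.toValuationSubring := fun a => (mem_V_iff.1 (C.e_mem a)).1 P hP
  have hval : S27.val P (C.wr (C.e a) (C.e b)) = S27.val P (y / t) := C.val_wr hP hr (he a) (he b)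
  rw [hval]
  have hRHS : 0 ≤ (γl.mul (γ₂.mul ((γd.pow (C.κ - 1)).mul (γK'.mul γs')))).val v *
      C.X v P ^ (2 * (C.κ - 1)) := mul_nonneg (MC.val_pos _ v).le (pow_nonneg hXP.le _)
  by_cases hw : S27.val P (y / t) = 0
  · rw [hw, map_zero, zero_pow C.hn.ne', zero_mul]
    exact hRHS
  have ht1 : P.ord t = 1 := C.ord_sub_val_eq_one hP hr
  have ht0 : t ≠ 0 := C.x_sub_const_ne_zero _
  have hy0 : y ≠ 0 := by
    intro h
    rw [h, zero_div] at hw
    exact hw (by simpa using S27.val_algebraMap P (0 : K))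
  have hy1 : P.ord y = 1 := by
    have h1 : P.adicValuation (y / t) ≤ 1 := by
      by_contra h
      exact hw (S27.val_of_pole P h)
    have h2 : ¬ P.adicValuation (y / t) < 1 := fun h => hw ((S27.val_eq_zero_iff P h1).2 h)
    have h3 : 0 ≤ P.ord (y / t) :=
      S24.Place.ord_nonneg_of_mem P ((S27.adic_le_one_iff_mem P).1 h1)
    have h4 : ¬ 0 < P.ord (y / t) := fun h => h2 ((S27.adic_lt_one_iff_ord P).2 (Or.inr h))
    rw [div_eq_mul_inv, P.ord_mul hy0 (inv_ne_zero ht0), P.ord_inv, ht1] at h3 h4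
    omega
  have hyV : y ∈ V C.oo C.κ := C.yy_mem P a b
  have htV : t ∈ V C.oo C.n := sub_mem C.diff_x_mem_V (C.diff_const_mem_V _ _)
  have hK2 := hγ₂ v y t (V_mono C.oo (le_max_right _ _) hyV) (V_mono C.oo (le_max_left _ _) htV)
    P hP hy1 ht1
  have hlc : C.lc t = C.lc C.x := C.lc_sub_const (by rw [C.diff_dg_x]; exact C.hn) _
  rw [hlc] at hK2
  -- the Mahler measure of `y`
  have hmun : C.X v P * (v (C.lc y) ^ C.n * zprodE C.oo y P (C.X v)) = C.mun v y := by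
    rw [mun, zprod_eq_mul_zprodE hP, hy1]
    simp only [Int.toNat_one, pow_one]
    ring
  have hysum : y = ∑ i, (![S27.val P (C.e a), - S27.val P (C.e b)] : Fin 2 → K) i •
      (![C.e b, C.e a] : Fin 2 → F) i := by
    rw [Fin.sum_univ_two, hy, yy]
    simp [sub_eq_add_neg]
  have hnrm : nrm v (![S27.val P (C.e a), - S27.val P (C.e b)] : Fin 2 → K) ^ C.n ≤
      γs'.val v * C.X v P ^ C.κ := by
    obtain ⟨i, hi⟩ := exists_eq_nrm v (![S27.val P (C.e a), - S27.val P (C.e b)] : Fin 2 → K)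
    rw [hi]
    fin_cases i
    · exact (hγs a v P hP).trans
        (mul_le_mul_of_nonneg_right (hγs' a v) (pow_nonneg hXP.le _))
    · simp only [Fin.mk_one, Matrix.cons_val_one, Matrix.cons_val_fin_one, map_neg_eq_map]
      exact (hγs b v P hP).trans
        (mul_le_mul_of_nonneg_right (hγs' b v) (pow_nonneg hXP.le _))
  have hmun_le : C.mun v y ≤ (γK'.mul γs').val v * C.X v P ^ C.κ := by
    have h1 := hγK (a, b) v ![S27.val P (C.e a), - S27.val P (C.e b)]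
    rw [← hysum] at h1
    calc C.mun v y ≤ (γK (a, b)).val v *
          nrm v (![S27.val P (C.e a), - S27.val P (C.e b)] : Fin 2 → K) ^ C.n := h1
      _ ≤ γK'.val v * (γs'.val v * C.X v P ^ C.κ) :=
          mul_le_mul (hγK' (a, b) v) hnrm (pow_nonneg (nrm_nonneg v _) _) (γK'.val_pos v).le
      _ = (γK'.val v * γs'.val v) * C.X v P ^ C.κ := by ring
      _ ≤ _ := mul_le_mul_of_nonneg_right (γK'.val_mul_le γs' v) (pow_nonneg hXP.le _)
  have hB : v (C.lc y) ^ C.n * zprodE C.oo y P (C.X v) ≤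
      (γK'.mul γs').val v * C.X v P ^ (C.κ - 1) := by
    rw [← hmun, hκ, pow_succ] at hmun_le
    have : C.X v P * (v (C.lc y) ^ C.n * zprodE C.oo y P (C.X v)) ≤
        C.X v P * ((γK'.mul γs').val v * C.X v P ^ (C.κ - 1)) := by
      calc _ ≤ _ := hmun_le
        _ = _ := by ring
    exact le_of_mul_le_mul_left this hXP
  have hA := C.zprodE_dn_le γd hγd v hP hyV hy1
  have hlcx : C.lc C.x ≠ 0 := C.lc_ne_zero C.hx (by
    intro h
    have := C.x_sub_const_ne_zero 0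
    simp [h] at this)
  have hvl : v (C.lc C.x)⁻¹ ^ C.n * v (C.lc C.x) ^ C.n = 1 := by
    rw [← mul_pow, ← map_mul, inv_mul_cancel₀ hlcx, map_one, one_pow]
  have hγl_le : v (C.lc C.x)⁻¹ ^ C.n ≤ γl.val v :=
    (pow_le_pow_left₀ (v.nonneg _) (MC.le_ofElem _ v) _).trans (MC.val_pow_le _ _ v)
  set w := v (S27.val P (y / t)) ^ C.n with hwdef
  have hw0 : 0 ≤ w := pow_nonneg (v.nonneg _) _
  have hlcy0 : 0 ≤ v (C.lc y) ^ C.n := pow_nonneg (v.nonneg _) _
  have hmain : w * (v (C.lc C.x) ^ C.n * L₀) ≤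
      (γ₂.mul ((γd.pow (C.κ - 1)).mul (γK'.mul γs'))).val v * C.X v P ^ (2 * (C.κ - 1)) := by
    calc w * (v (C.lc C.x) ^ C.n * L₀)
        ≤ γ₂.val v * (v (C.lc y) ^ C.n * zprodE C.oo y P (fun Q => C.dn v Q P)) := hK2
      _ ≤ γ₂.val v * (v (C.lc y) ^ C.n *
            ((γd.val v * C.X v P) ^ (C.κ - 1) * zprodE C.oo y P (C.X v))) :=
          mul_le_mul_of_nonneg_left (mul_le_mul_of_nonneg_left hA hlcy0) (γ₂.val_pos v).le
      _ = γ₂.val v * ((γd.val v * C.X v P) ^ (C.κ - 1) *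
            (v (C.lc y) ^ C.n * zprodE C.oo y P (C.X v))) := by ring
      _ ≤ γ₂.val v * ((γd.val v * C.X v P) ^ (C.κ - 1) *
            ((γK'.mul γs').val v * C.X v P ^ (C.κ - 1))) :=
          mul_le_mul_of_nonneg_left (mul_le_mul_of_nonneg_left hB
            (pow_nonneg (mul_nonneg (γd.val_pos v).le hXP.le) _)) (γ₂.val_pos v).le
      _ = (γ₂.val v * (γd.val v ^ (C.κ - 1) * (γK'.mul γs').val v)) *
            C.X v P ^ (2 * (C.κ - 1)) := by
          rw [mul_pow, two_mul, pow_add]; ring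
      _ ≤ _ := by
          refine mul_le_mul_of_nonneg_right ?_ (pow_nonneg hXP.le _)
          refine le_trans ?_ (γ₂.val_mul_le _ v)
          refine mul_le_mul_of_nonneg_left ?_ (γ₂.val_pos v).le
          refine le_trans ?_ (MC.val_mul_le _ _ v)
          exact mul_le_mul_of_nonneg_right (γd.val_pow_le _ v) (MC.val_pos _ v).le
  calc w * L₀ = v (C.lc C.x)⁻¹ ^ C.n * (w * (v (C.lc C.x) ^ C.n * L₀)) := by
        calc w * L₀ = (v (C.lc C.x)⁻¹ ^ C.n * v (C.lc C.x) ^ C.n) * (w * L₀) := by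
              rw [hvl, one_mul]
          _ = _ := by ring
    _ ≤ γl.val v * ((γ₂.mul ((γd.pow (C.κ - 1)).mul (γK'.mul γs'))).val v *
          C.X v P ^ (2 * (C.κ - 1))) :=
        mul_le_mul hγl_le hmain
          (mul_nonneg hw0 (mul_nonneg (pow_nonneg (v.nonneg _) _) hL₀nn)) (γl.val_pos v).le
    _ = (γl.val v * (γ₂.mul ((γd.pow (C.κ - 1)).mul (γK'.mul γs'))).val v) *
          C.X v P ^ (2 * (C.κ - 1)) := by ring
    _ ≤ _ := mul_le_mul_of_nonneg_right (γl.val_mul_le _ v) (pow_nonneg hXP.le _)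

theorem diff_bound :
    ∃ γ : MC K, ∀ (v : AbsoluteValue K ℝ) (P : Place K F), P ≠ C.oo → P ∉ C.RamSet →
      zprodE C.oo (C.x - algebraMap K F (S27.val P C.x)) P (fun P' => C.dn v P' P) *
          C.X v P ^ (2 * genusFF K F) ≤
        γ.val v * ∏ Q ∈ C.finite_ramSet.toFinset, C.dn v Q P ^ C.ram Q := by
  classical
  obtain ⟨γL, hγL⟩ := C.wr_lower
  obtain ⟨γU, hγU⟩ := C.wr_upper
  refine ⟨γL.mul γU, fun v P hP hr => ?_⟩
  set L₀ := zprodE C.oo (C.x - algebraMap K F (S27.val P C.x)) P (fun P' => C.dn v P' P) with hL₀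
  set R₀ := ∏ Q ∈ C.finite_ramSet.toFinset, C.dn v Q P ^ C.ram Q with hR₀
  have hXP := C.X_pos v P
  have hL₀nn : 0 ≤ L₀ := Finset.prod_nonneg fun Q _ => pow_nonneg (C.dn_nonneg v Q P) _
  have hR₀nn : 0 ≤ R₀ := Finset.prod_nonneg fun Q _ => pow_nonneg (C.dn_nonneg v Q P) _
  obtain ⟨a₀, b₀, -⟩ := C.exists_wr_e_exact P
  have : Nonempty (Fin C.r × Fin C.r) := ⟨(a₀, b₀)⟩
  obtain ⟨ab, hab⟩ := exists_eq_nrm v
    (fun ab : Fin C.r × Fin C.r => S27.val P (C.wr (C.e ab.1) (C.e ab.2)))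
  have h1 := hγL v P hP hr
  rw [hab] at h1
  have h2 := hγU v P hP hr ab.1 ab.2
  have h3 : (L₀ * C.X v P ^ (2 * genusFF K F)) * C.X v P ^ (2 * (C.κ - 1)) ≤
      ((γL.mul γU).val v * R₀) * C.X v P ^ (2 * (C.κ - 1)) := by
    calc (L₀ * C.X v P ^ (2 * genusFF K F)) * C.X v P ^ (2 * (C.κ - 1))
        = L₀ * C.X v P ^ (2 * (C.κ - 1) + 2 * genusFF K F) := by rw [pow_add]; ring
      _ ≤ L₀ * (γL.val v * (v (S27.val P (C.wr (C.e ab.1) (C.e ab.2))) ^ C.n * R₀)) :=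
          mul_le_mul_of_nonneg_left h1 hL₀nn
      _ = γL.val v * ((v (S27.val P (C.wr (C.e ab.1) (C.e ab.2))) ^ C.n * L₀) * R₀) := by ring
      _ ≤ γL.val v * ((γU.val v * C.X v P ^ (2 * (C.κ - 1))) * R₀) :=
          mul_le_mul_of_nonneg_left (mul_le_mul_of_nonneg_right h2 hR₀nn) (γL.val_pos v).le
      _ = (γL.val v * γU.val v) * (R₀ * C.X v P ^ (2 * (C.κ - 1))) := by ring
      _ ≤ (γL.mul γU).val v * (R₀ * C.X v P ^ (2 * (C.κ - 1))) :=
          mul_le_mul_of_nonneg_right (γL.val_mul_le γU v)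
            (mul_nonneg hR₀nn (pow_nonneg hXP.le _))
      _ = _ := by ring
  exact le_of_mul_le_mul_right h3 (pow_pos hXP _)

end Cv

end Fermat.Agent.S17.El
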