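import Fermat.Agent.S17.El.Defs

/-!
# S17/El: existence of sections   (WP EL-SEC)

`deg D ≥ 2g` ⇒ `L(D - P) ⊊ L(D)` for every `P` (`RR.ell_eq_of_lt`: `ℓ(D) = deg D + 1 - g`, `ℓ(D - P) = deg D - g`), and a vector
space over an infinite field is not a finite union of proper subspaces (`Subspace.biUnion_ne_univ_of_top_notMem`,
or induction).  `f ∈ L(D) \ L(D - P)` means `ord_P f = - D P`.  This lemma yields ALL existence statements used in S17/El.
-/

set_option autoImplicit false

open AlgebraicCurve

namespace Fermat.Agent.S17.El

variable {K F : Type*} [Field K] [Field F] [Algebra K F] [IsAlgClosed K] [CharZero K]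
  [S27.IsFF K F]

theorem exists_section (D : Divisor K F) (hD : 2 * (genusFF K F : ℤ) ≤ Divisor.degree D)
    (S : Finset (Place K F)) :
    ∃ f ∈ riemannRochSpace D, f ≠ 0 ∧ ∀ P ∈ S, P.ord f = - D P := by
  classical
  have hell : (RR.ell D : ℤ) = Divisor.degree D + 1 - genusFF K F :=
    RR.ell_eq_of_lt (by omega)
  have hellP : ∀ P : Place K F, (RR.ell (D - Finsupp.single P 1) : ℤ) =
      Divisor.degree D - genusFF K F := by
    intro P
    have hdeg : Divisor.degree (D - Finsupp.single P 1) = Divisor.degree D - 1 := by
      rw [map_sub, Divisor.degree_single, S27.deg_eq_one]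
      simp
    rw [RR.ell_eq_of_lt (by rw [hdeg]; omega), hdeg]
    ring
  let p : Option S → Subspace K (riemannRochSpace D) := fun o =>
    match o with
    | none => ⊥
    | some P => (riemannRochSpace (D - Finsupp.single (P : Place K F) 1)).comap
        (riemannRochSpace D).subtype
  have hne : ⋃ i, (p i : Set (riemannRochSpace D)) ≠ Set.univ := by
    intro hcov
    obtain ⟨i, hi⟩ := Subspace.exists_eq_top_of_iUnion_eq_univ hcov
    cases i with
    | none =>
      have h1 : (⊥ : Subspace K (riemannRochSpace D)) = ⊤ := hi
      have h2 : Module.finrank K (riemannRochSpace D) = 0 := by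
        rw [← finrank_top, ← h1, finrank_bot]
      have h3 : RR.ell D = 0 := h2
      rw [h3] at hell
      have := Nat.cast_nonneg (α := ℤ) (genusFF K F)
      omega
    | some P =>
      have h1 : (riemannRochSpace (D - Finsupp.single (P : Place K F) 1)).comap
        (riemannRochSpace D).subtype = ⊤ := hi
      have h2 : riemannRochSpace D ≤ riemannRochSpace (D - Finsupp.single (P : Place K F) 1) := by
        intro f hf
        have : (⟨f, hf⟩ : riemannRochSpace D) ∈
            (riemannRochSpace (D - Finsupp.single (P : Place K F) 1)).comap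
              (riemannRochSpace D).subtype := by rw [h1]; trivial
        exact this
      have h3 : RR.ell D ≤ RR.ell (D - Finsupp.single (P : Place K F) 1) :=
        Submodule.finrank_mono h2
      have h4 := hellP P
      omega
  obtain ⟨f, hf⟩ := (Set.ne_univ_iff_exists_notMem _).mp hne
  rw [Set.mem_iUnion, not_exists] at hf
  have hf0 : (f : F) ≠ 0 := by
    intro h0
    apply hf none
    change f ∈ (⊥ : Subspace K (riemannRochSpace D))
    rw [Submodule.mem_bot]
    exact Subtype.ext h0
  refine ⟨f, f.2, hf0, fun P hP => ?_⟩
  have h1 : (f : F) ∉ riemannRochSpace (D - Finsupp.single P 1) := fun h => hf (some ⟨P, hP⟩) h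
  have h2 := mem_riemannRochSpace_iff.mp f.2
  rw [mem_riemannRochSpace_iff] at h1
  push Not at h1
  obtain ⟨w, _, hw⟩ := h1
  have h3 := (h2 w).resolve_left hf0
  by_cases hwP : w = P
  · subst hwP
    rw [Finsupp.sub_apply, Finsupp.single_eq_same] at hw
    omega
  · rw [Finsupp.sub_apply, Finsupp.single_eq_of_ne hwP] at hw
    omega

end Fermat.Agent.S17.El
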