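import Fermat.Agent.S17.El.ZP
import Fermat.Agent.S17.El.Sec
import Fermat.Agent.S17.El.MCBasic

/-!
# S17/El: the functions `yy`, the Plücker coordinates `pl`, positivity of `D`, `dn`   (WP EL-GEO)

`exists_pl_ne_zero`: `L(κ·oo)` separates points: `exists_section` for `D = κ·oo - P` (degree `≥ 2g+1`) gives `y ∈ L(κ·oo)` with `y(P) = 0`, `y(R) ≠ 0`;
expand `y` and `1` in the basis `e`.
-/

set_option autoImplicit false

open AlgebraicCurve

namespace Fermat.Agent.S17.El

variable {K F : Type*} [Field K] [Field F] [Algebra K F] [IsAlgClosed K] [CharZero K]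
  [S27.IsFF K F]

namespace Cv

variable (C : Cv K F) (v : AbsoluteValue K ℝ)

omit [IsAlgClosed K] [CharZero K] [S27.IsFF K F] in
theorem e_mem (a : Fin C.r) : C.e a ∈ V C.oo C.κ := by
  rw [← C.hspan]
  exact Submodule.subset_span ⟨a, rfl⟩

omit [IsAlgClosed K] [CharZero K] [S27.IsFF K F] in
theorem one_le_X (P : Place K F) : 1 ≤ C.X v P := le_max_left _ _

omit [IsAlgClosed K] [CharZero K] [S27.IsFF K F] in
theorem yy_mem (P : Place K F) (a b : Fin C.r) : C.yy P a b ∈ V C.oo C.κ :=
  Submodule.sub_mem _ (Submodule.smul_mem _ _ (C.e_mem b)) (Submodule.smul_mem _ _ (C.e_mem a))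

omit [IsAlgClosed K] [CharZero K] [S27.IsFF K F] in
/-- functions of `L(κ·oo)` are regular at the affine places. -/
theorem adic_le_one_of_mem_V {oo R : Place K F} (hR : R ≠ oo) {k : ℕ} {y : F} (hy : y ∈ V oo k) :
    R.adicValuation y ≤ 1 :=
  (S27.adic_le_one_iff_mem R).mpr ((mem_V_iff.mp hy).1 R hR)

theorem val_smul_geo (R : Place K F) (c : K) {y : F} (hy : R.adicValuation y ≤ 1) :
    S27.val R (c • y) = c * S27.val R y := by
  rw [Algebra.smul_def, S27.val_mul R (R.adicValuation_algebraMap_le_one c) hy,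
    S27.val_algebraMap]

omit [IsAlgClosed K] [CharZero K] [S27.IsFF K F] in
theorem adic_smul_le_one (R : Place K F) (c : K) {y : F} (hy : R.adicValuation y ≤ 1) :
    R.adicValuation (c • y) ≤ 1 := by
  rw [Algebra.smul_def, map_mul]
  exact mul_le_one' (R.adicValuation_algebraMap_le_one c) hy

theorem val_yy {P R : Place K F} (hR : R ≠ C.oo) (a b : Fin C.r) :
    S27.val R (C.yy P a b) = C.pl P R a b := by
  have ha := adic_le_one_of_mem_V hR (C.e_mem a)
  have hb := adic_le_one_of_mem_V hR (C.e_mem b)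
  unfold yy pl
  rw [S27.val_sub R (adic_smul_le_one R _ hb) (adic_smul_le_one R _ ha), val_smul_geo R _ hb,
    val_smul_geo R _ ha]

omit [IsAlgClosed K] [CharZero K] [S27.IsFF K F] in
theorem pl_self (P : Place K F) (a b : Fin C.r) : C.pl P P a b = 0 := by
  simp [pl, mul_comm]

/-- the value at an affine place of a combination of the `e a`. -/
theorem val_sum_e {P : Place K F} (hP : P ≠ C.oo) (c : Fin C.r → K) :
    S27.val P (∑ a, c a • C.e a) = ∑ a, c a * S27.val P (C.e a) := by
  classical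
  have key : ∀ s : Finset (Fin C.r), P.adicValuation (∑ a ∈ s, c a • C.e a) ≤ 1 ∧
      S27.val P (∑ a ∈ s, c a • C.e a) = ∑ a ∈ s, c a * S27.val P (C.e a) := by
    intro s
    induction s using Finset.induction_on with
    | empty =>
      simp only [Finset.sum_empty, map_zero, zero_le, true_and]
      have := S27.val_algebraMap P (0 : K)
      rwa [map_zero] at this
    | insert a s has ih =>
      have ha := adic_le_one_of_mem_V hP (C.e_mem a)
      rw [Finset.sum_insert has, Finset.sum_insert has]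
      refine ⟨(Valuation.map_add _ _ _).trans (max_le (adic_smul_le_one P _ ha) ih.1), ?_⟩
      rw [S27.val_add P (adic_smul_le_one P _ ha) ih.1, val_smul_geo P _ ha, ih.2]
  exact (key Finset.univ).2

/-- some `e a` does not vanish at `P`. -/
theorem exists_val_e_ne_zero {P : Place K F} (hP : P ≠ C.oo) : ∃ a, S27.val P (C.e a) ≠ 0 := by
  have h1 : (1 : F) ∈ V C.oo C.κ := by
    rw [mem_V_iff]
    refine ⟨(Reg C.oo).one_mem, Or.inr ?_⟩
    rw [Place.ord_one]
    omega
  rw [← C.hspan] at h1
  obtain ⟨d, hd⟩ := (Submodule.mem_span_range_iff_exists_fun K).mp h1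
  by_contra hcon
  push Not at hcon
  have h2 := C.val_sum_e hP d
  rw [hd, S27.val_one] at h2
  rw [Finset.sum_eq_zero (fun a _ => by rw [hcon a, mul_zero])] at h2
  exact one_ne_zero h2

/-- every function of `L(κ·oo)` vanishing at `P` is a combination of the `yy P a b`. -/
theorem mem_span_yy {P : Place K F} (hP : P ≠ C.oo) {y : F} (hy : y ∈ V C.oo C.κ)
    (h0 : S27.val P y = 0) :
    y ∈ Submodule.span K (Set.range fun ab : Fin C.r × Fin C.r => C.yy P ab.1 ab.2) := by
  obtain ⟨a₀, ha₀⟩ := C.exists_val_e_ne_zero hP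
  rw [← C.hspan] at hy
  obtain ⟨c, hc⟩ := (Submodule.mem_span_range_iff_exists_fun K).mp hy
  have h1 := C.val_sum_e hP c
  rw [hc, h0] at h1
  have h2 : ∑ b, c b • C.yy P a₀ b = S27.val P (C.e a₀) • y := by
    unfold yy
    simp only [smul_sub, Finset.sum_sub_distrib, smul_smul]
    rw [← hc, Finset.smul_sum, ← Finset.sum_smul, ← h1, zero_smul, sub_zero]
    refine Finset.sum_congr rfl fun b _ => ?_
    rw [smul_smul, mul_comm]
  have h3 : y = (S27.val P (C.e a₀))⁻¹ • ∑ b, c b • C.yy P a₀ b := by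
    rw [h2, smul_smul, inv_mul_cancel₀ ha₀, one_smul]
  rw [h3]
  refine Submodule.smul_mem _ _ (Submodule.sum_mem _ fun b _ => Submodule.smul_mem _ _ ?_)
  exact Submodule.subset_span ⟨(a₀, b), rfl⟩

/-- `L(κ·oo)` separates points. -/
theorem exists_pl_ne_zero {P R : Place K F} (hP : P ≠ C.oo) (hR : R ≠ C.oo) (h : P ≠ R) :
    ∃ a b, C.pl P R a b ≠ 0 := by
  classical
  set D : Divisor K F := Finsupp.single C.oo (C.κ : ℤ) - Finsupp.single P 1 with hD
  have hdeg : Divisor.degree D = C.κ - 1 := by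
    rw [hD, map_sub, Divisor.degree_single, Divisor.degree_single, S27.deg_eq_one,
      S27.deg_eq_one]
    simp
  have hκ : (2 * genusFF K F + 2 : ℤ) ≤ C.κ := by exact_mod_cast C.hκ
  obtain ⟨f, hfD, hf0, hfS⟩ := exists_section D (by rw [hdeg]; omega) {R}
  have hfR : R.ord f = 0 := by
    rw [hfS R (Finset.mem_singleton_self R), hD, Finsupp.sub_apply,
      Finsupp.single_eq_of_ne hR, Finsupp.single_eq_of_ne (Ne.symm h)]
    simp
  have hfD' := mem_riemannRochSpace_iff.mp hfD
  have hfV : f ∈ V C.oo C.κ := by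
    rw [mem_riemannRochSpace_iff]
    intro w
    right
    have h1 := (hfD' w).resolve_left hf0
    rw [hD, Finsupp.sub_apply] at h1
    have h2 : (0 : ℤ) ≤ (Finsupp.single P (1 : ℤ) : Divisor K F) w := by
      by_cases hw : w = P
      · subst hw; simp
      · rw [Finsupp.single_eq_of_ne hw]
    omega
  have hfP : S27.val P f = 0 := by
    rw [S27.val_eq_zero_iff P (adic_le_one_of_mem_V hP hfV), S27.adic_lt_one_iff_ord]
    right
    have h1 := (hfD' P).resolve_left hf0
    rw [hD, Finsupp.sub_apply, Finsupp.single_eq_of_ne hP, Finsupp.single_eq_same] at h1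
    omega
  have hspan := C.mem_span_yy hP hfV hfP
  by_contra hcon
  push Not at hcon
  let N : Submodule K F :=
    { carrier := {y | R.adicValuation y < 1}
      zero_mem' := by simp
      add_mem' := fun {a b} ha hb => by
        change R.adicValuation (a + b) < 1
        exact lt_of_le_of_lt (Valuation.map_add _ _ _) (max_lt ha hb)
      smul_mem' := fun c a ha => by
        change R.adicValuation (c • a) < 1
        rw [Algebra.smul_def, map_mul]
        exact lt_of_le_of_lt (mul_le_of_le_one_left' (R.adicValuation_algebraMap_le_one c)) ha }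
  have hle : Submodule.span K (Set.range fun ab : Fin C.r × Fin C.r => C.yy P ab.1 ab.2) ≤ N := by
    refine Submodule.span_le.mpr ?_
    rintro _ ⟨ab, rfl⟩
    change R.adicValuation (C.yy P ab.1 ab.2) < 1
    rw [← S27.val_eq_zero_iff R (adic_le_one_of_mem_V hR (C.yy_mem P _ _)), C.val_yy hR]
    exact hcon _ _
  have h4 : R.adicValuation f < 1 := hle hspan
  rw [adic_eq_one_of_ord hf0 hfR] at h4
  exact lt_irrefl _ h4

omit [IsAlgClosed K] [CharZero K] [S27.IsFF K F] in
theorem D_nonneg (P R : Place K F) : 0 ≤ C.D v P R :=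
  Real.iSup_nonneg fun _ => v.nonneg _

omit [IsAlgClosed K] [CharZero K] [S27.IsFF K F] in
theorem le_D (P R : Place K F) (a b : Fin C.r) : v (C.pl P R a b) ≤ C.D v P R :=
  le_ciSup (f := fun ab : Fin C.r × Fin C.r => v (C.pl P R ab.1 ab.2))
    (Set.finite_range _).bddAbove (a, b)

theorem D_pos {P R : Place K F} (hP : P ≠ C.oo) (hR : R ≠ C.oo) (h : P ≠ R) : 0 < C.D v P R := by
  obtain ⟨a, b, hab⟩ := C.exists_pl_ne_zero hP hR h
  exact lt_of_lt_of_le (v.pos hab) (C.le_D v P R a b)

omit [IsAlgClosed K] [CharZero K] [S27.IsFF K F] in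
theorem D_self (P : Place K F) : C.D v P P = 0 := by
  unfold D
  simp only [pl_self, map_zero]
  exact Real.iSup_const_zero

omit [IsAlgClosed K] [CharZero K] [S27.IsFF K F] in
theorem D_comm (P R : Place K F) : C.D v P R = C.D v R P := by
  unfold D
  rw [← (Equiv.prodComm (Fin C.r) (Fin C.r)).iSup_comp]
  refine iSup_congr fun ab => ?_
  congr 1
  simp only [pl, Equiv.prodComm_apply, Prod.fst_swap, Prod.snd_swap]
  ring

omit [IsAlgClosed K] [CharZero K] [S27.IsFF K F] in
theorem dn_comm (P R : Place K F) : C.dn v P R = C.dn v R P := by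
  unfold dn
  rw [C.D_comm v P R, mul_comm (C.X v P)]

omit [IsAlgClosed K] [CharZero K] [S27.IsFF K F] in
theorem X_pos (P : Place K F) : 0 < C.X v P := lt_of_lt_of_le one_pos (C.one_le_X v P)

omit [IsAlgClosed K] [CharZero K] [S27.IsFF K F] in
theorem dn_nonneg (P R : Place K F) : 0 ≤ C.dn v P R :=
  div_nonneg (pow_nonneg (C.D_nonneg v P R) _)
    (pow_nonneg (mul_nonneg (C.X_pos v P).le (C.X_pos v R).le) _)

theorem dn_pos {P R : Place K F} (hP : P ≠ C.oo) (hR : R ≠ C.oo) (h : P ≠ R) :
    0 < C.dn v P R :=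
  div_pos (pow_pos (C.D_pos v hP hR h) _) (pow_pos (mul_pos (C.X_pos v P) (C.X_pos v R)) _)

omit [IsAlgClosed K] [CharZero K] [S27.IsFF K F] in
theorem dn_self (P : Place K F) : C.dn v P P = 0 := by
  unfold dn
  rw [C.D_self v P, zero_pow C.hn.ne', zero_div]

end Cv

end Fermat.Agent.S17.El
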