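import Fermat.Agent.S17.El.DiffWr
import Fermat.Agent.S17.El.Geo
import Fermat.Agent.S17.El.BPF

/-!
# S17/El: the base point free family `Wr_ab * ∏_Q y_Q ^ ram Q`   (part of WP EL-DIFF)
-/

set_option autoImplicit false
set_option linter.unusedSectionVars false

open AlgebraicCurve

namespace Fermat.Agent.S17.El

variable {K F : Type*} [Field K] [Field F] [Algebra K F] [IsAlgClosed K] [CharZero K]
  [S27.IsFF K F]

theorem diff_val_finset_prod (P : Place K F) {ι : Type*} (s : Finset ι) (f : ι → F)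
    (h : ∀ i ∈ s, f i ∈ P.toValuationSubring) :
    (∏ i ∈ s, f i) ∈ P.toValuationSubring ∧ S27.val P (∏ i ∈ s, f i) = ∏ i ∈ s, S27.val P (f i) := by
  classical
  induction s using Finset.induction_on with
  | empty => exact ⟨by simp [one_mem], by simp [S27.val_one]⟩
  | insert a s ha ih =>
    obtain ⟨h1, h2⟩ := ih fun i hi => h i (Finset.mem_insert_of_mem hi)
    have h3 := h a (Finset.mem_insert_self a s)
    rw [Finset.prod_insert ha, Finset.prod_insert ha]
    refine ⟨mul_mem h3 h1, ?_⟩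
    rw [S27.val_mul P ((S27.adic_le_one_iff_mem P).2 h3) ((S27.adic_le_one_iff_mem P).2 h1), h2]

namespace Cv

variable (C : Cv K F)

/-- the divisor `κ·oo`. -/
noncomputable abbrev Gk : Divisor K F := Finsupp.single C.oo (C.κ : ℤ)

theorem diff_e_mem_ball (a : Fin C.r) (Q₀ : Place K F) : C.e a ∈ RR.ball Q₀ (C.Gk Q₀) :=
  RR.mem_riemannRochSpace_iff_ball.1 (C.e_mem a) Q₀

theorem diff_mem_span_e {f : F} (hf : f ∈ V C.oo C.κ) : f ∈ Submodule.span K (Set.range C.e) := by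
  rw [C.hspan]; exact hf

theorem diff_two_g_le : 2 * (genusFF K F : ℤ) ≤ (C.κ : ℤ) - 1 := by
  have := C.hκ
  omega

/-- some Wronskian of the basis has the minimal order, at every place. -/
theorem exists_wr_e_exact (Q₀ : Place K F) :
    ∃ a b, ExOrd Q₀ (2 * C.Gk Q₀ + Q₀.ordDifferential (KaehlerDifferential.D K F C.x))
      (C.wr (C.e a) (C.e b)) := by
  have hκ := C.diff_two_g_le
  obtain ⟨f, hf, hf0, hfo⟩ := exists_section C.Gk
    (by rw [RR.degree_single]; omega) {Q₀}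
  obtain ⟨h, hh, hh0, hho⟩ := exists_section (C.Gk - Finsupp.single Q₀ 1)
    (by rw [map_sub, RR.degree_single, RR.degree_single]; omega) {Q₀}
  have hh' : h ∈ V C.oo C.κ := by
    refine RR.mem_riemannRochSpace_iff_ball.2 fun v => ?_
    refine RR.ball_mono v ?_ (RR.mem_riemannRochSpace_iff_ball.1 hh v)
    rw [Finsupp.sub_apply]
    have : 0 ≤ (Finsupp.single Q₀ (1 : ℤ) : Divisor K F) v := by
      classical
      rw [Finsupp.single_apply]; split_ifs <;> simp
    show C.Gk v - _ ≤ C.Gk v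
    omega
  refine C.exists_wr_exact Q₀ (C.Gk Q₀) C.e (fun a => C.diff_e_mem_ball a Q₀) (C.diff_mem_span_e hf)
    (C.diff_mem_span_e hh') ⟨hf0, hfo Q₀ (Finset.mem_singleton_self _)⟩ ⟨hh0, ?_⟩
  rw [hho Q₀ (Finset.mem_singleton_self _), Finsupp.sub_apply, Finsupp.single_eq_same]

theorem yy_mem_ball {Q : Place K F} (hQ : Q ≠ C.oo) (a b : Fin C.r) (Q₀ : Place K F) :
    C.yy Q a b ∈ RR.ball Q₀ ((C.Gk - Finsupp.single Q 1 : Divisor K F) Q₀) := by
  classical
  have h1 := RR.mem_riemannRochSpace_iff_ball.1 (C.yy_mem Q a b) Q₀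
  rw [Finsupp.sub_apply]
  by_cases h : Q₀ = Q
  · subst h
    rw [Finsupp.single_eq_same, Gk, Finsupp.single_apply, if_neg (Ne.symm hQ)]
    rw [Finsupp.single_apply, if_neg (Ne.symm hQ)] at h1
    have h2 : S27.val Q₀ (C.yy Q₀ a b) = 0 := by rw [C.val_yy hQ, C.pl_self]
    rw [S27.val_eq_zero_iff Q₀ (RR.mem_ball.1 (by simpa using h1)), S27.adic_lt_one_iff_ord] at h2
    refine RR.mem_ball_iff.2 ?_
    rcases h2 with h2 | h2
    · exact Or.inl h2
    · right; omega
  · rw [Finsupp.single_apply (a := Q), if_neg (Ne.symm h), sub_zero]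
    exact h1

/-- some `yy Q a b` has the minimal order, at every place. -/
theorem exists_yy_exact {Q : Place K F} (hQ : Q ≠ C.oo) (Q₀ : Place K F) :
    ∃ a b, ExOrd Q₀ ((C.Gk - Finsupp.single Q 1 : Divisor K F) Q₀) (C.yy Q a b) := by
  classical
  have hκ := C.diff_two_g_le
  obtain ⟨f, hf, hf0, hfo⟩ := exists_section (C.Gk - Finsupp.single Q 1)
    (by rw [map_sub, RR.degree_single, RR.degree_single]; omega) {Q₀}
  have hf' : f ∈ V C.oo C.κ := by
    refine RR.mem_riemannRochSpace_iff_ball.2 fun v => ?_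
    refine RR.ball_mono v ?_ (RR.mem_riemannRochSpace_iff_ball.1 hf v)
    rw [Finsupp.sub_apply]
    have : 0 ≤ (Finsupp.single Q (1 : ℤ) : Divisor K F) v := by
      rw [Finsupp.single_apply]; split_ifs <;> simp
    show C.Gk v - _ ≤ C.Gk v
    omega
  have hfQ : S27.val Q f = 0 := by
    have h1 := RR.mem_riemannRochSpace_iff_ball.1 hf Q
    rw [Finsupp.sub_apply, Finsupp.single_eq_same, Gk, Finsupp.single_apply,
      if_neg (Ne.symm hQ)] at h1
    have h2 := (RR.mem_ball_iff.1 h1).resolve_left hf0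
    have h3 : Q.adicValuation f < 1 := (S27.adic_lt_one_iff_ord Q).2 (Or.inr (by omega))
    exact (S27.val_eq_zero_iff Q h3.le).2 h3
  have hspan := C.mem_span_yy hQ hf' hfQ
  by_contra hcon
  push Not at hcon
  have hS : Submodule.span K (Set.range fun ab : Fin C.r × Fin C.r => C.yy Q ab.1 ab.2) ≤
      RR.ball Q₀ ((C.Gk - Finsupp.single Q 1 : Divisor K F) Q₀ - 1) := by
    rw [Submodule.span_le]
    rintro _ ⟨ab, rfl⟩
    by_contra hn
    exact hcon ab.1 ab.2 (exOrd_iff_ball.2 ⟨C.yy_mem_ball hQ ab.1 ab.2 Q₀, hn⟩)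
  exact (exOrd_iff_ball.1 ⟨hf0, hfo Q₀ (Finset.mem_singleton_self _)⟩).2 (hS hspan)

/-- the finite set of the affine ramification points. -/
noncomputable abbrev Rm : Finset (Place K F) := C.finite_ramSet.toFinset

theorem ne_oo_of_mem_Rm {Q : Place K F} (hQ : Q ∈ C.Rm) : Q ≠ C.oo :=
  (C.mem_ramSet_iff.1 ((Set.Finite.mem_toFinset _).1 hQ)).1

/-- `δ = ∑ ram Q`. -/
noncomputable def dl : ℕ := ∑ Q ∈ C.Rm, C.ram Q

/-- the degree of the family. -/
noncomputable def MM : ℕ := (2 * (C.κ - 1) + 2 * genusFF K F) + (C.κ - 1) * C.dl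

theorem order_identity (Q₀ : Place K F) :
    2 * C.Gk Q₀ + Q₀.ordDifferential (KaehlerDifferential.D K F C.x) +
      ∑ Q : C.Rm, (C.ram Q : ℤ) * (C.Gk - Finsupp.single (Q : Place K F) 1 : Divisor K F) Q₀ =
    (Finsupp.single C.oo (C.MM : ℤ) : Divisor K F) Q₀ := by
  classical
  rw [Finset.sum_coe_sort C.Rm
    (fun Q => (C.ram Q : ℤ) * (C.Gk - Finsupp.single (Q : Place K F) 1 : Divisor K F) Q₀)]
  by_cases h : Q₀ = C.oo
  · subst h
    rw [C.ordDifferential_dx_oo, Finsupp.single_eq_same, Finsupp.single_eq_same]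
    have h1 : ∑ Q ∈ C.Rm, (C.ram Q : ℤ) * (C.Gk - Finsupp.single (Q : Place K F) 1 : Divisor K F) C.oo
        = (C.dl : ℤ) * C.κ := by
      rw [dl, Nat.cast_sum, Finset.sum_mul]
      refine Finset.sum_congr rfl fun Q hQ => ?_
      rw [Finsupp.sub_apply, Finsupp.single_eq_same, Finsupp.single_apply,
        if_neg (C.ne_oo_of_mem_Rm hQ), sub_zero]
    rw [h1]
    have h2 : (C.dl : ℤ) = 2 * genusFF K F + C.n - 1 := by
      have := C.sum_ram
      have hn := C.hn
      rw [dl, this]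
      omega
    obtain ⟨k, hk⟩ : ∃ k, C.κ = k + 1 := ⟨C.κ - 1, by have := C.hκ; omega⟩
    rw [MM, hk, Nat.add_sub_cancel]
    push_cast
    have h3 : (C.n : ℤ) = C.dl + 1 - 2 * genusFF K F := by omega
    rw [h3]
    ring
  · rw [C.ordDifferential_dx h, Gk, Finsupp.single_apply, if_neg (Ne.symm h), Finsupp.single_apply,
      if_neg (Ne.symm h)]
    have h1 : ∑ Q ∈ C.Rm, (C.ram Q : ℤ) *
        (Finsupp.single C.oo (C.κ : ℤ) - Finsupp.single (Q : Place K F) 1 : Divisor K F) Q₀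
        = - (C.ram Q₀ : ℤ) := by
      have h2 : ∀ Q ∈ C.Rm, (C.ram Q : ℤ) *
          (Finsupp.single C.oo (C.κ : ℤ) - Finsupp.single (Q : Place K F) 1 : Divisor K F) Q₀ =
          if Q = Q₀ then - (C.ram Q₀ : ℤ) else 0 := by
        intro Q _
        rw [Finsupp.sub_apply, Finsupp.single_apply, if_neg (Ne.symm h), Finsupp.single_apply]
        split_ifs with hq
        · subst hq; ring
        · ring
      rw [Finset.sum_congr rfl h2, Finset.sum_ite_eq' C.Rm Q₀]
      split_ifs with hm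
      · rfl
      · have : C.ram Q₀ = 0 := by
          by_contra h0
          exact hm ((Set.Finite.mem_toFinset _).2 (C.mem_ramSet_iff.2 ⟨h, h0⟩))
        simp [this]
    rw [h1]
    ring

/-- the index set of the family. -/
abbrev Idx : Type _ := (Fin C.r × Fin C.r) × (C.Rm → Fin C.r × Fin C.r)

/-- the family `Wr_ab * ∏_Q y_Q ^ ram Q`. -/
noncomputable def fam (i : C.Idx) : F :=
  C.wr (C.e i.1.1) (C.e i.1.2) *
    ∏ Q : C.Rm, C.yy (Q : Place K F) (i.2 Q).1 (i.2 Q).2 ^ C.ram Q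

theorem fam_mem (i : C.Idx) : C.fam i ∈ V C.oo C.MM := by
  refine RR.mem_riemannRochSpace_iff_ball.2 fun Q₀ => ?_
  rw [← C.order_identity Q₀]
  refine RR.mul_mem_ball (C.wr_mem_ball Q₀ (C.diff_e_mem_ball _ Q₀) (C.diff_e_mem_ball _ Q₀)) ?_
  refine diff_prod_mem_ball _ _ _ fun Q _ => ?_
  exact diff_pow_mem_ball (C.yy_mem_ball (C.ne_oo_of_mem_Rm Q.2) _ _ Q₀) _

theorem fam_bpf (Q₀ : Place K F) :
    ∃ i, C.fam i ≠ 0 ∧ Q₀.ord (C.fam i) = - (Finsupp.single C.oo (C.MM : ℤ) : Divisor K F) Q₀ := by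
  obtain ⟨a, b, hab⟩ := C.exists_wr_e_exact Q₀
  choose c d hcd using fun Q : C.Rm => C.exists_yy_exact (C.ne_oo_of_mem_Rm Q.2) Q₀
  refine ⟨((a, b), fun Q => (c Q, d Q)), ?_⟩
  rw [← C.order_identity Q₀]
  exact hab.mul (ExOrd.prod _ _ _ fun Q _ => (hcd Q).pow _)

end Cv

end Fermat.Agent.S17.El
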