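import Fermat.Agent.S17.El.Ram

/-!
# S17/El: the derivation `d/dx` and the Wronskians `wr f h = f h' - h f'`   (part of WP EL-DIFF)
-/

set_option autoImplicit false
set_option linter.unusedSectionVars false

open AlgebraicCurve KaehlerDifferential

namespace Fermat.Agent.S17.El

variable {K F : Type*} [Field K] [Field F] [Algebra K F] [IsAlgClosed K] [CharZero K]
  [S27.IsFF K F]

/-- exact order `-n` at `v`. -/
def ExOrd (v : Place K F) (n : ℤ) (f : F) : Prop := f ≠ 0 ∧ v.ord f = -n

theorem ExOrd.mul {v : Place K F} {m n : ℤ} {f g : F} (hf : ExOrd v m f) (hg : ExOrd v n g) :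
    ExOrd v (m + n) (f * g) :=
  ⟨mul_ne_zero hf.1 hg.1, by rw [v.ord_mul hf.1 hg.1, hf.2, hg.2]; ring⟩

theorem ExOrd.pow {v : Place K F} {n : ℤ} {f : F} (hf : ExOrd v n f) (k : ℕ) :
    ExOrd v (k * n) (f ^ k) :=
  ⟨pow_ne_zero _ hf.1, by rw [S24.Place.ord_pow, hf.2]; ring⟩

theorem ExOrd.one (v : Place K F) : ExOrd v 0 (1 : F) := ⟨one_ne_zero, by simp⟩

theorem ExOrd.prod {v : Place K F} {ι : Type*} (s : Finset ι) (n : ι → ℤ) (f : ι → F)
    (h : ∀ i ∈ s, ExOrd v (n i) (f i)) : ExOrd v (∑ i ∈ s, n i) (∏ i ∈ s, f i) := by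
  classical
  induction s using Finset.induction_on with
  | empty => simpa using ExOrd.one v
  | insert a s ha ih =>
    rw [Finset.sum_insert ha, Finset.prod_insert ha]
    exact (h a (Finset.mem_insert_self a s)).mul
      (ih fun i hi => h i (Finset.mem_insert_of_mem hi))

theorem exOrd_iff_ball {v : Place K F} {n : ℤ} {f : F} :
    ExOrd v n f ↔ f ∈ RR.ball v n ∧ f ∉ RR.ball v (n - 1) := by
  rw [RR.mem_ball_iff, RR.mem_ball_iff, ExOrd]
  constructor
  · rintro ⟨h0, h⟩
    refine ⟨Or.inr (by omega), ?_⟩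
    rintro (h1 | h1)
    · exact h0 h1
    · omega
  · rintro ⟨h1, h2⟩
    have h0 : f ≠ 0 := fun h => h2 (Or.inl h)
    refine ⟨h0, ?_⟩
    have h3 := h1.resolve_left h0
    have h4 : ¬ (-(n - 1) ≤ v.ord f) := fun h => h2 (Or.inr h)
    omega

theorem diff_pow_mem_ball {v : Place K F} {n : ℤ} {f : F} (hf : f ∈ RR.ball v n) (k : ℕ) :
    f ^ k ∈ RR.ball v (k * n) := by
  induction k with
  | zero => simpa using RR.one_mem_ball_zero v
  | succ k ih =>
    rw [pow_succ]
    have := RR.mul_mem_ball ih hf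
    convert this using 2
    push_cast; ring

theorem diff_prod_mem_ball {v : Place K F} {ι : Type*} (s : Finset ι) (n : ι → ℤ) (f : ι → F)
    (h : ∀ i ∈ s, f i ∈ RR.ball v (n i)) : ∏ i ∈ s, f i ∈ RR.ball v (∑ i ∈ s, n i) := by
  classical
  induction s using Finset.induction_on with
  | empty => simpa using RR.one_mem_ball_zero v
  | insert a s ha ih =>
    rw [Finset.sum_insert ha, Finset.prod_insert ha]
    exact RR.mul_mem_ball (h a (Finset.mem_insert_self a s))
      (ih fun i hi => h i (Finset.mem_insert_of_mem hi))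

namespace Cv

variable (C : Cv K F)

theorem exists_dd (ω : Ω[F⁄K]) : ∃ c : F, ω = c • KaehlerDifferential.D K F C.x := by
  have htop := (finrank_eq_one_iff_of_nonzero _ C.D_x_ne_zero).mp (finrank_kaehler_FF K F)
  have hmem : ω ∈ Submodule.span F {KaehlerDifferential.D K F C.x} := by rw [htop]; trivial
  obtain ⟨c, hc⟩ := Submodule.mem_span_singleton.mp hmem
  exact ⟨c, hc.symm⟩

/-- the derivative `df/dx`. -/
noncomputable def dd (f : F) : F := (C.exists_dd (KaehlerDifferential.D K F f)).choose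

theorem dd_spec (f : F) : KaehlerDifferential.D K F f = C.dd f • KaehlerDifferential.D K F C.x := (C.exists_dd (KaehlerDifferential.D K F f)).choose_spec

theorem dd_unique {f c : F} (h : KaehlerDifferential.D K F f = c • KaehlerDifferential.D K F C.x) : C.dd f = c := by
  apply smul_left_injective F C.D_x_ne_zero
  show C.dd f • KaehlerDifferential.D K F C.x = c • KaehlerDifferential.D K F C.x
  rw [← C.dd_spec, h]

theorem dd_add (f g : F) : C.dd (f + g) = C.dd f + C.dd g :=
  C.dd_unique (by rw [map_add, add_smul, ← C.dd_spec, ← C.dd_spec])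

theorem dd_sub (f g : F) : C.dd (f - g) = C.dd f - C.dd g :=
  C.dd_unique (by rw [map_sub, sub_smul, ← C.dd_spec, ← C.dd_spec])

theorem dd_smul (c : K) (f : F) : C.dd (c • f) = c • C.dd f :=
  C.dd_unique (by rw [Derivation.map_smul, smul_assoc, ← C.dd_spec])

theorem dd_zero : C.dd 0 = 0 := C.dd_unique (by simp)

theorem dd_algebraMap (c : K) : C.dd (algebraMap K F c) = 0 :=
  C.dd_unique (by simp)

theorem dd_x : C.dd C.x = 1 := C.dd_unique (by simp)

theorem dd_mul (f g : F) : C.dd (f * g) = f * C.dd g + g * C.dd f :=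
  C.dd_unique (by
    rw [Derivation.leibniz, add_smul, mul_smul, mul_smul, ← C.dd_spec, ← C.dd_spec])

theorem dd_eq_zero_iff {f : F} : C.dd f = 0 ↔ KaehlerDifferential.D K F f = 0 := by
  constructor
  · intro h
    rw [C.dd_spec, h, zero_smul]
  · intro h
    exact C.dd_unique (by rw [h, zero_smul])

/-- `ord_Q (df/dx) = ord_Q (df) - ord_Q (dx)`. -/
theorem ord_dd (Q : Place K F) {f : F} (hf : KaehlerDifferential.D K F f ≠ 0) :
    Q.ord (C.dd f) = Q.ordDifferential (KaehlerDifferential.D K F f) - Q.ordDifferential (KaehlerDifferential.D K F C.x) := by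
  have h0 : C.dd f ≠ 0 := fun h => hf (C.dd_eq_zero_iff.1 h)
  have := RR.ordDifferential_smul (finrank_kaehler_FF K F) Q h0 C.D_x_ne_zero
  rw [← C.dd_spec] at this
  omega

/-- the Wronskian `f h' - h f'`. -/
noncomputable def wr (f h : F) : F := f * C.dd h - h * C.dd f

theorem wr_add_left (f f' h : F) : C.wr (f + f') h = C.wr f h + C.wr f' h := by
  simp only [wr, dd_add]; ring

theorem wr_add_right (f h h' : F) : C.wr f (h + h') = C.wr f h + C.wr f h' := by
  simp only [wr, dd_add]; ring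

theorem wr_smul_left (c : K) (f h : F) : C.wr (c • f) h = c • C.wr f h := by
  rw [wr, wr, dd_smul]; simp only [Algebra.smul_def]; ring

theorem wr_smul_right (c : K) (f h : F) : C.wr f (c • h) = c • C.wr f h := by
  rw [wr, wr, dd_smul]; simp only [Algebra.smul_def]; ring

theorem wr_zero_left (h : F) : C.wr 0 h = 0 := by simp [wr, dd_zero]

theorem wr_zero_right (f : F) : C.wr f 0 = 0 := by simp [wr, dd_zero]

theorem wr_swap (f h : F) : C.wr h f = - C.wr f h := by simp only [wr]; ring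

theorem wr_eq_sq_mul {f : F} (hf : f ≠ 0) (h : F) : C.wr f h = f ^ 2 * C.dd (h / f) := by
  have hh : h = f * (h / f) := by field_simp
  conv_lhs => rw [hh]
  rw [wr, dd_mul]
  ring

/-- bilinearity: a `K`-subspace containing all `wr (e a) (e b)` contains `wr f h` for `f`, `h` in the
span of `e`. -/
theorem wr_mem_of_span {ι : Type*} (e : ι → F) (S : Submodule K F)
    (hS : ∀ a b, C.wr (e a) (e b) ∈ S) {f h : F} (hf : f ∈ Submodule.span K (Set.range e))
    (hh : h ∈ Submodule.span K (Set.range e)) : C.wr f h ∈ S := by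
  induction hf using Submodule.span_induction with
  | mem f hf =>
    obtain ⟨a, rfl⟩ := hf
    induction hh using Submodule.span_induction with
    | mem h hh =>
      obtain ⟨b, rfl⟩ := hh
      exact hS a b
    | zero => rw [wr_zero_right]; exact S.zero_mem
    | add h h' _ _ ih ih' => rw [wr_add_right]; exact S.add_mem ih ih'
    | smul c h _ ih => rw [wr_smul_right]; exact S.smul_mem c ih
  | zero => rw [wr_zero_left]; exact S.zero_mem
  | add f f' _ _ ih ih' => rw [wr_add_left]; exact S.add_mem ih ih'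
  | smul c f _ ih => rw [wr_smul_left]; exact S.smul_mem c ih

/-- exact order of the Wronskian of functions of orders `-k`, `-k+1`. -/
theorem wr_exact (Q : Place K F) {f h : F} {k : ℤ} (hf : ExOrd Q k f) (hh : ExOrd Q (k - 1) h) :
    ExOrd Q (2 * k + Q.ordDifferential (KaehlerDifferential.D K F C.x)) (C.wr f h) := by
  have h1 := finrank_kaehler_FF K F
  have hg : Q.ord (h / f) = 1 := by
    rw [div_eq_mul_inv, Q.ord_mul hh.1 (inv_ne_zero hf.1), Q.ord_inv, hf.2, hh.2]; ring
  have hD : KaehlerDifferential.D K F (h / f) ≠ 0 := RR.D_ne_zero_of_ord_eq_one Q hg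
  have hord := C.ord_dd Q hD
  rw [RR.ordDifferential_D_of_ord_eq_one h1 Q hg] at hord
  have h0 : C.dd (h / f) ≠ 0 := fun h => hD (C.dd_eq_zero_iff.1 h)
  rw [C.wr_eq_sq_mul hf.1]
  refine ⟨mul_ne_zero (pow_ne_zero _ hf.1) h0, ?_⟩
  rw [Q.ord_mul (pow_ne_zero _ hf.1) h0, S24.Place.ord_pow, hf.2, hord]
  push_cast; ring

private theorem wr_mem_ball_aux (Q : Place K F) {f h : F} {k : ℤ} (hf0 : f ≠ 0) (hh0 : h ≠ 0)
    (hf : f ∈ RR.ball Q k) (hle : Q.ord f ≤ Q.ord h) :
    C.wr f h ∈ RR.ball Q (2 * k + Q.ordDifferential (KaehlerDifferential.D K F C.x)) := by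
  have h1 := finrank_kaehler_FF K F
  rw [C.wr_eq_sq_mul hf0]
  by_cases hD : KaehlerDifferential.D K F (h / f) = 0
  · rw [C.dd_eq_zero_iff.2 hD, mul_zero]; exact zero_mem _
  have hg0 : h / f ≠ 0 := div_ne_zero hh0 hf0
  have hg : 0 ≤ Q.ord (h / f) := by
    rw [div_eq_mul_inv, Q.ord_mul hh0 (inv_ne_zero hf0), Q.ord_inv]; omega
  have hnn := RR.ordDifferential_nonneg h1 Q (f := 1) (g := h / f) (RR.one_mem_ball_zero Q)
    (RR.mem_ball_iff.mpr (Or.inr (by omega))) (by rwa [one_smul])
  rw [one_smul] at hnn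
  have hord := C.ord_dd Q hD
  have h0 : C.dd (h / f) ≠ 0 := fun h => hD (C.dd_eq_zero_iff.1 h)
  have hfk := (RR.mem_ball_iff.mp hf).resolve_left hf0
  refine RR.mem_ball_iff.mpr (Or.inr ?_)
  rw [Q.ord_mul (pow_ne_zero _ hf0) h0, S24.Place.ord_pow, hord]
  push_cast; omega

/-- lower bound for the order of a Wronskian. -/
theorem wr_mem_ball (Q : Place K F) {f h : F} {k : ℤ} (hf : f ∈ RR.ball Q k)
    (hh : h ∈ RR.ball Q k) : C.wr f h ∈ RR.ball Q (2 * k + Q.ordDifferential (KaehlerDifferential.D K F C.x)) := by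
  rcases eq_or_ne f 0 with rfl | hf0
  · rw [wr_zero_left]; exact zero_mem _
  rcases eq_or_ne h 0 with rfl | hh0
  · rw [wr_zero_right]; exact zero_mem _
  rcases le_total (Q.ord f) (Q.ord h) with hle | hle
  · exact C.wr_mem_ball_aux Q hf0 hh0 hf hle
  · rw [C.wr_swap h f]
    exact neg_mem (C.wr_mem_ball_aux Q hh0 hf0 hh hle)

/-- some Wronskian of the family has the minimal order. -/
theorem exists_wr_exact (Q : Place K F) (k : ℤ) {ι : Type*} (e : ι → F)
    (he : ∀ a, e a ∈ RR.ball Q k) {f h : F} (hf : f ∈ Submodule.span K (Set.range e))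
    (hh : h ∈ Submodule.span K (Set.range e)) (hfk : ExOrd Q k f) (hhk : ExOrd Q (k - 1) h) :
    ∃ a b, ExOrd Q (2 * k + Q.ordDifferential (KaehlerDifferential.D K F C.x)) (C.wr (e a) (e b)) := by
  by_contra hcon
  push Not at hcon
  have hS : ∀ a b, C.wr (e a) (e b) ∈ RR.ball Q (2 * k + Q.ordDifferential (KaehlerDifferential.D K F C.x) - 1) := by
    intro a b
    by_contra hn
    exact hcon a b (exOrd_iff_ball.2 ⟨C.wr_mem_ball Q (he a) (he b), hn⟩)
  exact (exOrd_iff_ball.1 (C.wr_exact Q hfk hhk)).2 (C.wr_mem_of_span e _ hS hf hh)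

/-- `d/dx` preserves regularity at the unramified affine places. -/
theorem dd_mem {P : Place K F} (hP : P ≠ C.oo) (hr : P ∉ C.RamSet) {g : F}
    (hg : g ∈ P.toValuationSubring) : C.dd g ∈ P.toValuationSubring := by
  obtain ⟨c, hc, hD⟩ := RR.exists_D_eq_of_mem (finrank_kaehler_FF K F) P
    (C.ord_sub_val_eq_one hP hr) (RR.mem_ball_zero_iff.mpr hg)
  rw [C.D_x_sub_const] at hD
  rw [C.dd_unique hD]
  exact RR.mem_ball_zero_iff.mp hc

theorem wr_mem {P : Place K F} (hP : P ≠ C.oo) (hr : P ∉ C.RamSet) {f h : F}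
    (hf : f ∈ P.toValuationSubring) (hh : h ∈ P.toValuationSubring) :
    C.wr f h ∈ P.toValuationSubring :=
  sub_mem (mul_mem hf (C.dd_mem hP hr hh)) (mul_mem hh (C.dd_mem hP hr hf))

/-- l'Hôpital: the value of the Wronskian at an unramified affine place. -/
theorem val_wr {P : Place K F} (hP : P ≠ C.oo) (hr : P ∉ C.RamSet) {f h : F}
    (hf : f ∈ P.toValuationSubring) (hh : h ∈ P.toValuationSubring) :
    S27.val P (C.wr f h) =
      S27.val P ((S27.val P f • h - S27.val P h • f) /
        (C.x - algebraMap K F (S27.val P C.x))) := by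
  set t := C.x - algebraMap K F (S27.val P C.x) with ht
  have hord : P.ord t = 1 := C.ord_sub_val_eq_one hP hr
  have ht0 : t ≠ 0 := C.x_sub_const_ne_zero _
  have hA : ∀ {g : F}, g ∈ P.toValuationSubring → P.adicValuation g ≤ 1 :=
    fun hg => (S27.adic_le_one_iff_mem P).2 hg
  have htm : t ∈ P.toValuationSubring :=
    (S24.Place.mem_iff_ord_nonneg P ht0).2 (by omega)
  have htv : S27.val P t = 0 := by
    rw [S27.val_eq_zero_iff P (hA htm), S27.adic_lt_one_iff_ord]
    right; omega
  set y := S27.val P f • h - S27.val P h • f with hy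
  have hsm : ∀ (c : K) {g : F}, g ∈ P.toValuationSubring → c • g ∈ P.toValuationSubring := by
    intro c g hg
    rw [Algebra.smul_def]
    exact mul_mem (P.algebraMap_mem' c) hg
  have hvs : ∀ (c : K) {g : F}, g ∈ P.toValuationSubring → S27.val P (c • g) = c * S27.val P g := by
    intro c g hg
    rw [Algebra.smul_def, S27.val_mul P (hA (P.algebraMap_mem' c)) (hA hg), S27.val_algebraMap]
  have hym : y ∈ P.toValuationSubring := sub_mem (hsm _ hh) (hsm _ hf)
  have hyv : S27.val P y = 0 := by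
    rw [hy, S27.val_sub P (hA (hsm _ hh)) (hA (hsm _ hf)), hvs _ hh, hvs _ hf]; ring
  have hwm : y / t ∈ P.toValuationSubring := by
    rcases eq_or_ne y 0 with h0 | h0
    · rw [h0, zero_div]; exact zero_mem _
    · have h1 := (S27.val_eq_zero_iff P (hA hym)).1 hyv
      have h2 := ((S27.adic_lt_one_iff_ord P).1 h1).resolve_left h0
      refine (S24.Place.mem_iff_ord_nonneg P (div_ne_zero h0 ht0)).2 ?_
      rw [div_eq_mul_inv, P.ord_mul h0 (inv_ne_zero ht0), P.ord_inv]; omega
  have hdt : C.dd t = 1 := by rw [ht, dd_sub, dd_x, dd_algebraMap, sub_zero]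
  have hdy : C.dd y = y / t + t * C.dd (y / t) := by
    have : y = t * (y / t) := by field_simp
    conv_lhs => rw [this]
    rw [dd_mul, hdt]; ring
  have hdy' : C.dd y = S27.val P f • C.dd h - S27.val P h • C.dd f := by
    rw [hy, dd_sub, dd_smul, dd_smul]
  have hdw := C.dd_mem hP hr hwm
  have hdf := C.dd_mem hP hr hf
  have hdh := C.dd_mem hP hr hh
  have e1 : S27.val P (C.dd y) = S27.val P (y / t) := by
    rw [hdy, S27.val_add P (hA hwm) (hA (mul_mem htm hdw)), S27.val_mul P (hA htm) (hA hdw), htv]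
    ring
  have e2 : S27.val P (C.dd y) = S27.val P (C.wr f h) := by
    rw [hdy', S27.val_sub P (hA (hsm _ hdh)) (hA (hsm _ hdf)), hvs _ hdh, hvs _ hdf, wr,
      S27.val_sub P (hA (mul_mem hf hdh)) (hA (mul_mem hh hdf)), S27.val_mul P (hA hf) (hA hdh),
      S27.val_mul P (hA hh) (hA hdf)]
  rw [← e2, e1]

end Cv

end Fermat.Agent.S17.El
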