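import Fermat.Agent.S17.El.ThmM

/-!
# S17/El: Gauss-Mahler in one variable   (WP EL-GM)

`|c ∏ (X - ξ)|_v ~ v c ∏ max(1, v ξ)` (coefficient norm), uniformly in `v`, for fixed degree `m`.

* `gm_upper`: trivial (the coefficients are ± c e_k(ξ); `MC.sum_le`; or `MC.exists_eval_le_hom`-type
  bound after rescaling).
* `gm_lower`: THEOREM M for the blocks `(s_i, t_i)`, `i : Fin m`, and the `m+1` coefficients
  `Φ_j` of `∏_i (s_i X - t_i)` (multidegree `(1,…,1)`); a common zero makes the product polynomial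
  zero, hence one factor `(s_i, t_i) = 0`.  Apply it to `(s_i, t_i) = (1, ξ_i)` and multiply by `c`.
-/

set_option autoImplicit false

namespace Fermat.Agent.S17.El

open Polynomial

variable {K : Type*} [Field K]

theorem MC.add_le (v : AbsoluteValue K ℝ) (x y : K) {B : ℝ} (hB0 : 0 ≤ B) (hx : v x ≤ B)
    (hy : v y ≤ B) : v (x + y) ≤ (MC.ofNat 2 : MC K).val v * B := by
  have h := MC.sum_le (Finset.univ : Finset (Fin 2)) ![x, y] v hB0 (by
    intro i _
    fin_cases i
    · exact hx
    · exact hy)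
  simpa [Fin.sum_univ_two] using h

theorem nrm_fin_two (v : AbsoluteValue K ℝ) (z : Fin 2 → K) :
    nrm v z = max (v (z 0)) (v (z 1)) := by
  apply le_antisymm
  · refine nrm_le v (le_max_of_le_left (apply_nonneg v _)) fun i => ?_
    fin_cases i
    · exact le_max_left _ _
    · exact le_max_right _ _
  · exact max_le (le_nrm v z 0) (le_nrm v z 1)

theorem gm_upper_aux (m : ℕ) : ∃ γ : MC K, ∀ (v : AbsoluteValue K ℝ) (s : Multiset K),
    s.card = m → ∀ j : ℕ,
      v ((s.map fun a => X - C a).prod.coeff j) ≤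
        γ.val v * (s.map fun a => max 1 (v a)).prod := by
  induction m with
  | zero =>
    refine ⟨MC.ofNat 0, fun v s hs j => ?_⟩
    rw [Multiset.card_eq_zero.1 hs]
    simp only [Multiset.map_zero, Multiset.prod_zero, mul_one, coeff_one]
    refine le_trans ?_ (MC.one_le_val _ v)
    split_ifs <;> simp
  | succ m ih =>
    obtain ⟨γ, hγ⟩ := ih
    refine ⟨(MC.ofNat 2).mul γ, fun v s hs j => ?_⟩
    obtain ⟨a, ha⟩ := Multiset.card_pos_iff_exists_mem.1 (by omega : 0 < s.card)
    obtain ⟨s', rfl⟩ := Multiset.exists_cons_of_mem ha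
    have hs' : s'.card = m := by simpa using hs
    simp only [Multiset.map_cons, Multiset.prod_cons]
    set P := (s'.map fun a => X - C a).prod with hP
    set M := (s'.map fun a => max 1 (v a)).prod with hM
    have hM0 : 0 ≤ M := by
      refine Multiset.prod_nonneg ?_
      intro x hx
      obtain ⟨a, _, rfl⟩ := Multiset.mem_map.1 hx
      exact le_trans zero_le_one (le_max_left _ _)
    have hB0 : 0 ≤ γ.val v * (max 1 (v a) * M) :=
      mul_nonneg (γ.val_pos v).le (mul_nonneg (le_trans zero_le_one (le_max_left _ _)) hM0)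
    have h1 : ∀ j, v (P.coeff j) ≤ γ.val v * (max 1 (v a) * M) := by
      intro j
      refine (hγ v s' hs' j).trans (mul_le_mul_of_nonneg_left ?_ (γ.val_pos v).le)
      exact le_mul_of_one_le_left hM0 (le_max_left _ _)
    have h2 : ∀ j, v (-(a * P.coeff j)) ≤ γ.val v * (max 1 (v a) * M) := by
      intro j
      rw [map_neg_eq_map, map_mul]
      calc v a * v (P.coeff j) ≤ max 1 (v a) * (γ.val v * M) :=
            mul_le_mul (le_max_right _ _) (hγ v s' hs' j) (apply_nonneg v _)
              (le_trans zero_le_one (le_max_left _ _))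
        _ = _ := by ring
    have h3 : ((X - C a) * P).coeff j = (X * P).coeff j + -(a * P.coeff j) := by
      rw [sub_mul, coeff_sub, coeff_C_mul, sub_eq_add_neg]
    have h4 : v ((X * P).coeff j) ≤ γ.val v * (max 1 (v a) * M) := by
      cases j with
      | zero => simpa using hB0
      | succ j => rw [coeff_X_mul]; exact h1 j
    rw [h3]
    refine (MC.add_le v _ _ hB0 h4 (h2 j)).trans ?_
    rw [← mul_assoc]
    exact mul_le_mul_of_nonneg_right (MC.val_mul_le _ _ v)
      (mul_nonneg (le_trans zero_le_one (le_max_left _ _)) hM0)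

theorem gm_upper (m : ℕ) : ∃ γ : MC K, ∀ (v : AbsoluteValue K ℝ) (c : K) (s : Multiset K),
    s.card = m → ∀ j : ℕ,
      v ((C c * (s.map fun a => X - C a).prod).coeff j) ≤
        γ.val v * (v c * (s.map fun a => max 1 (v a)).prod) := by
  obtain ⟨γ, hγ⟩ := gm_upper_aux (K := K) m
  refine ⟨γ, fun v c s hs j => ?_⟩
  rw [coeff_C_mul, map_mul]
  calc v c * v ((s.map fun a => X - C a).prod.coeff j)
      ≤ v c * (γ.val v * (s.map fun a => max 1 (v a)).prod) :=
        mul_le_mul_of_nonneg_left (hγ v s hs j) (apply_nonneg v _)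
    _ = _ := by ring

variable [IsAlgClosed K]

/-- the generic product `∏ (s_i X - t_i)`. -/
noncomputable def gmPoly (K : Type*) [Field K] (m : ℕ) :
    Polynomial (MvPolynomial (Σ _ : Fin m, Fin 2) K) :=
  ∏ i : Fin m, (C (MvPolynomial.X ⟨i, 0⟩) * X - C (MvPolynomial.X ⟨i, 1⟩))

omit [IsAlgClosed K] in
theorem eval_coeff_gmPoly (m : ℕ) (z : (Σ _ : Fin m, Fin 2) → K) (j : ℕ) :
    MvPolynomial.eval z ((gmPoly K m).coeff j) =
      (∏ i : Fin m, (C (z ⟨i, 0⟩) * X - C (z ⟨i, 1⟩))).coeff j := by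
  rw [← coeff_map, gmPoly, Polynomial.map_prod]
  simp

theorem gm_lower_aux (m : ℕ) : ∃ γ : MC K, ∀ (v : AbsoluteValue K ℝ) (ξ : Fin m → K),
    ∏ i, max 1 (v (ξ i)) ≤
      γ.val v * nrm v fun j : Fin (m + 1) => (∏ i : Fin m, (X - C (ξ i))).coeff j := by
  classical
  obtain ⟨γ, hγ⟩ := thmM (K := K) (β := Fin m) (ι := fun _ => Fin 2) (τ := Fin (m + 1)) ⊥
    (fun j => (gmPoly K m).coeff j) (fun _ => 1)
    (by
      intro t z l
      rw [eval_coeff_gmPoly, eval_coeff_gmPoly]
      have : ∏ i : Fin m, (C (l i * z ⟨i, 0⟩) * X - C (l i * z ⟨i, 1⟩)) =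
          C (∏ i, l i ^ 1) * ∏ i : Fin m, (C (z ⟨i, 0⟩) * X - C (z ⟨i, 1⟩)) := by
        rw [map_prod, ← Finset.prod_mul_distrib]
        refine Finset.prod_congr rfl fun i _ => ?_
        simp only [map_mul, pow_one]
        ring
      rw [this, coeff_C_mul])
    (by
      intro z l _ _ p hp
      rw [(Submodule.mem_bot _).1 hp, map_zero])
    (by
      intro z _ hz
      have hdeg : (∏ i : Fin m, (C (z ⟨i, 0⟩) * X - C (z ⟨i, 1⟩))).natDegree ≤ m := by
        refine (natDegree_prod_le _ _).trans ?_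
        have hle : ∀ i ∈ (Finset.univ : Finset (Fin m)),
            (C (z ⟨i, 0⟩) * X - C (z ⟨i, 1⟩)).natDegree ≤ 1 := fun i _ => by
          refine (natDegree_sub_le _ _).trans ?_
          rw [natDegree_C, max_eq_left (Nat.zero_le _)]
          exact (natDegree_C_mul_le _ _).trans natDegree_X_le
        simpa using Finset.sum_le_sum hle
      have hzero : ∏ i : Fin m, (C (z ⟨i, 0⟩) * X - C (z ⟨i, 1⟩)) = 0 := by
        ext j
        rw [coeff_zero]
        by_cases hj : j < m + 1
        · have := hz ⟨j, hj⟩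
          rwa [eval_coeff_gmPoly] at this
        · exact coeff_eq_zero_of_natDegree_lt (by omega)
      obtain ⟨i, _, hi⟩ := Finset.prod_eq_zero_iff.1 hzero
      refine ⟨i, ?_⟩
      have h0 := congrArg (fun p => coeff p 0) hi
      have h1 := congrArg (fun p => coeff p 1) hi
      simp at h0 h1
      intro k
      fin_cases k
      · exact h1
      · exact h0)
  refine ⟨γ, fun v ξ => ?_⟩
  have h := hγ v (fun p => if p.2 = 0 then 1 else ξ p.1) (by
      intro p hp
      rw [(Submodule.mem_bot _).1 hp, map_zero])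
    (fun b => ⟨0, by simp⟩)
  simp only [eval_coeff_gmPoly, nrm_fin_two, pow_one] at h
  simpa using h

theorem gm_lower (m : ℕ) : ∃ γ : MC K, ∀ (v : AbsoluteValue K ℝ) (c : K) (s : Multiset K),
    s.card = m →
      v c * (s.map fun a => max 1 (v a)).prod ≤
        γ.val v * ⨆ j : Fin (m + 1), v ((C c * (s.map fun a => X - C a).prod).coeff j) := by
  obtain ⟨γ, hγ⟩ := gm_lower_aux (K := K) m
  refine ⟨γ, fun v c s hs => ?_⟩
  obtain ⟨ξ, rfl⟩ : ∃ ξ : Fin m → K, s = Finset.univ.val.map ξ := by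
    subst hs
    refine ⟨fun i => s.toList.get (i.cast (by simp)), ?_⟩
    rw [Fin.univ_val_map]
    conv_lhs => rw [← Multiset.coe_toList s]
    congr 1
    apply List.ext_get
    · simp
    · intro n h1 h2
      simp
  have h := hγ v ξ
  simp only [Multiset.map_map, Function.comp_def]
  change v c * (∏ i, max 1 (v (ξ i))) ≤ γ.val v *
    nrm v (fun j : Fin (m + 1) => (C c * ∏ i, (X - C (ξ i))).coeff j)
  simp only [coeff_C_mul]
  rw [nrm_smul]
  calc v c * (∏ i, max 1 (v (ξ i))) ≤ v c * (γ.val v *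
        nrm v fun j : Fin (m + 1) => (∏ i : Fin m, (X - C (ξ i))).coeff j) :=
        mul_le_mul_of_nonneg_left h (apply_nonneg v _)
    _ = _ := by ring

end Fermat.Agent.S17.El
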