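import Fermat.Agent.S17.El.Norm
import Fermat.Agent.S17.El.GM

/-!
# S17/El: (K1) the Mahler measure `μ_v(f) = v(lc f) ∏_{P ∈ Z(f)} |P|_v` is comparable with the
coefficient norm   (WP EL-K1)

Everything in `n`-th powers: `mun v f = v(lc f)^n ∏_{P ∈ Z(f)} X v P`, `X v P = max(1, v(x(P)))`.
With `N = Nm K C.x`: `N f = Lc ∏ (X - x(P))` (`Nm_factor`), `v Lc * v(lc x)^(dg f) = v(lc f)^n` (`abv_Nm_lead`), so
`mun v f = v(lc x)^(dg f) * (v Lc ∏ max(1, v(x P)))`  and by Gauss-Mahler  `~ |N f|_v` (coefficient norm; `dg f ≤ m` bounded,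
`lc x` a fixed nonzero element: both `v(lc x)^k` and its inverse are bounded by M-constants).
* `K1a`: `|N(∑ c_i φ_i)| ≤ γ |c|^n` (`Nm_poly`, `MC.exists_eval_le_hom`; only finitely many `j` matter: `natDegree_Nm`) + `gm_lower`.
* `K1b`: `|c|^n ≤ γ |N(∑ c_i φ_i)|` by `thmM_one` (`N f = 0 ⇒ f = 0 ⇒ c = 0`) + `gm_upper`.
* `eval_le` (E): `u = ∑ c_i φ_i` in a basis of `L(m·oo)`; `v(u(R)) ≤ γ |c| max v(φ_i(R))`, `size_le`, `K1b`.
-/

set_option autoImplicit false
set_option linter.unusedSectionVars false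

open AlgebraicCurve

namespace Fermat.Agent.S17.El

variable {K F : Type*} [Field K] [Field F] [Algebra K F] [IsAlgClosed K] [CharZero K]
  [S27.IsFF K F]

namespace Cv

variable (C : Cv K F)

theorem k1_zprod_X_pos (v : AbsoluteValue K ℝ) (f : F) : 0 < zprod C.oo f (C.X v) := by
  unfold zprod
  exact Finset.prod_pos fun P _ => pow_pos (lt_of_lt_of_le one_pos (C.one_le_X v P)) _

theorem mun_mul (v : AbsoluteValue K ℝ) {f g : F} (hf : f ∈ Reg C.oo) (hg : g ∈ Reg C.oo)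
    (hf0 : f ≠ 0) (hg0 : g ≠ 0) : C.mun v (f * g) = C.mun v f * C.mun v g := by
  unfold mun
  rw [C.lc_mul hf hg hf0 hg0, zprod_mul hf hg hf0 hg0, map_mul, mul_pow]
  ring

theorem mun_pos (v : AbsoluteValue K ℝ) {f : F} (hf : f ∈ Reg C.oo) (hf0 : f ≠ 0) :
    0 < C.mun v f := by
  unfold mun
  exact mul_pos (pow_pos (v.pos (C.lc_ne_zero hf hf0)) _) (C.k1_zprod_X_pos v f)

theorem mun_nonneg (v : AbsoluteValue K ℝ) (f : F) : 0 ≤ C.mun v f := by
  unfold mun
  exact mul_nonneg (pow_nonneg (v.nonneg _) _) (C.k1_zprod_X_pos v f).le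

theorem mun_zero (v : AbsoluteValue K ℝ) : C.mun v 0 = 0 := by
  unfold mun lc
  have h : S27.val C.oo (0 : F) = 0 := by
    have := S27.val_algebraMap C.oo (0 : K)
    rwa [map_zero] at this
  rw [zero_mul, h, map_zero, zero_pow C.hn.ne', zero_mul]

/-- the key formula: `mun v f = v(lc x)^(dg f) * (v Lc * ∏ max(1, v(x P)))`, and `N f` is the
corresponding product. -/
theorem k1_exists_multiset {f : F} (hf : f ∈ Reg C.oo) (h0 : f ≠ 0) :
    ∃ s : Multiset K, s.card = dg C.oo f ∧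
      Nm K C.x f = Polynomial.C (Nm K C.x f).leadingCoeff *
        (s.map fun a => Polynomial.X - Polynomial.C a).prod ∧
      ∀ v : AbsoluteValue K ℝ, C.mun v f = v (C.lc C.x) ^ dg C.oo f *
        (v (Nm K C.x f).leadingCoeff * (s.map fun a => max 1 (v a)).prod) := by
  obtain ⟨Z, hZ, hcard⟩ := exists_zeros hf h0
  refine ⟨Finset.univ.val.map fun i => S27.val (Z i) C.x, by simp, ?_, fun v => ?_⟩
  · have h1 := Nm_factor C C.hx C.hn C.hxn hf h0
    rw [zprod_eq_prod hf h0 Z hZ hcard] at h1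
    rw [Multiset.map_map]
    exact h1
  · have h1 := abv_Nm_lead C C.hx C.hn C.hxn v hf h0
    unfold mun
    rw [zprod_eq_prod hf h0 Z hZ hcard, ← h1, Multiset.map_map]
    have : (Multiset.map ((fun a => max 1 (v a)) ∘ fun i => S27.val (Z i) C.x)
        Finset.univ.val).prod = ∏ i, C.X v (Z i) := rfl
    rw [this]
    ring

theorem k1_sum_mem_V {ι : Type*} [Fintype ι] (φ : ι → F) (hφ : ∀ i, φ i ∈ Reg C.oo) :
    ∃ m : ℕ, ∀ c : ι → K, (∑ i, c i • φ i) ∈ V C.oo m := by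
  classical
  refine ⟨Finset.univ.sup fun i => dg C.oo (φ i), fun c => ?_⟩
  refine Submodule.sum_mem _ fun i _ => Submodule.smul_mem _ _ ?_
  exact V_mono C.oo (Finset.le_sup (f := fun i => dg C.oo (φ i)) (Finset.mem_univ i))
    (mem_V_dg (hφ i))

theorem k1_dg_le_of_mem_V {m : ℕ} {f : F} (hf : f ∈ V C.oo m) : dg C.oo f ≤ m := by
  rw [mem_V_iff] at hf
  unfold dg
  rcases hf.2 with rfl | h
  · simp
  · omega

theorem k1_sum_mem_Reg {ι : Type*} [Fintype ι] (φ : ι → F) (hφ : ∀ i, φ i ∈ Reg C.oo) (c : ι → K) :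
    (∑ i, c i • φ i) ∈ Reg C.oo :=
  Subalgebra.sum_mem _ fun i _ => Subalgebra.smul_mem _ (hφ i) _

theorem k1_pow_le_pow_val (γ : MC K) (v : AbsoluteValue K ℝ) {a : ℝ} (ha0 : 0 ≤ a)
    (ha : a ≤ γ.val v) {d m : ℕ} (hd : d ≤ m) : a ^ d ≤ (γ.pow m).val v :=
  calc a ^ d ≤ γ.val v ^ d := pow_le_pow_left₀ ha0 ha d
    _ ≤ γ.val v ^ m := pow_le_pow_right₀ (γ.one_le_val v) hd
    _ ≤ (γ.pow m).val v := γ.val_pow_le m v

theorem K1a {ι : Type*} [Fintype ι] (φ : ι → F) (hφ : ∀ i, φ i ∈ Reg C.oo) :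
    ∃ γ : MC K, ∀ (v : AbsoluteValue K ℝ) (c : ι → K),
      C.mun v (∑ i, c i • φ i) ≤ γ.val v * nrm v c ^ C.n := by
  classical
  obtain ⟨m, hm⟩ := C.k1_sum_mem_V φ hφ
  obtain ⟨Φ, hΦh, hΦ⟩ := Nm_poly C C.hx C.hn C.hxn φ hφ
  -- Gauss-Mahler, uniformly in the degree
  choose γl hγl using fun d : Fin (m + 1) => gm_lower (K := K) (d : ℕ)
  obtain ⟨γ1, hγ1⟩ := MC.exists_sup γl
  -- the coefficients of the norm
  choose γe hγe using fun j : Fin (m + 1) => MC.exists_eval_le_hom (Φ j) C.n (hΦh j)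
  obtain ⟨γ2, hγ2⟩ := MC.exists_sup γe
  refine ⟨(((MC.ofElem (C.lc C.x)).pow m).mul γ1).mul γ2, fun v c => ?_⟩
  set f := ∑ i, c i • φ i with hf
  rcases eq_or_ne f 0 with h0 | h0
  · rw [h0, C.mun_zero]
    exact mul_nonneg (MC.val_pos _ v).le (pow_nonneg (nrm_nonneg v c) _)
  have hfR : f ∈ Reg C.oo := C.k1_sum_mem_Reg φ hφ c
  have hdg : dg C.oo f ≤ m := C.k1_dg_le_of_mem_V (hm c)
  obtain ⟨s, hs, hN, hmun⟩ := C.k1_exists_multiset hfR h0
  have h1 := hγl ⟨dg C.oo f, Nat.lt_succ_of_le hdg⟩ v (Nm K C.x f).leadingCoeff s hs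
  rw [← hN] at h1
  have h2 : (⨆ j : Fin (dg C.oo f + 1), v ((Nm K C.x f).coeff j)) ≤
      γ2.val v * nrm v c ^ C.n := by
    refine Real.iSup_le (fun j => ?_)
      (mul_nonneg (MC.val_pos _ v).le (pow_nonneg (nrm_nonneg v c) _))
    have hj : (j : ℕ) < m + 1 := lt_of_lt_of_le j.2 (Nat.succ_le_succ hdg)
    have hc : (Nm K C.x f).coeff j = MvPolynomial.eval c (Φ j) := hΦ c j
    rw [hc]
    refine le_trans (hγe ⟨j, hj⟩ v c) ?_
    exact mul_le_mul_of_nonneg_right (hγ2 ⟨j, hj⟩ v) (pow_nonneg (nrm_nonneg v c) _)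
  have h3 : v (C.lc C.x) ^ dg C.oo f ≤ ((MC.ofElem (C.lc C.x)).pow m).val v :=
    k1_pow_le_pow_val _ v (v.nonneg _) (MC.le_ofElem _ v) hdg
  rw [hmun v]
  have hB : 0 ≤ nrm v c ^ C.n := pow_nonneg (nrm_nonneg v c) _
  calc v (C.lc C.x) ^ dg C.oo f *
        (v (Nm K C.x f).leadingCoeff * (s.map fun a => max 1 (v a)).prod)
      ≤ ((MC.ofElem (C.lc C.x)).pow m).val v * (γ1.val v * (γ2.val v * nrm v c ^ C.n)) := by
        refine mul_le_mul h3 ?_ ?_ (MC.val_pos _ v).le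
        · refine le_trans h1 ?_
          refine mul_le_mul (hγ1 _ v) h2 ?_ (MC.val_pos _ v).le
          exact Real.iSup_nonneg fun _ => v.nonneg _
        · exact mul_nonneg (v.nonneg _) (Multiset.prod_nonneg (by
            intro a ha
            obtain ⟨b, _, rfl⟩ := Multiset.mem_map.1 ha
            exact le_trans zero_le_one (le_max_left _ _)))
    _ = ((MC.ofElem (C.lc C.x)).pow m).val v * γ1.val v * γ2.val v * nrm v c ^ C.n := by ring
    _ ≤ _ := by
        refine mul_le_mul_of_nonneg_right ?_ hB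
        refine le_trans ?_ (MC.val_mul_le _ _ v)
        exact mul_le_mul_of_nonneg_right (MC.val_mul_le _ _ v) (MC.val_pos _ v).le

theorem K1b {ι : Type*} [Fintype ι] (φ : ι → F) (hφ : ∀ i, φ i ∈ Reg C.oo)
    (hli : LinearIndependent K φ) :
    ∃ γ : MC K, ∀ (v : AbsoluteValue K ℝ) (c : ι → K),
      nrm v c ^ C.n ≤ γ.val v * C.mun v (∑ i, c i • φ i) := by
  classical
  obtain ⟨m, hm⟩ := C.k1_sum_mem_V φ hφ
  obtain ⟨Φ, hΦh, hΦ⟩ := Nm_poly C C.hx C.hn C.hxn φ hφ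
  have hne : ∀ c : ι → K, c ≠ 0 → (∑ i, c i • φ i) ≠ 0 := by
    intro c hc h0
    exact hc (funext fun i => Fintype.linearIndependent_iff.1 hli c h0 i)
  -- Gauss-Mahler, uniformly in the degree
  choose γu hγu using fun d : Fin (m + 1) => gm_upper (K := K) (d : ℕ)
  obtain ⟨γ1, hγ1⟩ := MC.exists_sup γu
  obtain ⟨γ2, hγ2⟩ := thmM_one (fun j : Fin (m + 1) => Φ j) C.n (fun j => hΦh j) (by
    intro z hz
    by_contra hz0
    have h0 := hne z hz0
    have hfR := C.k1_sum_mem_Reg φ hφ z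
    apply Nm_ne_zero C C.hx C.hn C.hxn hfR h0
    ext j
    rw [Polynomial.coeff_zero]
    by_cases hj : j < m + 1
    · rw [hΦ z j]; exact hz ⟨j, hj⟩
    · apply Polynomial.coeff_eq_zero_of_natDegree_lt
      rw [natDegree_Nm C C.hx C.hn C.hxn hfR h0]
      have := C.k1_dg_le_of_mem_V (hm z)
      omega)
  refine ⟨(γ2.mul γ1).mul ((MC.ofElem (C.lc C.x)⁻¹).pow m), fun v c => ?_⟩
  rcases eq_or_ne c 0 with rfl | hc
  · have : nrm v (0 : ι → K) = 0 := by
      apply le_antisymm _ (nrm_nonneg v _)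
      exact nrm_le v le_rfl fun i => by simp
    rw [this, zero_pow C.hn.ne']
    exact mul_nonneg (MC.val_pos _ v).le (C.mun_nonneg v _)
  set f := ∑ i, c i • φ i with hf
  have h0 : f ≠ 0 := hne c hc
  have hfR : f ∈ Reg C.oo := C.k1_sum_mem_Reg φ hφ c
  have hdg : dg C.oo f ≤ m := C.k1_dg_le_of_mem_V (hm c)
  obtain ⟨s, hs, hN, hmun⟩ := C.k1_exists_multiset hfR h0
  set T := v (Nm K C.x f).leadingCoeff * (s.map fun a => max 1 (v a)).prod with hT
  have hT0 : 0 ≤ T := mul_nonneg (v.nonneg _) (Multiset.prod_nonneg (by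
    intro a ha
    obtain ⟨b, _, rfl⟩ := Multiset.mem_map.1 ha
    exact le_trans zero_le_one (le_max_left _ _)))
  have h1 : nrm v (fun j : Fin (m + 1) => MvPolynomial.eval c (Φ j)) ≤ γ1.val v * T := by
    refine nrm_le v (mul_nonneg (MC.val_pos _ v).le hT0) fun j => ?_
    have hc' : MvPolynomial.eval c (Φ j) = (Nm K C.x f).coeff j := (hΦ c j).symm
    rw [hc', hN]
    refine le_trans (hγu ⟨dg C.oo f, Nat.lt_succ_of_le hdg⟩ v _ s hs j) ?_
    exact mul_le_mul_of_nonneg_right (hγ1 _ v) hT0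
  have hlc : C.lc C.x ≠ 0 := C.lc_ne_zero C.hx (by
    intro h
    have := C.hxn
    rw [h, Place.ord_zero] at this
    have := C.hn
    omega)
  have h2 : T = v (C.lc C.x)⁻¹ ^ dg C.oo f * C.mun v f := by
    rw [hmun v, ← mul_assoc, ← mul_pow, ← map_mul, inv_mul_cancel₀ hlc, map_one, one_pow, one_mul]
  have h3 : v (C.lc C.x)⁻¹ ^ dg C.oo f ≤ ((MC.ofElem (C.lc C.x)⁻¹).pow m).val v :=
    k1_pow_le_pow_val _ v (v.nonneg _) (MC.le_ofElem _ v) hdg
  have hM := C.mun_nonneg v f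
  calc nrm v c ^ C.n ≤ γ2.val v * nrm v (fun j : Fin (m + 1) => MvPolynomial.eval c (Φ j)) :=
        hγ2 v c hc
    _ ≤ γ2.val v * (γ1.val v * (((MC.ofElem (C.lc C.x)⁻¹).pow m).val v * C.mun v f)) := by
        refine mul_le_mul_of_nonneg_left (le_trans h1 ?_) (MC.val_pos _ v).le
        refine mul_le_mul_of_nonneg_left ?_ (MC.val_pos _ v).le
        rw [h2]
        exact mul_le_mul_of_nonneg_right h3 hM
    _ = γ2.val v * γ1.val v * ((MC.ofElem (C.lc C.x)⁻¹).pow m).val v * C.mun v f := by ring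
    _ ≤ _ := by
        refine mul_le_mul_of_nonneg_right ?_ hM
        refine le_trans ?_ (MC.val_mul_le _ _ v)
        exact mul_le_mul_of_nonneg_right (MC.val_mul_le _ _ v) (MC.val_pos _ v).le

theorem k1_val_sum {ι : Type*} (s : Finset ι) (R : Place K F) (g : ι → F)
    (hg : ∀ i ∈ s, R.adicValuation (g i) ≤ 1) :
    S27.val R (∑ i ∈ s, g i) = ∑ i ∈ s, S27.val R (g i) := by
  classical
  induction s using Finset.induction_on with
  | empty =>
    have := S27.val_algebraMap R (0 : K)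
    simpa using this
  | insert a s ha ih =>
    rw [Finset.sum_insert ha, Finset.sum_insert ha, S27.val_add R (hg a (Finset.mem_insert_self _ _))
      (Valuation.map_sum_le _ fun i hi => hg i (Finset.mem_insert_of_mem hi)),
      ih fun i hi => hg i (Finset.mem_insert_of_mem hi)]

/-- (E) `v(u(R)) ≤ γ μ_v(u) |R|^m` for `u ∈ L(m·oo)`. -/
theorem eval_le (m : ℕ) :
    ∃ γ : MC K, ∀ (v : AbsoluteValue K ℝ) (u : F), u ∈ V C.oo m → ∀ R : Place K F, R ≠ C.oo →
      v (S27.val R u) ^ C.n ≤ γ.val v * (C.mun v u * C.X v R ^ m) := by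
  classical
  let b := Module.finBasis K (V C.oo m)
  set d := Module.finrank K (V C.oo m) with hd
  let φ : Fin d → F := fun i => (b i : F)
  have hφV : ∀ i, φ i ∈ V C.oo m := fun i => (b i).2
  have hφ : ∀ i, φ i ∈ Reg C.oo := fun i => (mem_V_iff.1 (hφV i)).1
  have hli : LinearIndependent K φ :=
    b.linearIndependent.map' (V C.oo m).subtype (Submodule.ker_subtype _)
  obtain ⟨γb, hγb⟩ := C.K1b φ hφ hli
  choose γs hγs using fun i => C.size_le m (hφV i)
  obtain ⟨γ3, hγ3⟩ := MC.exists_sup γs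
  refine ⟨(((MC.ofNat d).pow C.n).mul γb).mul γ3, fun v u hu R hR => ?_⟩
  set c : Fin d → K := fun i => b.repr ⟨u, hu⟩ i with hc
  have hu' : u = ∑ i, c i • φ i := by
    have h := congrArg (fun y : V C.oo m => (y : F)) (b.sum_repr ⟨u, hu⟩)
    simp only [Submodule.coe_sum, Submodule.coe_smul] at h
    exact h.symm
  have hreg : ∀ i, R.adicValuation (φ i) ≤ 1 := fun i =>
    (S27.adic_le_one_iff_mem R).2 (hφ i R hR)
  have hregc : ∀ i, R.adicValuation (c i • φ i) ≤ 1 := fun i => by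
    rw [Algebra.smul_def, map_mul]
    exact mul_le_one' (R.adicValuation_algebraMap_le_one _) (hreg i)
  have hval : S27.val R u = ∑ i, c i * S27.val R (φ i) := by
    rw [hu', k1_val_sum _ R _ fun i _ => hregc i]
    refine Finset.sum_congr rfl fun i _ => ?_
    rw [Algebra.smul_def, S27.val_mul R (R.adicValuation_algebraMap_le_one _) (hreg i),
      S27.val_algebraMap]
  set B : ℝ := nrm v fun i => S27.val R (φ i) with hB
  have hB0 : 0 ≤ B := nrm_nonneg v _
  have hc0 : 0 ≤ nrm v c := nrm_nonneg v c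
  have h1 : v (S27.val R u) ≤ (MC.ofNat d : MC K).val v * (nrm v c * B) := by
    rw [hval]
    have := MC.sum_le (Finset.univ : Finset (Fin d)) (fun i => c i * S27.val R (φ i)) v
      (mul_nonneg hc0 hB0) (fun i _ => by
        rw [map_mul]
        exact mul_le_mul (le_nrm v c i) (le_nrm v (fun i => S27.val R (φ i)) i) (v.nonneg _) hc0)
    simpa using this
  have hXm : 0 ≤ C.X v R ^ m := pow_nonneg (le_trans zero_le_one (C.one_le_X v R)) _
  have h2 : B ^ C.n ≤ γ3.val v * C.X v R ^ m := by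
    rcases isEmpty_or_nonempty (Fin d) with he | hne
    · have : B = 0 := by
        rw [hB]; unfold nrm; exact Real.iSup_of_isEmpty _
      rw [this, zero_pow C.hn.ne']
      exact mul_nonneg (MC.val_pos _ v).le hXm
    · obtain ⟨i, hi⟩ := exists_eq_nrm v fun i => S27.val R (φ i)
      rw [hB, hi]
      exact le_trans (hγs i v R hR) (mul_le_mul_of_nonneg_right (hγ3 i v) hXm)
  have h3 := hγb v c
  rw [← hu'] at h3
  have hM := C.mun_nonneg v u
  calc v (S27.val R u) ^ C.n ≤ ((MC.ofNat d : MC K).val v * (nrm v c * B)) ^ C.n :=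
        pow_le_pow_left₀ (v.nonneg _) h1 _
    _ = (MC.ofNat d : MC K).val v ^ C.n * (nrm v c ^ C.n * B ^ C.n) := by
        rw [mul_pow, mul_pow]
    _ ≤ ((MC.ofNat d).pow C.n : MC K).val v * ((γb.val v * C.mun v u) *
          (γ3.val v * C.X v R ^ m)) := by
        refine mul_le_mul (MC.val_pow_le _ _ v) ?_ (by positivity) (MC.val_pos _ v).le
        exact mul_le_mul h3 h2 (by positivity) (mul_nonneg (MC.val_pos _ v).le hM)
    _ = ((MC.ofNat d).pow C.n : MC K).val v * γb.val v * γ3.val v *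
          (C.mun v u * C.X v R ^ m) := by ring
    _ ≤ _ := by
        refine mul_le_mul_of_nonneg_right ?_ (mul_nonneg hM hXm)
        refine le_trans ?_ (MC.val_mul_le _ _ v)
        exact mul_le_mul_of_nonneg_right (MC.val_mul_le _ _ v) (MC.val_pos _ v).le

end Cv

end Fermat.Agent.S17.El
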