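import Fermat.Agent.S17.El.K2

/-!
# S17/El: (V) the Vandermonde inequality   (WP EL-V)

`v(det(φ_j(P_i)))^n ≤ γ ∏_i X(P_i)^(k+1-r) ∏_{i<i'} dn(P_i,P_i')`  for `φ_1..φ_r ∈ L(k·oo)` fixed, `P_1..P_r` distinct affine places.

PROOF by induction on `r` (statement for ALL families `φ`).  `r = 0`: `1 ≤ γ`.  Step: Laplace expansion along the row of the first point `R = P_0`:
`det = f(R)`, `f = ∑_j ± M_j φ_j ∈ L(k·oo)`, `M_j` the minors for `P_1..P_r` and the family `φ` without `φ_j`; `f(P_i) = 0` for `i > 0` (two equal rows).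
If `f(R) = 0` trivial.  Else `Cv.K2`: `v(f(R))^n ≤ γ v(lc f)^n ∏_{Q ∈ Z(f)} dn(Q,R)`.  `Z(f) ≥ P_1 + … + P_r`; for the remaining `dg f - r ≤ k - r`
zeros use `dn(Q,R) ≤ γ X(Q) X(R)` (`dn_le`); `v(lc f)^n ∏_{rest} X(Q) = mun f / ∏_{i>0} X(P_i)`; `mun f ≤ γ max_j v(M_j)^n` (`K1a`); induction for `M_j`.
-/

set_option autoImplicit false

open AlgebraicCurve

namespace Fermat.Agent.S17.El

namespace VdmAux

theorem prod_pow_split {α : Type*} (T S : Finset α) (hST : S ⊆ T) (m : α → ℕ)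
    (hm : ∀ Q ∈ S, 1 ≤ m Q) (a X : α → ℝ) (g : ℝ) (ha : ∀ Q ∈ T, 0 ≤ a Q)
    (hab : ∀ Q ∈ T, a Q ≤ g * X Q) (hX : ∀ Q ∈ T, 1 ≤ X Q) (hg : 1 ≤ g) (k : ℕ)
    (hk : ∑ Q ∈ T, m Q ≤ k) :
    (∏ Q ∈ T, a Q ^ m Q) * ∏ Q ∈ S, X Q ≤
      (∏ Q ∈ S, a Q) * g ^ (k - S.card) * ∏ Q ∈ T, X Q ^ m Q := by
  classical
  set e : α → ℕ := fun Q => if Q ∈ S then 1 else 0 with he
  set m' : α → ℕ := fun Q => m Q - e Q with hm'
  have hsplit : ∀ Q, m Q = e Q + m' Q := by
    intro Q
    simp only [he, hm']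
    split_ifs with h
    · have := hm Q h
      omega
    · omega
  have hprodE : ∀ b : α → ℝ, ∏ Q ∈ T, b Q ^ e Q = ∏ Q ∈ S, b Q := by
    intro b
    have : ∀ Q, b Q ^ e Q = if Q ∈ S then b Q else 1 := by
      intro Q
      simp only [he]
      split_ifs <;> simp
    simp only [this]
    rw [Finset.prod_ite_mem, Finset.inter_eq_right.mpr hST]
  have hA : ∀ b : α → ℝ, ∏ Q ∈ T, b Q ^ m Q = (∏ Q ∈ S, b Q) * ∏ Q ∈ T, b Q ^ m' Q := by
    intro b
    rw [← hprodE b, ← Finset.prod_mul_distrib]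
    exact Finset.prod_congr rfl fun Q _ => by rw [hsplit Q, pow_add]
  have hsum : ∑ Q ∈ T, m' Q ≤ k - S.card := by
    have h1 : ∑ Q ∈ T, m Q = ∑ Q ∈ T, e Q + ∑ Q ∈ T, m' Q := by
      rw [← Finset.sum_add_distrib]
      exact Finset.sum_congr rfl fun Q _ => hsplit Q
    have h2 : ∑ Q ∈ T, e Q = S.card := by
      simp only [he]
      rw [Finset.sum_ite_mem, Finset.inter_eq_right.mpr hST]
      simp
    omega
  have hB : ∏ Q ∈ T, a Q ^ m' Q ≤ g ^ (k - S.card) * ∏ Q ∈ T, X Q ^ m' Q := by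
    calc ∏ Q ∈ T, a Q ^ m' Q ≤ ∏ Q ∈ T, (g * X Q) ^ m' Q :=
          Finset.prod_le_prod (fun Q hQ => pow_nonneg (ha Q hQ) _)
            fun Q hQ => pow_le_pow_left₀ (ha Q hQ) (hab Q hQ) _
      _ = g ^ (∑ Q ∈ T, m' Q) * ∏ Q ∈ T, X Q ^ m' Q := by
          simp only [mul_pow]
          rw [Finset.prod_mul_distrib, Finset.prod_pow_eq_pow_sum]
      _ ≤ g ^ (k - S.card) * ∏ Q ∈ T, X Q ^ m' Q := by
          refine mul_le_mul_of_nonneg_right (pow_le_pow_right₀ hg hsum) ?_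
          exact Finset.prod_nonneg fun Q hQ => pow_nonneg (by linarith [hX Q hQ]) _
  have hSa : 0 ≤ ∏ Q ∈ S, a Q := Finset.prod_nonneg fun Q hQ => ha Q (hST hQ)
  have hSX : 0 ≤ ∏ Q ∈ S, X Q := Finset.prod_nonneg fun Q hQ => by linarith [hX Q (hST hQ)]
  rw [hA a, hA X]
  calc ((∏ Q ∈ S, a Q) * (∏ Q ∈ T, a Q ^ m' Q)) * (∏ Q ∈ S, X Q)
      ≤ ((∏ Q ∈ S, a Q) * (g ^ (k - S.card) * (∏ Q ∈ T, X Q ^ m' Q))) * (∏ Q ∈ S, X Q) :=
        mul_le_mul_of_nonneg_right (mul_le_mul_of_nonneg_left hB hSa) hSX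
    _ = _ := by ring

theorem final_real (A g2 g3 g4 g5 L ZD ZX XS XR DS DD N : ℝ) (k r : ℕ) (hrk : r ≤ k)
    (h2 : A ≤ g2 * (L * ZD))
    (hsplit : ZD * XS ≤ DS * (g3 * XR) ^ (k - r) * ZX)
    (h4 : L * ZX ≤ g4 * N)
    (h5 : N ≤ g5 * (XS ^ (k + 1 - r) * DD))
    (hg2 : 1 ≤ g2) (hg3 : 1 ≤ g3) (hg4 : 1 ≤ g4) (hL : 0 ≤ L)
    (hXS : 1 ≤ XS) (hXR : 1 ≤ XR) (hDS : 0 ≤ DS) (hDD : 0 ≤ DD) (hg5 : 1 ≤ g5) :
    A ≤ g2 * (g3 ^ k * (g4 * g5)) * ((XR * XS) ^ (k - r) * (DS * DD)) := by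
  have hXS0 : 0 < XS := by linarith
  have hpow : XS ^ (k + 1 - r) = XS ^ (k - r) * XS := by
    rw [← pow_succ]
    congr 1
    omega
  have hg0 : 0 ≤ (g3 * XR) ^ (k - r) := by positivity
  have e1 : A * XS ≤ (g2 * (g3 ^ (k - r) * (g4 * g5)) * ((XR * XS) ^ (k - r) * (DS * DD))) * XS := by
    calc A * XS ≤ g2 * (L * ZD) * XS := mul_le_mul_of_nonneg_right h2 hXS0.le
      _ = g2 * L * (ZD * XS) := by ring
      _ ≤ g2 * L * (DS * (g3 * XR) ^ (k - r) * ZX) :=
          mul_le_mul_of_nonneg_left hsplit (by positivity)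
      _ = g2 * DS * (g3 * XR) ^ (k - r) * (L * ZX) := by ring
      _ ≤ g2 * DS * (g3 * XR) ^ (k - r) * (g4 * (g5 * (XS ^ (k + 1 - r) * DD))) := by
          refine mul_le_mul_of_nonneg_left (h4.trans ?_) (by positivity)
          exact mul_le_mul_of_nonneg_left h5 (by linarith)
      _ = _ := by rw [hpow, mul_pow, mul_pow]; ring
  have e2 := le_of_mul_le_mul_right e1 hXS0
  refine e2.trans ?_
  have e3 : g3 ^ (k - r) ≤ g3 ^ k := pow_le_pow_right₀ hg3 (Nat.sub_le k r)
  have : 0 ≤ (XR * XS) ^ (k - r) * (DS * DD) := by positivity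
  refine mul_le_mul_of_nonneg_right ?_ this
  refine mul_le_mul_of_nonneg_left ?_ (by linarith)
  exact mul_le_mul_of_nonneg_right e3 (by positivity)

theorem card_le_sum {α : Type*} (T S : Finset α) (hST : S ⊆ T) (m : α → ℕ)
    (hm : ∀ Q ∈ S, 1 ≤ m Q) : S.card ≤ ∑ Q ∈ T, m Q := by
  calc S.card = ∑ _Q ∈ S, 1 := by simp
    _ ≤ ∑ Q ∈ S, m Q := Finset.sum_le_sum hm
    _ ≤ ∑ Q ∈ T, m Q := Finset.sum_le_sum_of_subset hST

theorem prod_filter_lt_succ {M : Type*} [CommMonoid M] {r : ℕ} (d : Fin (r + 1) → Fin (r + 1) → M) :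
    ∏ i, ∏ i' ∈ Finset.univ.filter (fun i' => i < i'), d i i' =
      (∏ i : Fin r, d 0 i.succ) *
        ∏ i : Fin r, ∏ i' ∈ Finset.univ.filter (fun i' => i < i'), d i.succ i'.succ := by
  rw [Fin.prod_univ_succ]
  congr 1
  · rw [Finset.prod_filter, Fin.prod_univ_succ]
    simp
  · refine Finset.prod_congr rfl fun i _ => ?_
    rw [Finset.prod_filter, Finset.prod_filter, Fin.prod_univ_succ]
    simp [Fin.succ_lt_succ_iff]

variable {K F : Type*} [Field K] [Field F] [Algebra K F] [IsAlgClosed K] [CharZero K]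
  [S27.IsFF K F]

omit [IsAlgClosed K] [CharZero K] [S27.IsFF K F] in
theorem val_zero (Q : Place K F) : S27.val Q (0 : F) = 0 := by
  have := S27.val_algebraMap Q (0 : K)
  rwa [map_zero] at this

omit [IsAlgClosed K] [CharZero K] [S27.IsFF K F] in
theorem smul_mem_vs (Q : Place K F) (c : K) {f : F} (h : f ∈ Q.toValuationSubring) :
    c • f ∈ Q.toValuationSubring := by
  rw [Algebra.smul_def]
  exact mul_mem (Q.algebraMap_mem' c) h

theorem val_sum_smul {ι : Type*} (s : Finset ι) (Q : Place K F) (c : ι → K) (φ : ι → F)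
    (h : ∀ i ∈ s, φ i ∈ Q.toValuationSubring) :
    S27.val Q (∑ i ∈ s, c i • φ i) = ∑ i ∈ s, c i * S27.val Q (φ i) := by
  classical
  induction s using Finset.induction_on with
  | empty => simpa using val_zero Q
  | insert a s ha ih =>
    have h1 : c a • φ a ∈ Q.toValuationSubring := smul_mem_vs Q _ (h a (Finset.mem_insert_self a s))
    have h2 : ∑ i ∈ s, c i • φ i ∈ Q.toValuationSubring :=
      sum_mem fun i hi => smul_mem_vs Q _ (h i (Finset.mem_insert_of_mem hi))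
    rw [Finset.sum_insert ha, Finset.sum_insert ha,
      S27.val_add Q ((S27.adic_le_one_iff_mem Q).2 h1) ((S27.adic_le_one_iff_mem Q).2 h2),
      ih fun i hi => h i (Finset.mem_insert_of_mem hi), Algebra.smul_def,
      S27.val_mul Q (Q.adicValuation_algebraMap_le_one _)
        ((S27.adic_le_one_iff_mem Q).2 (h a (Finset.mem_insert_self a s))), S27.val_algebraMap]

end VdmAux

variable {K F : Type*} [Field K] [Field F] [Algebra K F] [IsAlgClosed K] [CharZero K]
  [S27.IsFF K F]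

open VdmAux in
theorem Cv.vandermonde (C : Cv K F) (k r : ℕ) (φ : Fin r → F) (hφ : ∀ j, φ j ∈ V C.oo k) :
    ∃ γ : MC K, ∀ (v : AbsoluteValue K ℝ) (P : Fin r → Place K F), (∀ i, P i ≠ C.oo) →
      Function.Injective P →
        v (Matrix.det (Matrix.of fun i j => S27.val (P i) (φ j))) ^ C.n ≤
          γ.val v * ((∏ i, C.X v (P i)) ^ (k + 1 - r) *
            ∏ i, ∏ i' ∈ Finset.univ.filter (fun i' => i < i'), C.dn v (P i) (P i')) := by
  classical
  induction r with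
  | zero =>
    refine ⟨⟨[], 0, 0⟩, fun v P _ _ => ?_⟩
    simpa using MC.one_le_val _ v
  | succ r ih =>
    choose γm hγm using fun j : Fin (r + 1) =>
      ih (fun j' => φ (j.succAbove j')) (fun j' => hφ _)
    obtain ⟨γ5, hγ5⟩ := MC.exists_sup γm
    obtain ⟨γ2, hγ2⟩ := C.K2 k
    obtain ⟨γ3, hγ3⟩ := C.dn_le
    obtain ⟨γ4, hγ4⟩ := C.K1a φ (fun i => (mem_V_iff.1 (hφ i)).1)
    refine ⟨γ2.mul ((γ3.pow k).mul (γ4.mul γ5)), fun v P hP hinj => ?_⟩
    -- notation
    set R : Place K F := P 0 with hR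
    set P' : Fin r → Place K F := fun i => P i.succ with hP'
    have hP'inj : Function.Injective P' := fun i j h => Fin.succ_injective _ (hinj h)
    set M : Fin (r + 1) → K := fun j =>
      Matrix.det (Matrix.of fun i j' => S27.val (P' i) (φ (j.succAbove j'))) with hM
    set c : Fin (r + 1) → K := fun j => (-1) ^ (j : ℕ) * M j with hc
    set f : F := ∑ j, c j • φ j with hf
    have hfV : f ∈ V C.oo k := Submodule.sum_mem _ fun j _ => Submodule.smul_mem _ _ (hφ j)
    have hfReg : f ∈ Reg C.oo := (mem_V_iff.1 hfV).1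
    have hdet : ∀ Q : Place K F, Q ≠ C.oo → S27.val Q f =
        Matrix.det (Matrix.of fun i j => S27.val ((Fin.cons Q P' : Fin (r + 1) → Place K F) i) (φ j)) := by
      intro Q hQ
      rw [hf, val_sum_smul _ Q c φ fun i _ => (mem_V_iff.1 (hφ i)).1 Q hQ,
        Matrix.det_succ_row_zero]
      refine Finset.sum_congr rfl fun j _ => ?_
      simp only [hc, hM, Matrix.of_apply, Fin.cons_zero]
      have : (Matrix.of fun i j => S27.val ((Fin.cons Q P' : Fin (r + 1) → Place K F) i) (φ j)).submatrix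
          Fin.succ j.succAbove = Matrix.of fun i j' => S27.val (P' i) (φ (j.succAbove j')) := by
        ext i j'
        simp
      rw [this]
      ring
    have hdetR : Matrix.det (Matrix.of fun i j => S27.val (P i) (φ j)) = S27.val R f := by
      rw [hdet R (hP 0)]
      have : (Fin.cons R P' : Fin (r + 1) → Place K F) = P := by
        rw [hR, hP']
        exact Fin.cons_self_tail P
      rw [this]
    have hzero : ∀ i, S27.val (P' i) f = 0 := by
      intro i
      rw [hdet _ (hP _)]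
      refine Matrix.det_zero_of_row_eq (i := 0) (j := i.succ) (Fin.succ_ne_zero i).symm ?_
      ext j
      simp only [Matrix.of_apply, Fin.cons_zero, Fin.cons_succ]
      rfl
    rw [hdetR]
    -- the right hand side
    have hXpos : ∀ Q, 0 < C.X v Q := fun Q => lt_of_lt_of_le one_pos (C.one_le_X v Q)
    set XR : ℝ := C.X v R with hXR
    set XS : ℝ := ∏ i, C.X v (P' i) with hXS
    set DS : ℝ := ∏ i, C.dn v (P' i) R with hDS
    set DD : ℝ := ∏ i, ∏ i' ∈ Finset.univ.filter (fun i' => i < i'), C.dn v (P' i) (P' i') with hDD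
    have hXR1 : 1 ≤ XR := C.one_le_X v R
    have hXS1 : 1 ≤ XS := Finset.one_le_prod fun i _ => C.one_le_X v _
    have hDS0 : 0 ≤ DS := Finset.prod_nonneg fun i _ => C.dn_nonneg v _ _
    have hDD0 : 0 ≤ DD := Finset.prod_nonneg fun i _ => Finset.prod_nonneg fun i' _ =>
      C.dn_nonneg v _ _
    have hrhs : (∏ i, C.X v (P i)) ^ (k + 1 - (r + 1)) *
        ∏ i, ∏ i' ∈ Finset.univ.filter (fun i' => i < i'), C.dn v (P i) (P i') =
        (XR * XS) ^ (k - r) * (DS * DD) := by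
      rw [Fin.prod_univ_succ, Nat.add_sub_add_right,
        prod_filter_lt_succ (fun i i' => C.dn v (P i) (P i'))]
      congr 2
      exact Finset.prod_congr rfl fun i _ => C.dn_comm v _ _
    rw [hrhs]
    have hrhs0 : 0 ≤ (XR * XS) ^ (k - r) * (DS * DD) :=
      mul_nonneg (pow_nonneg (mul_nonneg (by linarith) (by linarith)) _) (mul_nonneg hDS0 hDD0)
    have hγpos := MC.val_pos (γ2.mul ((γ3.pow k).mul (γ4.mul γ5))) v
    by_cases hfR : S27.val R f = 0
    · rw [hfR, map_zero, zero_pow C.hn.ne']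
      exact mul_nonneg hγpos.le hrhs0
    have hf0 : f ≠ 0 := by
      intro h
      exact hfR (by rw [h]; exact val_zero R)
    -- the zeros of `f`
    set T : Finset (Place K F) := (RR.divOf K f).support.erase C.oo with hT
    set S : Finset (Place K F) := Finset.univ.image P' with hS
    set m : Place K F → ℕ := fun Q => (Q.ord f).toNat with hm
    have hScard : S.card = r := by
      rw [hS, Finset.card_image_of_injective _ hP'inj]
      simp
    have hprodS : ∀ h : Place K F → ℝ, ∏ Q ∈ S, h Q = ∏ i, h (P' i) := fun h =>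
      Finset.prod_image fun i _ j _ hij => hP'inj hij
    have hordpos : ∀ i, 0 < (P' i).ord f := by
      intro i
      have h1 : (P' i).adicValuation f ≤ 1 := (S27.adic_le_one_iff_mem _).2 (hfReg _ (hP _))
      have h2 := (S27.val_eq_zero_iff (P' i) h1).1 (hzero i)
      exact ((S27.adic_lt_one_iff_ord _).1 h2).resolve_left hf0
    have hST : S ⊆ T := by
      intro Q hQ
      obtain ⟨i, -, rfl⟩ := Finset.mem_image.1 hQ
      rw [hT, Finset.mem_erase, Finsupp.mem_support_iff, RR.divOf_apply]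
      exact ⟨hP _, (hordpos i).ne'⟩
    have hmS : ∀ Q ∈ S, 1 ≤ m Q := by
      intro Q hQ
      obtain ⟨i, -, rfl⟩ := Finset.mem_image.1 hQ
      have := hordpos i
      simp only [hm]
      omega
    have hsum : ∑ Q ∈ T, m Q ≤ k := by
      have h1 : ∑ Q ∈ T, m Q = dg C.oo f := sum_ord_eq_dg hfReg hf0
      have h2 := ((mem_V_iff.1 hfV).2).resolve_left hf0
      rw [h1]
      unfold dg
      omega
    have hrk : r ≤ k := by
      rw [← hScard]
      exact (card_le_sum T S hST m hmS).trans hsum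
    have hTne : ∀ Q ∈ T, Q ≠ C.oo := fun Q hQ => (Finset.mem_erase.1 hQ).1
    have hsplit := prod_pow_split T S hST m hmS (fun Q => C.dn v Q R) (fun Q => C.X v Q)
      (γ3.val v * XR) (fun Q _ => C.dn_nonneg v Q R)
      (fun Q hQ => by
        have := hγ3 v Q R (hTne Q hQ) (hP 0)
        calc C.dn v Q R ≤ γ3.val v * (C.X v Q * C.X v R) := this
          _ = γ3.val v * XR * C.X v Q := by rw [hXR]; ring)
      (fun Q _ => C.one_le_X v Q)
      (one_le_mul_of_one_le_of_one_le (MC.one_le_val γ3 v) hXR1) k hsum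
    rw [hScard, hprodS, hprodS] at hsplit
    -- the norm of the coefficient vector
    have hN : nrm v c ^ C.n ≤ γ5.val v * (XS ^ (k + 1 - r) * DD) := by
      obtain ⟨j, hj⟩ := exists_eq_nrm v c
      rw [hj]
      have h1 : v (c j) = v (M j) := by
        simp only [hc, map_mul, map_pow, map_neg_eq_map, map_one, one_pow, one_mul]
      rw [h1]
      refine (hγm j v P' (fun i => hP _) hP'inj).trans ?_
      refine mul_le_mul_of_nonneg_right (hγ5 j v) ?_
      exact mul_nonneg (pow_nonneg (by linarith) _) hDD0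
    have key := final_real (v (S27.val R f) ^ C.n) (γ2.val v) (γ3.val v) (γ4.val v) (γ5.val v)
      (v (C.lc f) ^ C.n) (zprod C.oo f fun Q => C.dn v Q R) (zprod C.oo f (C.X v)) XS XR DS DD
      (nrm v c ^ C.n) k r hrk (hγ2 v f hfV R (hP 0) hfR) hsplit (hγ4 v c) hN
      (MC.one_le_val _ v) (MC.one_le_val _ v) (MC.one_le_val _ v) (pow_nonneg (v.nonneg _) _)
      hXS1 hXR1 hDS0 hDD0 (MC.one_le_val _ v)
    refine key.trans (mul_le_mul_of_nonneg_right ?_ hrhs0)
    refine le_trans ?_ (MC.val_mul_le _ _ v)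
    refine mul_le_mul_of_nonneg_left ?_ (MC.val_pos _ v).le
    refine le_trans ?_ (MC.val_mul_le _ _ v)
    exact mul_le_mul (MC.val_pow_le _ _ v) (MC.val_mul_le _ _ v)
      (mul_nonneg (MC.val_pos _ v).le (MC.val_pos _ v).le) (MC.val_pos _ v).le

end Fermat.Agent.S17.El
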