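import Fermat.Agent.S17.El.X.Low
import Fermat.Agent.S17.El.X.Up

/-!
# S17/El: (X) `v(x'(P) - x'(R)) ≤ γ ∏_{R' ∈ Z(x' - x'(R))} d_v(P,R')`   (WPs EL-X1, EL-X2, EL-X3)

`x' ∈ A` of degree `n' > 0`, `N = Nm K x'`.  Index set of the variables `c`: `Fin r × Fin r`.
`y_c^P := ∑_{a,b} c_ab yy P a b ∈ L(κ·oo - P)`;  `y_c^P(R') = ∑ c_ab pl P R' a b =: L_{R'}(c)`.

EL-X1 (`exists_G`).  `N(y_c^P)(ξ) = ∑_j Φ_j(coordinates of y_c^P in e) ξ^j` (`Nm_poly` for the family `e`), a polynomial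
 `Ψ(c, Z, ξ)` evaluated at `Z = e(P)`, homogeneous of degree `n'` in `c` and in `Z`, of degree `≤ κ` in `ξ`.
 View it in `A[c][ξ]` (`Z_a := e_a`).  It vanishes at `ξ = x'`: at every affine `P` and every `c ∈ K^..` its value is
 `N(y_c^P)(x'(P)) = ∏_{R' ∈ Z(x'-x'(P))} y_c^P(R') = 0` (`Nm_eval`; `P` is in the fibre, `y_c^P(P) = 0`), and a function vanishing at
 all affine places is `0`.  Factor theorem (`Polynomial.dvd_iff_isRoot`): `Ψ = (ξ - x') G`, `G = ∑_{α,j} g_{α,j} c^α ξ^j`, `j ≤ κ-1`.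
 Degrees: `x' G_0 = -Ψ_0`, `x' G_j = G_{j-1} - Ψ_j`, `dg Ψ_j ≤ n' κ` ⇒ by induction `dg g_{α,j} ≤ n'(κ-1)`.
EL-X2 (`G_ne_zero`): for every place `P` (also `oo`, normalised evaluation) and every `(ξ₀:ξ₁)` some `∑_j g_{α,j}(P) ξ₁^j ξ₀^(κ-1-j) ≠ 0`.
 `P` affine, `ξ₀ = 1`: choose `y ∈ L(κ·oo - P)` with `ord_P y = 1`, nonvanishing at the other points of the fibre of `ξ` (and, if
 `x'(P) = ξ`, note `Z(y) - P` must avoid the whole fibre incl. `P`) (`exists_section` for `D = κ·oo - P`); `y = y_c^P` (`mem_span_yy`);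
 `N y = Lc ∏_{Q ∈ Z(y)} (X - x'(Q))`, so `G_P(c,ξ) = Lc ∏_{Q ∈ Z(y) - P} (ξ - x'(Q)) ≠ 0`.  `ξ = ∞`: the coefficient of `ξ^(κ-1)` is `Lc(N y)`
 if `dg y = κ`.  `P = oo`: divide by `e_top(P)^{n'}/x'(P)`: the limit is `- N(y^∞)(ξ)`, `y^∞` an arbitrary element of `L((κ-1)·oo)`.
EL-X3 (`Cv.Xineq`): `∏_{R'} L_{R'}(c) = (ξ - x'(P)) G_P(c,ξ)` as polynomials in `c`; coefficientwise
 `v(ξ - x'(P)) |G_P(.,ξ)| = |∏ L_{R'}| ≤ γ ∏ |L_{R'}| = γ ∏ D(P,R')` (trivial direction), `bpf_prod` (`G = n'(κ-1)·oo`, `υ = Fin 2`, bidegree `(1,κ-1)`)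
 gives `|G_P(.,ξ)| ≥ γ⁻¹ |basis of L(n'(κ-1)oo) at P| max(1,v ξ)^(κ-1)`; `X_pow_le'`, `X_pow_le_of` (`∏_{R'} X(R') ≤ γ max(1,v ξ)^n`).
The owner of EL-X1 fixes the exact shape of `G`; the only interface used elsewhere is `Cv.Xineq`.

IMPLEMENTATION (helper26): see `El/X/Defs.lean`.  Sub-WPs EL-XA (`X/Top`), EL-XB (`X/Grid`), EL-XC (`X/Root`), EL-XD (`X/NZ`),
EL-XE (`X/Low`), EL-XF (`X/Up`); this file = final assembly (helper26).
-/

set_option autoImplicit false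

open AlgebraicCurve

namespace Fermat.Agent.S17.El

variable {K F : Type*} [Field K] [Field F] [Algebra K F] [IsAlgClosed K] [CharZero K]
  [S27.IsFF K F]

theorem Cv.Xineq (C : Cv K F) {x' : F} (hx' : x' ∈ Reg C.oo) {n' : ℕ} (hn' : 0 < n')
    (hd : C.oo.ord x' = -(n' : ℤ)) :
    ∃ γ : MC K, ∀ (v : AbsoluteValue K ℝ) (P R : Place K F), P ≠ C.oo → R ≠ C.oo →
      v (S27.val P x' - S27.val R x') ^ C.n ≤
        γ.val v * zprod C.oo (x' - algebraMap K F (S27.val R x')) (fun R' => C.dn v P R') := by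
  classical
  have heReg : ∀ a, C.e a ∈ Reg C.oo := fun a => XX.mem_Reg_of_mem_V C (C.e_mem a)
  obtain ⟨Φ, hom, spec⟩ := Nm_poly C hx' hn' hd C.e heReg
  let D : XX.NData C x' n' := ⟨hx', hn', hd, Φ, hom, spec⟩
  obtain ⟨γL, hL⟩ := XX.exists_lower D
  obtain ⟨γU, hU⟩ := XX.exists_upper D
  obtain ⟨γX, hX⟩ := C.X_pow_le_of hx' hn' hd
  refine ⟨((γX.pow n').pow (C.κ - 1)).mul (γL.mul (γU.pow C.n)), ?_⟩
  intro v P R hP hR
  set ξ : K := S27.val R x' with hξ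
  set f : F := x' - algebraMap K F ξ with hf
  have hx0 : x' ≠ 0 := by
    rintro rfl
    rw [Place.ord_zero] at hd
    omega
  have hdgx : dg C.oo x' = n' := by
    rw [dg, hd]; simp
  have hdgf : dg C.oo f = n' := by
    rw [hf, C.dg_sub_const (by rw [hdgx]; exact hn'), hdgx]
  have hfReg : f ∈ Reg C.oo := (Reg C.oo).sub_mem hx' ((Reg C.oo).algebraMap_mem ξ)
  have hf0 : f ≠ 0 := by
    intro h0
    rw [h0, dg, Place.ord_zero] at hdgf
    simp at hdgf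
    omega
  obtain ⟨Z, hZ, hcard⟩ := exists_zeros hfReg hf0
  have hzp : ∀ φ : Place K F → ℝ, zprod C.oo f φ = ∏ i, φ (Z i) := fun φ =>
    zprod_eq_prod hfReg hf0 Z hZ hcard φ
  have hZξ : ∀ i, S27.val (Z i) x' = ξ := by
    intro i
    apply S27.val_unique
    rw [S27.adic_lt_one_iff_ord]
    right
    have h1 := hcard (Z i) (hZ i)
    have h2 : 0 < Nat.card {k // Z k = Z i} := by
      have : Nonempty {k // Z k = Z i} := ⟨⟨i, rfl⟩⟩
      exact Nat.card_pos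
    rw [← h1] at h2
    have := Int.lt_toNat.mp h2
    simpa using this
  set A : ℝ := v (ξ - S27.val P x') with hA
  have hA' : v (S27.val P x' - ξ) = A := by rw [hA, AbsoluteValue.map_sub]
  set mx : ℝ := max 1 (v ξ) with hmx
  have hmx1 : 1 ≤ mx := le_max_left _ _
  set Dp : ℝ := ∏ i, C.D v P (Z i) with hDp
  have hDp0 : 0 ≤ Dp := Finset.prod_nonneg fun i _ => C.D_nonneg v P (Z i)
  set XR : ℝ := ∏ i, C.X v (Z i) with hXR
  have hXR1 : 1 ≤ XR := by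
    rw [hXR]
    exact Finset.prod_induction _ (fun x => 1 ≤ x) (fun a b ha hb => one_le_mul_of_one_le_of_one_le ha hb)
      le_rfl (fun i _ => C.one_le_X v (Z i))
  have hXP1 : 1 ≤ C.X v P := C.one_le_X v P
  set T : ℝ := nrm v fun t : Fin C.r × Fin C.r → Fin (n' + 1) =>
          ∑ j ∈ Finset.range C.κ, S27.val P (XX.gg C D.Φ x' (XX.gridPt C t) j) * ξ ^ j with hT
  have hT0 : 0 ≤ T := nrm_nonneg v _
  have hA0 : 0 ≤ A := apply_nonneg v _
  have hc : (Finset.univ : Finset (Fin (dg C.oo f))).card = n' := by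
    rw [Finset.card_univ, Fintype.card_fin, hdgf]
  -- the product of the distances
  have hgoal : zprod C.oo f (fun R' => C.dn v P R') =
      Dp ^ C.n / (C.X v P ^ (n' * (C.κ - 1)) * XR ^ (C.κ - 1)) := by
    rw [hzp]
    simp only [Cv.dn]
    rw [Finset.prod_div_distrib, Finset.prod_pow, Finset.prod_pow, Finset.prod_mul_distrib,
      Finset.prod_const, hc, mul_pow, ← pow_mul]
  rw [hA', hgoal]
  have hXP0 : 0 < C.X v P := lt_of_lt_of_le one_pos hXP1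
  have hXR0 : 0 < XR := lt_of_lt_of_le one_pos hXR1
  have hmx0 : 0 < mx := lt_of_lt_of_le one_pos hmx1
  have hden : 0 < C.X v P ^ (n' * (C.κ - 1)) * XR ^ (C.κ - 1) :=
    mul_pos (pow_pos hXP0 _) (pow_pos hXR0 _)
  rw [← mul_div_assoc, le_div_iff₀ hden]
  -- A T ≤ γU Dp
  have hAT : A * T ≤ γU.val v * Dp := by
    rcases hA0.eq_or_lt with h0 | hpos
    · rw [← h0, zero_mul]
      exact mul_nonneg (γU.val_pos v).le hDp0
    · have : T ≤ γU.val v * Dp / A := by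
        refine nrm_le v (div_nonneg (mul_nonneg (γU.val_pos v).le hDp0) hA0) fun t => ?_
        rw [le_div_iff₀ hpos, mul_comm]
        have := hU v P hP ξ t
        rwa [hzp] at this
      calc A * T ≤ A * (γU.val v * Dp / A) := mul_le_mul_of_nonneg_left this hA0
        _ = γU.val v * Dp := by field_simp
  have h1 : C.X v P ^ (n' * (C.κ - 1)) * mx ^ (C.n * (C.κ - 1)) ≤ γL.val v * T ^ C.n := hL v P hP ξ
  -- XR ≤ γ mx^n
  have h2 : XR ≤ (γX.pow n').val v * mx ^ C.n := by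
    refine MC.le_of_pow_le _ v hXR0.le (pow_pos hmx0 _).le hn'.ne' ?_
    have h3 : XR ^ n' ≤ ∏ _i : Fin (dg C.oo f), (γX.val v * mx ^ C.n) := by
      rw [hXR, ← Finset.prod_pow]
      refine Finset.prod_le_prod
        (fun i _ => (pow_pos (lt_of_lt_of_le one_pos (C.one_le_X v (Z i))) _).le) fun i _ => ?_
      have := hX v (Z i) (hZ i)
      rwa [hZξ i] at this
    rw [Finset.prod_const, hc, mul_pow] at h3
    exact h3.trans (mul_le_mul_of_nonneg_right (MC.val_pow_le _ _ v) (pow_pos (pow_pos hmx0 _) _).le)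
  have h4 : XR ^ (C.κ - 1) ≤ ((γX.pow n').pow (C.κ - 1)).val v * mx ^ (C.n * (C.κ - 1)) := by
    calc XR ^ (C.κ - 1) ≤ ((γX.pow n').val v * mx ^ C.n) ^ (C.κ - 1) :=
          pow_le_pow_left₀ hXR0.le h2 _
      _ = (γX.pow n').val v ^ (C.κ - 1) * mx ^ (C.n * (C.κ - 1)) := by rw [mul_pow, ← pow_mul]
      _ ≤ _ := mul_le_mul_of_nonneg_right (MC.val_pow_le _ _ v) (pow_pos hmx0 _).le
  set g3 : ℝ := ((γX.pow n').pow (C.κ - 1)).val v with hg3
  have hg3pos : 0 < g3 := MC.val_pos _ v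
  calc A ^ C.n * (C.X v P ^ (n' * (C.κ - 1)) * XR ^ (C.κ - 1))
      ≤ A ^ C.n * (C.X v P ^ (n' * (C.κ - 1)) * (g3 * mx ^ (C.n * (C.κ - 1)))) :=
        mul_le_mul_of_nonneg_left (mul_le_mul_of_nonneg_left h4 (pow_pos hXP0 _).le)
          (pow_nonneg hA0 _)
    _ = g3 * (A ^ C.n * (C.X v P ^ (n' * (C.κ - 1)) * mx ^ (C.n * (C.κ - 1)))) := by ring
    _ ≤ g3 * (A ^ C.n * (γL.val v * T ^ C.n)) :=
        mul_le_mul_of_nonneg_left (mul_le_mul_of_nonneg_left h1 (pow_nonneg hA0 _)) hg3pos.le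
    _ = g3 * (γL.val v * (A * T) ^ C.n) := by ring
    _ ≤ g3 * (γL.val v * (γU.val v * Dp) ^ C.n) :=
        mul_le_mul_of_nonneg_left (mul_le_mul_of_nonneg_left
          (pow_le_pow_left₀ (mul_nonneg hA0 hT0) hAT _) (γL.val_pos v).le) hg3pos.le
    _ = g3 * (γL.val v * γU.val v ^ C.n) * Dp ^ C.n := by ring
    _ ≤ (((γX.pow n').pow (C.κ - 1)).mul (γL.mul (γU.pow C.n))).val v * Dp ^ C.n := by
        refine mul_le_mul_of_nonneg_right ?_ (pow_nonneg hDp0 _)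
        refine le_trans ?_ (MC.val_mul_le _ _ v)
        refine mul_le_mul_of_nonneg_left ?_ hg3pos.le
        refine le_trans ?_ (MC.val_mul_le _ _ v)
        exact mul_le_mul_of_nonneg_left (MC.val_pow_le _ _ v) (γL.val_pos v).le

end Fermat.Agent.S17.El
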