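import Fermat.Agent.S17.El.L
import Fermat.Agent.S17.El.X

/-!
# S17/El: (K2) `v(f(R)) ~ v(lc f) ∏_{P ∈ Z(f)} d_v(P,R)`   (WP EL-K2; EL-K2D is in K2d.lean)

EL-K2 (`Cv.K2`), the FIBRE TRICK.  Let `f ∈ L(m·oo)`, `f(R) ≠ 0`.
 (a) choose `x' = ∑_k c_k e_k` with `x'(P) ≠ x'(R)` for all `P ∈ Z(f)`, `c` in the FIXED finite set `{(1,s,s²,…,s^(r-1)) : 0 ≤ s ≤ m(r-1)}`
     (each condition excludes a hyperplane `∑ c_k (e_k(P) - e_k(R)) = 0`, which is proper by `exists_pl_ne_zero`/separation of points and contains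
     at most `r-1` points of the moment curve).  If `dg f = 0` the claim is trivial.  `x'` is nonconstant, `n' := dg x'`.
 (b) for all `R'` in the fibre `Z(x' - x'(R))`: `a_{R'} := v(lc f)^n ∏_P dn(P,R') ≤ γ b_{R'}`, `b_{R'} := v(f(R'))^n` by `Cv.L`; all `a_{R'} > 0`.
 (c) `∏_{R'} b_{R'} = v(N f(x'(R)))^n` (`Nm_eval`) `= (v Lc ∏_P v(x'(R) - x'(P)))^n` (`Nm_factor`), `v Lc = v(lc f)^{n'} / v(lc x')^{dg f}`, and
     `v(x'(P) - x'(R))^n ≤ γ ∏_{R'} dn(P,R')` by `Cv.Xineq`.  Hence `∏ b_{R'} ≤ γ' ∏ a_{R'}`.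
 (d) `b_R = ∏ b / ∏_{R' ≠ R} b_{R'} ≤ γ' ∏ a / ∏_{R' ≠ R} (a_{R'}/γ) = γ'' a_R`.   Constants: sup over the finitely many `x'`.
EL-K2D (`Cv.K2d`): `f, y ∈ L(m·oo)` with simple zeros at `P`.  `B := Z(y) - P`; `u ∈ L((m+2g)·oo - B)` with `u(P) ≠ 0` (`exists_section`);
 `w := f u / y ∈ A`, `Z(w) = (Z(f) - P) + (Z(u) - B)`, `w(P) = (f/y)(P) u(P) ≠ 0`, `lc w lc y = lc f lc u`.  Apply `Cv.K2` to `w` and `Cv.L` to `u` at `P`.
-/

set_option autoImplicit false
set_option linter.unusedSectionVars false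

open AlgebraicCurve

namespace Fermat.Agent.S17.El

variable {K F : Type*} [Field K] [Field F] [Algebra K F] [IsAlgClosed K] [CharZero K]
  [S27.IsFF K F]

namespace K2Aux

open LAux

theorem dg_le_of_mem_V {oo : Place K F} {m : ℕ} {f : F} (hf : f ∈ V oo m) (h0 : f ≠ 0) :
    dg oo f ≤ m := by
  obtain ⟨hR, h⟩ := mem_V_iff.1 hf
  rcases h with h | h
  · exact absurd h h0
  · rw [ord_eq_neg_dg hR h0] at h
    omega

/-- the fibre trick for a fixed `x'` separating `R` from the zeros of `f`. -/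
theorem fibre (C : Cv K F) (m : ℕ) {x' : F} (hx' : x' ∈ Reg C.oo) {n' : ℕ} (hn' : 0 < n')
    (hd : C.oo.ord x' = -(n' : ℤ)) :
    ∃ γ : MC K, ∀ (v : AbsoluteValue K ℝ) (f : F), f ∈ V C.oo m →
      ∀ R : Place K F, R ≠ C.oo → S27.val R f ≠ 0 →
      (∀ P : Place K F, P ≠ C.oo → 0 < P.ord f → S27.val P x' ≠ S27.val R x') →
        v (S27.val R f) ^ C.n ≤
          γ.val v * (v (C.lc f) ^ C.n * zprod C.oo f (fun P => C.dn v P R)) := by
  obtain ⟨γL, hL⟩ := C.L m
  obtain ⟨γX, hX⟩ := C.Xineq hx' hn' hd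
  refine ⟨((γX.pow m).mul ((MC.ofElem (C.lc x')⁻¹).pow (m * C.n))).mul (γL.pow n'),
    fun v f hf R hR hfR hsep => ?_⟩
  set γc : MC K := MC.ofElem (C.lc x')⁻¹ with hγc
  have hf0 : f ≠ 0 := by
    rintro rfl
    apply hfR
    simpa using S27.val_algebraMap R (0 : K)
  have hfReg : f ∈ Reg C.oo := (mem_V_iff.1 hf).1
  have hdgf : dg C.oo f ≤ m := dg_le_of_mem_V hf hf0
  have hx0 : x' ≠ 0 := by
    rintro rfl
    have h1 : C.oo.ord (0 : F) = 0 := by simp
    rw [h1] at hd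
    omega
  have hdgx : dg C.oo x' = n' := by
    unfold dg
    rw [hd]
    simp
  set ξ : K := S27.val R x' with hξ
  set g : F := x' - algebraMap K F ξ with hg
  have hgReg : g ∈ Reg C.oo := Subalgebra.sub_mem _ hx' (Subalgebra.algebraMap_mem _ _)
  have hdgg : dg C.oo g = n' := by
    rw [hg, C.dg_sub_const (by rw [hdgx]; exact hn'), hdgx]
  have hg0 : g ≠ 0 := by
    intro h
    rw [h] at hdgg
    have h1 : dg C.oo (0 : F) = 0 := by simp [dg]
    omega
  -- points of the fibre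
  have hfib : ∀ R' : Place K F, R' ≠ C.oo → 0 < R'.ord g → S27.val R' x' = ξ := by
    intro R' hR' hpos
    have h1 := (val_eq_zero_iff_ord hgReg hg0 hR').2 hpos
    rw [hg, S27.val_sub R' (adic_le_one hx' hR') (R'.adicValuation_algebraMap_le_one _),
      S27.val_algebraMap] at h1
    exact sub_eq_zero.1 h1
  have hfibne : ∀ R' : Place K F, R' ≠ C.oo → 0 < R'.ord g → S27.val R' f ≠ 0 := by
    intro R' hR' hpos h0
    exact hsep R' hR' ((val_eq_zero_iff_ord hfReg hf0 hR').1 h0) (hfib R' hR' hpos)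
  have hRg : 0 < R.ord g := by
    rw [← val_eq_zero_iff_ord hgReg hg0 hR, hg,
      S27.val_sub R (adic_le_one hx' hR) (R.adicValuation_algebraMap_le_one _),
      S27.val_algebraMap, sub_self]
  set e : ℕ := (R.ord g).toNat with he
  have he0 : e ≠ 0 := by
    rw [he]
    omega
  set bfun : Place K F → ℝ := fun R' => v (S27.val R' f) ^ C.n with hbfun
  set Zf : Place K F → ℝ := fun R' => zprod C.oo f (fun P => C.dn v P R') with hZf
  set afun : Place K F → ℝ := fun R' => v (C.lc f) ^ C.n * Zf R' with hafun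
  have hZf0 : ∀ R', 0 ≤ Zf R' := fun R' => zprod_nonneg fun P _ _ => C.dn_nonneg v P R'
  have hafun0 : ∀ R', 0 ≤ afun R' := fun R' => mul_nonneg (pow_nonneg (v.nonneg _) _) (hZf0 R')
  have hab : ∀ R' : Place K F, R' ≠ C.oo → afun R' ≤ γL.val v * bfun R' :=
    fun R' hR' => hL v f hf hf0 R' hR'
  -- the product of the `b`
  have H1 : zprod C.oo g bfun = v ((Nm K x' f).eval ξ) ^ C.n := by
    rw [Nm_eval C hx' hn' hd hfReg ξ, hbfun, zprod_pow]
    congr 1
    exact (zprod_map C.oo g v.toMonoidHom (fun R' => S27.val R' f)).symm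
  have H2 : (Nm K x' f).eval ξ =
      (Nm K x' f).leadingCoeff * zprod C.oo f (fun P => ξ - S27.val P x') := by
    have h1 := congrArg (Polynomial.eval ξ) (Nm_factor C hx' hn' hd hfReg hf0)
    rw [Polynomial.eval_mul, Polynomial.eval_C] at h1
    rw [h1]
    congr 1
    have h2 := zprod_map C.oo f (Polynomial.evalRingHom ξ).toMonoidHom
      (fun P => (Polynomial.X - Polynomial.C (S27.val P x') : Polynomial K))
    simpa using h2
  have H3 := abv_Nm_lead C hx' hn' hd v hfReg hf0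
  have hlcx : C.lc x' ≠ 0 := C.lc_ne_zero hx' hx0
  have hw : 0 < v (C.lc x') := v.pos hlcx
  have hwinv : (v (C.lc x'))⁻¹ ≤ γc.val v := by
    rw [← map_inv₀]
    exact MC.le_ofElem _ v
  have hLc : v (Nm K x' f).leadingCoeff = v (C.lc f) ^ n' * ((v (C.lc x'))⁻¹) ^ dg C.oo f := by
    rw [← H3, inv_pow]
    field_simp
  set Z : ℝ := zprod C.oo g Zf with hZ
  have hZ0 : 0 ≤ Z := zprod_nonneg fun R' _ _ => hZf0 R'
  have H4 : zprod C.oo f (fun P => v (ξ - S27.val P x') ^ C.n) ≤ γX.val v ^ dg C.oo f * Z := by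
    have h1 : zprod C.oo f (fun P => v (ξ - S27.val P x') ^ C.n) ≤
        zprod C.oo f (fun P => γX.val v * zprod C.oo g (fun R' => C.dn v P R')) := by
      refine zprod_le (fun P _ _ => pow_nonneg (v.nonneg _) _) fun P hP _ => ?_
      rw [v.map_sub]
      exact hX v P R hP hR
    rw [zprod_const_mul hfReg hf0, zprod_comm] at h1
    exact h1
  have H5 : zprod C.oo g afun = (v (C.lc f) ^ C.n) ^ n' * Z := by
    rw [hafun, zprod_const_mul hgReg hg0, hdgg]
  have hγX1 := MC.one_le_val γX v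
  have hγc1 := MC.one_le_val γc v
  have hγL1 := MC.one_le_val γL v
  have H6 : zprod C.oo g bfun ≤
      (γX.val v ^ m * γc.val v ^ (m * C.n)) * zprod C.oo g afun := by
    rw [H1, H2, map_mul, mul_pow, H5]
    have h1 : v (zprod C.oo f (fun P => ξ - S27.val P x')) ^ C.n =
        zprod C.oo f (fun P => v (ξ - S27.val P x') ^ C.n) := by
      rw [zprod_pow]
      congr 1
      exact zprod_map C.oo f v.toMonoidHom (fun P => ξ - S27.val P x')
    rw [h1, hLc, mul_pow]
    have h2 : (((v (C.lc x'))⁻¹) ^ dg C.oo f) ^ C.n ≤ γc.val v ^ (m * C.n) := by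
      rw [← pow_mul]
      calc ((v (C.lc x'))⁻¹) ^ (dg C.oo f * C.n) ≤ γc.val v ^ (dg C.oo f * C.n) :=
            pow_le_pow_left₀ (inv_nonneg.2 hw.le) hwinv _
        _ ≤ γc.val v ^ (m * C.n) := pow_le_pow_right₀ hγc1 (Nat.mul_le_mul_right _ hdgf)
    have h3 : γX.val v ^ dg C.oo f ≤ γX.val v ^ m := pow_le_pow_right₀ hγX1 hdgf
    have h4 : (v (C.lc f) ^ n') ^ C.n = (v (C.lc f) ^ C.n) ^ n' := by
      rw [← pow_mul, ← pow_mul, mul_comm]
    rw [h4]
    have hA : 0 ≤ (v (C.lc f) ^ C.n) ^ n' := pow_nonneg (pow_nonneg (v.nonneg _) _) _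
    calc (v (C.lc f) ^ C.n) ^ n' * (((v (C.lc x'))⁻¹) ^ dg C.oo f) ^ C.n *
          zprod C.oo f (fun P => v (ξ - S27.val P x') ^ C.n)
        ≤ (v (C.lc f) ^ C.n) ^ n' * γc.val v ^ (m * C.n) * (γX.val v ^ m * Z) := by
          refine mul_le_mul (mul_le_mul_of_nonneg_left h2 hA)
            (le_trans H4 (mul_le_mul_of_nonneg_right h3 hZ0))
            (zprod_nonneg fun P _ _ => pow_nonneg (v.nonneg _) _)
            (mul_nonneg hA (pow_nonneg (by linarith) _))
      _ = _ := by ring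
  -- split off `R`
  have hsb := zprod_eq_mul_zprodE (oo := C.oo) (P := R) (f := g) hR bfun
  have hsa := zprod_eq_mul_zprodE (oo := C.oo) (P := R) (f := g) hR afun
  have hB' : 0 < zprodE C.oo g R bfun :=
    zprodE_pos fun R' hR' _ hpos => pow_pos (v.pos (hfibne R' hR' hpos)) _
  have hA' : zprodE C.oo g R afun ≤ γL.val v ^ n' * zprodE C.oo g R bfun := by
    have := zprodE_le_mul (oo := C.oo) (f := g) hgReg hg0 (Q := R) (φ := afun) (ψ := bfun) hγL1
      (fun R' _ _ _ => hafun0 R') (fun R' hR' _ _ => hab R' hR')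
    rwa [hdgg] at this
  have hfin : bfun R ^ e ≤
      (γX.val v ^ m * γc.val v ^ (m * C.n) * γL.val v ^ n') * afun R ^ e := by
    rw [hsb, hsa] at H6
    have h1 : bfun R ^ e * zprodE C.oo g R bfun ≤
        ((γX.val v ^ m * γc.val v ^ (m * C.n) * γL.val v ^ n') * afun R ^ e) *
          zprodE C.oo g R bfun := by
      refine le_trans H6 ?_
      have h2 : 0 ≤ γX.val v ^ m * γc.val v ^ (m * C.n) * afun R ^ e :=
        mul_nonneg (mul_nonneg (pow_nonneg (by linarith) _) (pow_nonneg (by linarith) _))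
          (pow_nonneg (hafun0 R) _)
      calc γX.val v ^ m * γc.val v ^ (m * C.n) * (afun R ^ e * zprodE C.oo g R afun)
          = (γX.val v ^ m * γc.val v ^ (m * C.n) * afun R ^ e) * zprodE C.oo g R afun := by ring
        _ ≤ (γX.val v ^ m * γc.val v ^ (m * C.n) * afun R ^ e) *
              (γL.val v ^ n' * zprodE C.oo g R bfun) := mul_le_mul_of_nonneg_left hA' h2
        _ = _ := by ring
    exact le_of_mul_le_mul_right h1 hB'
  refine MC.le_of_pow_le _ v (pow_nonneg (v.nonneg _) _) (hafun0 R) he0 (le_trans hfin ?_)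
  refine mul_le_mul_of_nonneg_right ?_ (pow_nonneg (hafun0 R) _)
  refine le_trans ?_ (MC.val_mul_le _ _ v)
  refine mul_le_mul (le_trans ?_ (MC.val_mul_le _ _ v)) (MC.val_pow_le _ _ v)
    (pow_nonneg (by linarith) _) (MC.val_pos _ v).le
  exact mul_le_mul (MC.val_pow_le _ _ v) (MC.val_pow_le _ _ v) (pow_nonneg (by linarith) _)
    (MC.val_pos _ v).le

/-- the functions `x'_s = ∑_k s^k e_k` on the moment curve. -/
noncomputable def xs (C : Cv K F) (s : ℕ) : F := ∑ k : Fin C.r, ((s : K) ^ (k : ℕ)) • C.e k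

theorem e_mem_Reg (C : Cv K F) (k : Fin C.r) : C.e k ∈ Reg C.oo := (mem_V_iff.1 (C.e_mem k)).1

theorem xs_mem (C : Cv K F) (s : ℕ) : xs C s ∈ Reg C.oo :=
  Subalgebra.sum_mem _ fun k _ => Subalgebra.smul_mem _ (e_mem_Reg C k) _

theorem val_xs (C : Cv K F) (s : ℕ) {P : Place K F} (hP : P ≠ C.oo) :
    S27.val P (xs C s) = ∑ k : Fin C.r, (s : K) ^ (k : ℕ) * S27.val P (C.e k) := by
  unfold xs
  rw [val_sum Finset.univ _ (fun k _ => Subalgebra.smul_mem _ (e_mem_Reg C k) _) hP]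
  exact Finset.sum_congr rfl fun k _ => val_smul (e_mem_Reg C k) hP _

/-- the polynomial `∑_k (e_k(P) - e_k(R)) X^k`. -/
noncomputable def hpol (C : Cv K F) (P R : Place K F) : Polynomial K :=
  ∑ k : Fin C.r, Polynomial.monomial (k : ℕ) (S27.val P (C.e k) - S27.val R (C.e k))

theorem eval_hpol (C : Cv K F) {P R : Place K F} (hP : P ≠ C.oo) (hR : R ≠ C.oo) (s : ℕ) :
    (hpol C P R).eval (s : K) = S27.val P (xs C s) - S27.val R (xs C s) := by
  unfold hpol
  rw [Polynomial.eval_finsetSum, val_xs C s hP, val_xs C s hR, ← Finset.sum_sub_distrib]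
  refine Finset.sum_congr rfl fun k _ => ?_
  rw [Polynomial.eval_monomial]
  ring

theorem natDegree_hpol (C : Cv K F) (P R : Place K F) : (hpol C P R).natDegree ≤ C.r - 1 := by
  unfold hpol
  refine Polynomial.natDegree_sum_le_of_forall_le _ _ fun k _ => ?_
  refine le_trans (Polynomial.natDegree_monomial_le _) ?_
  have := k.2
  omega

theorem hpol_ne_zero (C : Cv K F) {P R : Place K F} (hP : P ≠ C.oo) (hR : R ≠ C.oo)
    (h : P ≠ R) : hpol C P R ≠ 0 := by
  intro h0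
  obtain ⟨a, b, hab⟩ := C.exists_pl_ne_zero hP hR h
  have hc : ∀ k : Fin C.r, S27.val P (C.e k) = S27.val R (C.e k) := by
    intro k
    have h1 := congrArg (fun q => Polynomial.coeff q (k : ℕ)) h0
    simp only [hpol, Polynomial.finsetSum_coeff, Polynomial.coeff_monomial,
      Polynomial.coeff_zero] at h1
    rw [Finset.sum_eq_single k] at h1
    · simpa [sub_eq_zero] using h1
    · intro j _ hj
      rw [if_neg]
      intro hjk
      exact hj (Fin.ext hjk)
    · intro hk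
      exact absurd (Finset.mem_univ k) hk
  apply hab
  unfold Cv.pl
  rw [hc a, hc b]
  ring

/-- there is a good `s`. -/
theorem exists_good (C : Cv K F) {m : ℕ} {f : F} (hf : f ∈ V C.oo m) (hf0 : f ≠ 0)
    {R : Place K F} (hR : R ≠ C.oo) (hfR : S27.val R f ≠ 0) :
    ∃ s : Fin (m * (C.r - 1) + 1), ∀ P : Place K F, P ≠ C.oo → 0 < P.ord f →
      S27.val P (xs C s) ≠ S27.val R (xs C s) := by
  classical
  have hfReg : f ∈ Reg C.oo := (mem_V_iff.1 hf).1
  set S : Finset (Place K F) := ((RR.divOf K f).support.erase C.oo).filter (fun P => 0 < P.ord f)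
    with hS
  have hmemS : ∀ P : Place K F, P ≠ C.oo → 0 < P.ord f → P ∈ S := by
    intro P hP hpos
    rw [hS, Finset.mem_filter, Finset.mem_erase, Finsupp.mem_support_iff, RR.divOf_apply]
    exact ⟨⟨hP, hpos.ne'⟩, hpos⟩
  have hSoo : ∀ P ∈ S, P ≠ C.oo ∧ 0 < P.ord f := by
    intro P hP
    rw [hS, Finset.mem_filter, Finset.mem_erase] at hP
    exact ⟨hP.1.1, hP.2⟩
  have hcard : S.card ≤ m := by
    refine le_trans ?_ (dg_le_of_mem_V hf hf0)
    have h1 := sum_ord_eq_dg hfReg hf0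
    calc S.card = ∑ _P ∈ S, 1 := by simp
      _ ≤ ∑ P ∈ S, (P.ord f).toNat := by
          refine Finset.sum_le_sum fun P hP => ?_
          have := (hSoo P hP).2
          omega
      _ ≤ ∑ P ∈ (RR.divOf K f).support.erase C.oo, (P.ord f).toNat :=
          Finset.sum_le_sum_of_subset (Finset.filter_subset _ _)
      _ = dg C.oo f := by convert h1
  set H : Polynomial K := ∏ P ∈ S, hpol C P R with hH
  have hH0 : H ≠ 0 := by
    rw [hH, Finset.prod_ne_zero_iff]
    intro P hP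
    refine hpol_ne_zero C (hSoo P hP).1 hR ?_
    rintro rfl
    exact hfR ((val_eq_zero_iff_ord hfReg hf0 hR).2 (hSoo P hP).2)
  have hHdeg : H.natDegree ≤ m * (C.r - 1) := by
    calc H.natDegree ≤ ∑ P ∈ S, (hpol C P R).natDegree := Polynomial.natDegree_prod_le _ _
      _ ≤ ∑ _P ∈ S, (C.r - 1) := Finset.sum_le_sum fun P _ => natDegree_hpol C P R
      _ = S.card * (C.r - 1) := by simp
      _ ≤ m * (C.r - 1) := Nat.mul_le_mul_right _ hcard
  by_contra hcon
  push Not at hcon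
  apply hH0
  refine Polynomial.eq_zero_of_natDegree_lt_card_of_eval_eq_zero' H
    ((Finset.range (m * (C.r - 1) + 1)).image (fun s : ℕ => (s : K))) ?_ ?_
  · intro y hy
    obtain ⟨s, hs, rfl⟩ := Finset.mem_image.1 hy
    obtain ⟨P, hP, hpos, heq⟩ := hcon ⟨s, Finset.mem_range.1 hs⟩
    rw [hH, Polynomial.eval_prod]
    refine Finset.prod_eq_zero (hmemS P hP hpos) ?_
    rw [eval_hpol C hP hR, sub_eq_zero]
    exact heq
  · rw [Finset.card_image_of_injective _ Nat.cast_injective, Finset.card_range]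
    omega

/-- the estimate for the `s`-th function. -/
theorem fibre_s (C : Cv K F) (m s : ℕ) :
    ∃ γ : MC K, ∀ (v : AbsoluteValue K ℝ) (f : F), f ∈ V C.oo m →
      ∀ R : Place K F, R ≠ C.oo → S27.val R f ≠ 0 → (∃ P : Place K F, P ≠ C.oo ∧ 0 < P.ord f) →
      (∀ P : Place K F, P ≠ C.oo → 0 < P.ord f → S27.val P (xs C s) ≠ S27.val R (xs C s)) →
        v (S27.val R f) ^ C.n ≤
          γ.val v * (v (C.lc f) ^ C.n * zprod C.oo f (fun P => C.dn v P R)) := by
  by_cases h : 0 < dg C.oo (xs C s)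
  · have hx0 : xs C s ≠ 0 := by
      intro h0
      rw [h0] at h
      simp [dg] at h
    obtain ⟨γ, hγ⟩ := fibre C m (xs_mem C s) h (ord_eq_neg_dg (xs_mem C s) hx0)
    exact ⟨γ, fun v f hf R hR hfR _ hsep => hγ v f hf R hR hfR hsep⟩
  · refine ⟨⟨[], 0, 0⟩, fun v f _ R hR _ hex hsep => ?_⟩
    exfalso
    obtain ⟨P, hP, hpos⟩ := hex
    obtain ⟨c, hc⟩ := exists_const_of_dg_eq_zero (xs_mem C s) (by omega)
    apply hsep P hP hpos
    rw [hc, S27.val_algebraMap, S27.val_algebraMap]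

end K2Aux

open K2Aux LAux in
theorem Cv.K2 (C : Cv K F) (m : ℕ) :
    ∃ γ : MC K, ∀ (v : AbsoluteValue K ℝ) (f : F), f ∈ V C.oo m →
      ∀ R : Place K F, R ≠ C.oo → S27.val R f ≠ 0 →
        v (S27.val R f) ^ C.n ≤ γ.val v * (v (C.lc f) ^ C.n * zprod C.oo f (fun P => C.dn v P R)) := by
  classical
  choose γs hγs using fun s : Fin (m * (C.r - 1) + 1) => fibre_s C m s
  obtain ⟨γ, hγ⟩ := MC.exists_sup γs
  refine ⟨γ, fun v f hf R hR hfR => ?_⟩
  have hf0 : f ≠ 0 := by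
    rintro rfl
    apply hfR
    simpa using S27.val_algebraMap R (0 : K)
  have hfReg : f ∈ Reg C.oo := (mem_V_iff.1 hf).1
  by_cases hex : ∃ P : Place K F, P ≠ C.oo ∧ 0 < P.ord f
  · obtain ⟨s, hs⟩ := exists_good C hf hf0 hR hfR
    refine le_trans (hγs s v f hf R hR hfR hex hs) ?_
    refine mul_le_mul_of_nonneg_right (hγ s v) ?_
    exact mul_nonneg (pow_nonneg (v.nonneg _) _) (zprod_nonneg fun P _ _ => C.dn_nonneg v P R)
  · push Not at hex
    have hdg : dg C.oo f = 0 := by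
      rw [← sum_ord_eq_dg hfReg hf0]
      refine Finset.sum_eq_zero fun P hP => ?_
      have := hex P (Finset.ne_of_mem_erase hP)
      omega
    obtain ⟨c, rfl⟩ := exists_const_of_dg_eq_zero hfReg hdg
    rw [S27.val_algebraMap, C.lc_const, zprod_const, mul_one]
    exact le_mul_of_one_le_left (pow_nonneg (v.nonneg _) _) (MC.one_le_val γ v)

end Fermat.Agent.S17.El
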