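import Fermat.Agent.S17.El.K1

/-!
# S17/El: (L) the easy half of the product formula for `f(R)`   (WP EL-L)

`v(lc f) ∏_{P ∈ Z(f)} d_v(P,R) ≤ γ v(f(R))`   (in `n`-th powers), `f ∈ L(m·oo)`.

PROOF.  If `f(R) = 0` then `R ∈ Z(f)` and `dn v R R = 0`: the left side is `0`.  Otherwise let `P_1..P_{m'}` (`m' = dg f ≤ m`,
`exists_zeros`) be the zeros, choose `(a_i,b_i)` with `v(pl P_i R a_i b_i) = D v P_i R` (`> 0`), `y_i = yy P_i a_i b_i ≠ 0`.
`∏ y_i` vanishes on `Z(f)`, so `u := ∏ y_i / f ∈ A`, `u ∈ L(m'(κ-1)·oo)` (orders at every place).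
`∏ D(P_i,R)^n = v(∏ y_i(R))^n = v(f(R))^n v(u(R))^n ≤ v(f(R))^n γ mun(u) X(R)^(m'(κ-1))` (`eval_le`),
`mun u = ∏ mun y_i / mun f` (`mun_mul`), `mun y_i ≤ γ max(v e_a(P_i))^n ≤ γ' X(P_i)^κ` (`K1a` for the family `e`, `size_le`),
`mun f = v(lc f)^n ∏ X(P_i)`.  Divide by `∏ (X(P_i) X(R))^(κ-1)`.  (Constants: take the sup over `m' ≤ m`.)
-/

set_option autoImplicit false
set_option linter.unusedSectionVars false

open AlgebraicCurve

namespace Fermat.Agent.S17.El

variable {K F : Type*} [Field K] [Field F] [Algebra K F] [IsAlgClosed K] [CharZero K]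
  [S27.IsFF K F]

namespace LAux

section gen

variable {M M' : Type*} [CommMonoid M] [CommMonoid M']

theorem zprod_map (oo : Place K F) (f : F) (g : M →* M') (φ : Place K F → M) :
    g (zprod oo f φ) = zprod oo f (fun P => g (φ P)) := by
  unfold zprod
  rw [map_prod]
  simp only [map_pow]

theorem zprod_congr {oo : Place K F} {f : F} {φ ψ : Place K F → M}
    (h : ∀ P : Place K F, P ≠ oo → 0 < P.ord f → φ P = ψ P) : zprod oo f φ = zprod oo f ψ := by
  classical
  unfold zprod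
  refine Finset.prod_congr rfl fun P hP => ?_
  by_cases h0 : 0 < P.ord f
  · rw [h P (Finset.ne_of_mem_erase hP) h0]
  · rw [Int.toNat_of_nonpos (not_lt.mp h0), pow_zero, pow_zero]

theorem zprod_pow (oo : Place K F) (f : F) (φ : Place K F → M) (k : ℕ) :
    zprod oo f (fun P => φ P ^ k) = zprod oo f φ ^ k := by
  unfold zprod
  rw [← Finset.prod_pow]
  refine Finset.prod_congr rfl fun P _ => ?_
  rw [← pow_mul, ← pow_mul, mul_comm]

theorem zprod_mul_fun (oo : Place K F) (f : F) (φ ψ : Place K F → M) :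
    zprod oo f (fun P => φ P * ψ P) = zprod oo f φ * zprod oo f ψ := by
  unfold zprod
  rw [← Finset.prod_mul_distrib]
  refine Finset.prod_congr rfl fun P _ => ?_
  rw [mul_pow]

theorem zprod_const_fun {oo : Place K F} {f : F} (hf : f ∈ Reg oo) (h0 : f ≠ 0) (a : M) :
    zprod oo f (fun _ => a) = a ^ dg oo f := by
  classical
  unfold zprod
  rw [Finset.prod_pow_eq_pow_sum]
  congr 1
  convert sum_ord_eq_dg hf h0

theorem zprod_const_mul {oo : Place K F} {f : F} (hf : f ∈ Reg oo) (h0 : f ≠ 0) (a : M)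
    (φ : Place K F → M) :
    zprod oo f (fun P => a * φ P) = a ^ dg oo f * zprod oo f φ := by
  rw [zprod_mul_fun, zprod_const_fun hf h0]

theorem zprod_comm (oo : Place K F) (f g : F) (φ : Place K F → Place K F → M) :
    zprod oo f (fun P => zprod oo g (fun R => φ P R)) =
      zprod oo g (fun R => zprod oo f (fun P => φ P R)) := by
  unfold zprod
  simp only [← Finset.prod_pow, ← pow_mul]
  rw [Finset.prod_comm]
  refine Finset.prod_congr rfl fun R _ => Finset.prod_congr rfl fun P _ => ?_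
  rw [mul_comm]

end gen

section real

theorem zprod_nonneg {oo : Place K F} {f : F} {φ : Place K F → ℝ}
    (h : ∀ P : Place K F, P ≠ oo → 0 < P.ord f → 0 ≤ φ P) : 0 ≤ zprod oo f φ := by
  classical
  unfold zprod
  refine Finset.prod_nonneg fun P hP => ?_
  by_cases h0 : 0 < P.ord f
  · exact pow_nonneg (h P (Finset.ne_of_mem_erase hP) h0) _
  · rw [Int.toNat_of_nonpos (not_lt.mp h0), pow_zero]
    exact zero_le_one

theorem zprod_pos {oo : Place K F} {f : F} {φ : Place K F → ℝ}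
    (h : ∀ P : Place K F, P ≠ oo → 0 < P.ord f → 0 < φ P) : 0 < zprod oo f φ := by
  classical
  unfold zprod
  refine Finset.prod_pos fun P hP => ?_
  by_cases h0 : 0 < P.ord f
  · exact pow_pos (h P (Finset.ne_of_mem_erase hP) h0) _
  · rw [Int.toNat_of_nonpos (not_lt.mp h0), pow_zero]
    exact zero_lt_one

theorem zprod_le {oo : Place K F} {f : F} {φ ψ : Place K F → ℝ}
    (h0 : ∀ P : Place K F, P ≠ oo → 0 < P.ord f → 0 ≤ φ P)
    (h : ∀ P : Place K F, P ≠ oo → 0 < P.ord f → φ P ≤ ψ P) : zprod oo f φ ≤ zprod oo f ψ := by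
  classical
  unfold zprod
  refine Finset.prod_le_prod (fun P hP => ?_) fun P hP => ?_
  · by_cases hp : 0 < P.ord f
    · exact pow_nonneg (h0 P (Finset.ne_of_mem_erase hP) hp) _
    · rw [Int.toNat_of_nonpos (not_lt.mp hp), pow_zero]
      exact zero_le_one
  · by_cases hp : 0 < P.ord f
    · exact pow_le_pow_left₀ (h0 P (Finset.ne_of_mem_erase hP) hp)
        (h P (Finset.ne_of_mem_erase hP) hp) _
    · rw [Int.toNat_of_nonpos (not_lt.mp hp), pow_zero, pow_zero]

theorem zprodE_pos {oo : Place K F} {f : F} {Q : Place K F} {φ : Place K F → ℝ}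
    (h : ∀ P : Place K F, P ≠ oo → P ≠ Q → 0 < P.ord f → 0 < φ P) : 0 < zprodE oo f Q φ := by
  classical
  unfold zprodE
  refine Finset.prod_pos fun P hP => ?_
  by_cases h0 : 0 < P.ord f
  · exact pow_pos (h P (Finset.ne_of_mem_erase (Finset.mem_of_mem_erase hP))
      (Finset.ne_of_mem_erase hP) h0) _
  · rw [Int.toNat_of_nonpos (not_lt.mp h0), pow_zero]
    exact zero_lt_one

theorem zprodE_nonneg {oo : Place K F} {f : F} {Q : Place K F} {φ : Place K F → ℝ}
    (h : ∀ P : Place K F, P ≠ oo → P ≠ Q → 0 < P.ord f → 0 ≤ φ P) : 0 ≤ zprodE oo f Q φ := by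
  classical
  unfold zprodE
  refine Finset.prod_nonneg fun P hP => ?_
  by_cases h0 : 0 < P.ord f
  · exact pow_nonneg (h P (Finset.ne_of_mem_erase (Finset.mem_of_mem_erase hP))
      (Finset.ne_of_mem_erase hP) h0) _
  · rw [Int.toNat_of_nonpos (not_lt.mp h0), pow_zero]
    exact zero_le_one

/-- termwise bound `φ ≤ a ψ`, `a ≥ 1`, for the product over the zeros other than `Q`. -/
theorem zprodE_le_mul {oo : Place K F} {f : F} (hf : f ∈ Reg oo) (hf0 : f ≠ 0) {Q : Place K F}
    {φ ψ : Place K F → ℝ} {a : ℝ} (ha : 1 ≤ a)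
    (h0 : ∀ P : Place K F, P ≠ oo → P ≠ Q → 0 < P.ord f → 0 ≤ φ P)
    (h : ∀ P : Place K F, P ≠ oo → P ≠ Q → 0 < P.ord f → φ P ≤ a * ψ P) :
    zprodE oo f Q φ ≤ a ^ dg oo f * zprodE oo f Q ψ := by
  classical
  have hψ : ∀ P : Place K F, P ≠ oo → P ≠ Q → 0 < P.ord f → 0 ≤ ψ P := by
    intro P h1 h2 h3
    have := le_trans (h0 P h1 h2 h3) (h P h1 h2 h3)
    by_contra hneg
    push Not at hneg
    nlinarith
  have hE := zprodE_nonneg (oo := oo) (f := f) (Q := Q) hψ
  have h1 : zprodE oo f Q φ ≤ zprodE oo f Q (fun P => a * ψ P) := by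
    unfold zprodE
    refine Finset.prod_le_prod (fun P hP => ?_) fun P hP => ?_
    · by_cases hp : 0 < P.ord f
      · exact pow_nonneg (h0 P (Finset.ne_of_mem_erase (Finset.mem_of_mem_erase hP))
          (Finset.ne_of_mem_erase hP) hp) _
      · rw [Int.toNat_of_nonpos (not_lt.mp hp), pow_zero]
        exact zero_le_one
    · by_cases hp : 0 < P.ord f
      · exact pow_le_pow_left₀ (h0 P (Finset.ne_of_mem_erase (Finset.mem_of_mem_erase hP))
          (Finset.ne_of_mem_erase hP) hp) (h P (Finset.ne_of_mem_erase (Finset.mem_of_mem_erase hP))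
          (Finset.ne_of_mem_erase hP) hp) _
      · rw [Int.toNat_of_nonpos (not_lt.mp hp), pow_zero, pow_zero]
  refine le_trans h1 ?_
  have h2 : zprodE oo f Q (fun P => a * ψ P) =
      a ^ (∑ P ∈ ((RR.divOf K f).support.erase oo).erase Q, (P.ord f).toNat) *
        zprodE oo f Q ψ := by
    unfold zprodE
    rw [← Finset.prod_pow_eq_pow_sum, ← Finset.prod_mul_distrib]
    refine Finset.prod_congr rfl fun P _ => ?_
    rw [mul_pow]
  rw [h2]
  refine mul_le_mul_of_nonneg_right (pow_le_pow_right₀ ha ?_) hE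
  have h3 := sum_ord_eq_dg hf hf0
  calc ∑ P ∈ ((RR.divOf K f).support.erase oo).erase Q, (P.ord f).toNat
      ≤ ∑ P ∈ (RR.divOf K f).support.erase oo, (P.ord f).toNat :=
        Finset.sum_le_sum_of_subset (Finset.erase_subset _ _)
    _ = dg oo f := by convert h3

end real

section vals

/-- regular at the affine places. -/
theorem adic_le_one {oo : Place K F} {f : F} (hf : f ∈ Reg oo) {P : Place K F} (hP : P ≠ oo) :
    P.adicValuation f ≤ 1 := (S27.adic_le_one_iff_mem P).2 (hf P hP)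

theorem val_smul {oo : Place K F} {f : F} (hf : f ∈ Reg oo) {P : Place K F} (hP : P ≠ oo)
    (c : K) : S27.val P (c • f) = c * S27.val P f := by
  rw [Algebra.smul_def, S27.val_mul P (P.adicValuation_algebraMap_le_one c) (adic_le_one hf hP),
    S27.val_algebraMap]

theorem val_sum {oo : Place K F} {ι : Type*} (s : Finset ι) (u : ι → F)
    (hu : ∀ i ∈ s, u i ∈ Reg oo) {P : Place K F} (hP : P ≠ oo) :
    S27.val P (∑ i ∈ s, u i) = ∑ i ∈ s, S27.val P (u i) := by
  classical
  induction s using Finset.induction_on with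
  | empty =>
    have := S27.val_algebraMap P (0 : K)
    simpa using this
  | insert a s ha ih =>
    rw [Finset.sum_insert ha, Finset.sum_insert ha,
      S27.val_add P (adic_le_one (hu a (Finset.mem_insert_self a s)) hP)
        (adic_le_one (Subalgebra.sum_mem _ fun i hi => hu i (Finset.mem_insert_of_mem hi)) hP),
      ih fun i hi => hu i (Finset.mem_insert_of_mem hi)]

theorem val_prod {oo : Place K F} {ι : Type*} (s : Finset ι) (u : ι → F)
    (hu : ∀ i ∈ s, u i ∈ Reg oo) {P : Place K F} (hP : P ≠ oo) :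
    S27.val P (∏ i ∈ s, u i) = ∏ i ∈ s, S27.val P (u i) := by
  classical
  induction s using Finset.induction_on with
  | empty => simpa using S27.val_one P
  | insert a s ha ih =>
    rw [Finset.prod_insert ha, Finset.prod_insert ha,
      S27.val_mul P (adic_le_one (hu a (Finset.mem_insert_self a s)) hP)
        (adic_le_one (Subalgebra.prod_mem _ fun i hi => hu i (Finset.mem_insert_of_mem hi)) hP),
      ih fun i hi => hu i (Finset.mem_insert_of_mem hi)]

theorem val_eq_zero_iff_ord {oo : Place K F} {f : F} (hf : f ∈ Reg oo) (h0 : f ≠ 0)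
    {P : Place K F} (hP : P ≠ oo) : S27.val P f = 0 ↔ 0 < P.ord f := by
  rw [S27.val_eq_zero_iff P (adic_le_one hf hP), S27.adic_lt_one_iff_ord]
  simp [h0]

end vals

end LAux

namespace LAux

theorem ord_prod (P : Place K F) {ι : Type*} (s : Finset ι) (y : ι → F)
    (h : ∀ i ∈ s, y i ≠ 0) : P.ord (∏ i ∈ s, y i) = ∑ i ∈ s, P.ord (y i) := by
  classical
  induction s using Finset.induction_on with
  | empty => simp
  | insert a s ha ih =>
    rw [Finset.prod_insert ha, Finset.sum_insert ha,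
      P.ord_mul (h a (Finset.mem_insert_self a s))
        (Finset.prod_ne_zero_iff.2 fun i hi => h i (Finset.mem_insert_of_mem hi)),
      ih fun i hi => h i (Finset.mem_insert_of_mem hi)]

theorem mun_prod (C : Cv K F) (v : AbsoluteValue K ℝ) {ι : Type*} (s : Finset ι) (y : ι → F)
    (hy : ∀ i ∈ s, y i ∈ Reg C.oo) (h : ∀ i ∈ s, y i ≠ 0) :
    C.mun v (∏ i ∈ s, y i) = ∏ i ∈ s, C.mun v (y i) := by
  classical
  induction s using Finset.induction_on with
  | empty =>
    have h1 : (1 : F) = algebraMap K F 1 := (map_one _).symm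
    simp only [Finset.prod_empty]
    unfold Cv.mun
    rw [h1, C.lc_const, zprod_const]
    simp
  | insert a s ha ih =>
    rw [Finset.prod_insert ha, Finset.prod_insert ha,
      C.mun_mul v (hy a (Finset.mem_insert_self a s))
        (Subalgebra.prod_mem _ fun i hi => hy i (Finset.mem_insert_of_mem hi))
        (h a (Finset.mem_insert_self a s))
        (Finset.prod_ne_zero_iff.2 fun i hi => h i (Finset.mem_insert_of_mem hi)),
      ih (fun i hi => hy i (Finset.mem_insert_of_mem hi))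
        fun i hi => h i (Finset.mem_insert_of_mem hi)]

theorem e_reg (C : Cv K F) (k : Fin C.r) : C.e k ∈ Reg C.oo := (mem_V_iff.1 (C.e_mem k)).1

/-- `μ(y^P_{ab})^n ≤ γ |P|^{κ n}`. -/
theorem mun_yy_le (C : Cv K F) :
    ∃ γ : MC K, ∀ (v : AbsoluteValue K ℝ) (P : Place K F), P ≠ C.oo → ∀ a b : Fin C.r,
      C.mun v (C.yy P a b) ≤ γ.val v * C.X v P ^ C.κ := by
  classical
  obtain ⟨γA, hA⟩ := C.K1a C.e (e_reg C)
  choose γs hγs using fun k : Fin C.r => C.size_le C.κ (C.e_mem k)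
  obtain ⟨γS, hS⟩ := MC.exists_sup γs
  refine ⟨γA.mul γS, fun v P hP a b => ?_⟩
  set c : Fin C.r → K := fun k =>
    (if k = b then S27.val P (C.e a) else 0) - (if k = a then S27.val P (C.e b) else 0) with hc
  have hyy : C.yy P a b = ∑ k, c k • C.e k := by
    unfold Cv.yy
    simp only [hc, sub_smul, Finset.sum_sub_distrib, ite_smul, zero_smul,
      Finset.sum_ite_eq', Finset.mem_univ, if_true]
  have hX0 : 0 ≤ C.X v P ^ C.κ := pow_nonneg (C.X_pos v P).le _
  have hk : ∀ k : Fin C.r, v (S27.val P (C.e k)) ^ C.n ≤ γS.val v * C.X v P ^ C.κ := fun k =>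
    le_trans (hγs k v P hP) (mul_le_mul_of_nonneg_right (hS k v) hX0)
  have hB0 : 0 ≤ γS.val v * C.X v P ^ C.κ := mul_nonneg (MC.val_pos _ v).le hX0
  have hck : ∀ k : Fin C.r, v (c k) ^ C.n ≤ γS.val v * C.X v P ^ C.κ := by
    intro k
    by_cases hkb : k = b
    · by_cases hka : k = a
      · have : c k = 0 := by
          simp only [hc]
          rw [if_pos hkb, if_pos hka, ← hka, ← hkb, sub_self]
        rw [this, map_zero, zero_pow C.hn.ne']
        exact hB0
      · have : c k = S27.val P (C.e a) := by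
          simp only [hc]
          rw [if_pos hkb, if_neg hka, sub_zero]
        rw [this]
        exact hk a
    · by_cases hka : k = a
      · have : c k = - S27.val P (C.e b) := by
          simp only [hc]
          rw [if_neg hkb, if_pos hka, zero_sub]
        rw [this, v.map_neg]
        exact hk b
      · have : c k = 0 := by
          simp only [hc]
          rw [if_neg hkb, if_neg hka, sub_zero]
        rw [this, map_zero, zero_pow C.hn.ne']
        exact hB0
  have hnrm : nrm v c ^ C.n ≤ γS.val v * C.X v P ^ C.κ := by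
    have : Nonempty (Fin C.r) := ⟨a⟩
    obtain ⟨k, hk'⟩ := exists_eq_nrm v c
    rw [hk']
    exact hck k
  rw [hyy]
  calc C.mun v (∑ k, c k • C.e k) ≤ γA.val v * nrm v c ^ C.n := hA v c
    _ ≤ γA.val v * (γS.val v * C.X v P ^ C.κ) :=
        mul_le_mul_of_nonneg_left hnrm (MC.val_pos _ v).le
    _ = (γA.val v * γS.val v) * C.X v P ^ C.κ := by ring
    _ ≤ _ := mul_le_mul_of_nonneg_right (MC.val_mul_le _ _ v) hX0

/-- the quotient `∏ y_i / f` is regular, of degree `≤ m'(κ-1)`. -/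
theorem quot_mem (C : Cv K F) {f : F} (hf : f ∈ Reg C.oo) (hf0 : f ≠ 0) {m' : ℕ}
    (hdg : dg C.oo f = m') (Z : Fin m' → Place K F)
    (hcard : ∀ P : Place K F, P ≠ C.oo → (P.ord f).toNat = Nat.card {i // Z i = P})
    (y : Fin m' → F) (hy : ∀ i, y i ∈ V C.oo C.κ) (hy0 : ∀ i, y i ≠ 0)
    (hyZ : ∀ i, 0 < (Z i).ord (y i)) :
    (∏ i, y i) / f ∈ V C.oo (m' * (C.κ - 1)) := by
  classical
  have hY0 : (∏ i, y i) ≠ 0 := Finset.prod_ne_zero_iff.2 fun i _ => hy0 i
  have hu0 : (∏ i, y i) / f ≠ 0 := div_ne_zero hY0 hf0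
  have hyR : ∀ i, y i ∈ Reg C.oo := fun i => (mem_V_iff.1 (hy i)).1
  have hord : ∀ P : Place K F, P.ord ((∏ i, y i) / f) = ∑ i, P.ord (y i) - P.ord f := by
    intro P
    rw [div_eq_mul_inv, P.ord_mul hY0 (inv_ne_zero hf0), P.ord_inv,
      ord_prod P Finset.univ y fun i _ => hy0 i]
    ring
  rw [mem_V_iff]
  refine ⟨fun P hP => ?_, Or.inr ?_⟩
  · rw [mem_place_iff_zp]
    right
    rw [hord P]
    have h1 : P.ord f = (Nat.card {i // Z i = P} : ℤ) := by
      rw [← hcard P hP, Int.toNat_of_nonneg (ord_nonneg_of_mem_Reg hf hP)]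
    have h2 : (Nat.card {i // Z i = P} : ℤ) = ∑ i, (if Z i = P then (1 : ℤ) else 0) := by
      rw [Nat.card_eq_fintype_card, Fintype.card_subtype, Finset.sum_boole]
    have h3 : ∑ i, (if Z i = P then (1 : ℤ) else 0) ≤ ∑ i, P.ord (y i) := by
      refine Finset.sum_le_sum fun i _ => ?_
      split_ifs with h
      · have := hyZ i
        rw [h] at this
        omega
      · exact ord_nonneg_of_mem_Reg (hyR i) hP
    omega
  · rw [hord C.oo, ord_eq_neg_dg hf hf0, hdg]
    have h1 : ∑ _i : Fin m', (-(C.κ : ℤ)) ≤ ∑ i, C.oo.ord (y i) := by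
      refine Finset.sum_le_sum fun i _ => ?_
      rcases (mem_V_iff.1 (hy i)).2 with h | h
      · exact absurd h (hy0 i)
      · exact h
    rw [Finset.sum_const, Finset.card_univ, Fintype.card_fin, nsmul_eq_mul] at h1
    have hκ : 1 ≤ C.κ := by
      have := C.hκ
      omega
    push_cast [Nat.cast_sub hκ]
    nlinarith

/-- (L) for functions of exact degree `m'` not vanishing at `R`. -/
theorem L_fix (C : Cv K F) (m' : ℕ) :
    ∃ γ : MC K, ∀ (v : AbsoluteValue K ℝ) (f : F), f ∈ Reg C.oo → f ≠ 0 → dg C.oo f = m' →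
      ∀ R : Place K F, R ≠ C.oo → S27.val R f ≠ 0 →
        v (C.lc f) ^ C.n * zprod C.oo f (fun P => C.dn v P R) ≤ γ.val v * v (S27.val R f) ^ C.n := by
  classical
  obtain ⟨γE, hE⟩ := C.eval_le (m' * (C.κ - 1))
  obtain ⟨γ1, h1⟩ := mun_yy_le C
  refine ⟨γE.mul (γ1.pow m'), fun v f hf hf0 hdg R hR hfR => ?_⟩
  subst hdg
  obtain ⟨Z, hZoo, hcard⟩ := exists_zeros hf hf0
  have hκ : 1 ≤ C.κ := by
    have := C.hκ
    omega
  -- the zeros are different from `R`
  have hZpos : ∀ i, 0 < (Z i).ord f := by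
    intro i
    have h2 := hcard (Z i) (hZoo i)
    have h3 : 0 < Nat.card {j // Z j = Z i} := Nat.card_pos_iff.2 ⟨⟨⟨i, rfl⟩⟩, inferInstance⟩
    omega
  have hZR : ∀ i, Z i ≠ R := by
    intro i h
    apply hfR
    rw [← h]
    exact (val_eq_zero_iff_ord hf hf0 (hZoo i)).2 (hZpos i)
  have hch : ∀ i, ∃ ab : Fin C.r × Fin C.r, v (C.pl (Z i) R ab.1 ab.2) = C.D v (Z i) R := by
    intro i
    obtain ⟨a, b, _⟩ := C.exists_pl_ne_zero (hZoo i) hR (hZR i)
    have : Nonempty (Fin C.r × Fin C.r) := ⟨(a, b)⟩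
    exact exists_eq_ciSup_of_finite (f := fun ab : Fin C.r × Fin C.r => v (C.pl (Z i) R ab.1 ab.2))
  choose ab hab using hch
  set y : Fin (dg C.oo f) → F := fun i => C.yy (Z i) (ab i).1 (ab i).2 with hy
  have hyV : ∀ i, y i ∈ V C.oo C.κ := fun i => C.yy_mem _ _ _
  have hyR : ∀ i, y i ∈ Reg C.oo := fun i => (mem_V_iff.1 (hyV i)).1
  have hyval : ∀ i, v (S27.val R (y i)) = C.D v (Z i) R := by
    intro i
    rw [hy]
    simp only
    rw [C.val_yy hR, hab i]
  have hy0 : ∀ i, y i ≠ 0 := by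
    intro i h
    have h2 := hyval i
    rw [h] at h2
    have h3 : S27.val R (0 : F) = 0 := by simpa using S27.val_algebraMap R (0 : K)
    rw [h3, map_zero] at h2
    exact (C.D_pos v (hZoo i) hR (hZR i)).ne h2
  have hyZ : ∀ i, 0 < (Z i).ord (y i) := by
    intro i
    rw [← val_eq_zero_iff_ord (hyR i) (hy0 i) (hZoo i), hy]
    simp only
    rw [C.val_yy (hZoo i), C.pl_self]
  set Y : F := ∏ i, y i with hY
  set u : F := Y / f with hu
  have huV : u ∈ V C.oo (dg C.oo f * (C.κ - 1)) :=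
    quot_mem C hf hf0 rfl Z hcard y hyV hy0 hyZ
  have huR : u ∈ Reg C.oo := (mem_V_iff.1 huV).1
  have hY0 : Y ≠ 0 := Finset.prod_ne_zero_iff.2 fun i _ => hy0 i
  have hu0 : u ≠ 0 := div_ne_zero hY0 hf0
  have hYfu : Y = f * u := by
    rw [hu]
    field_simp
  set A : ℝ := v (C.lc f) ^ C.n with hA
  set b : ℝ := v (S27.val R f) ^ C.n with hb
  set Xp : ℝ := ∏ i, C.X v (Z i) with hXp
  set XR : ℝ := C.X v R ^ (dg C.oo f * (C.κ - 1)) with hXR
  set Dp : ℝ := ∏ i, C.D v (Z i) R with hDp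
  have hA0 : 0 ≤ A := pow_nonneg (v.nonneg _) _
  have hb0 : 0 ≤ b := pow_nonneg (v.nonneg _) _
  have hXp0 : 0 < Xp := Finset.prod_pos fun i _ => C.X_pos v (Z i)
  have hXR0 : 0 < XR := pow_pos (C.X_pos v R) _
  -- values at `R`
  have hv1 : Dp ^ C.n = b * v (S27.val R u) ^ C.n := by
    have h2 : S27.val R Y = ∏ i, S27.val R (y i) := val_prod Finset.univ y (fun i _ => hyR i) hR
    have h3 : S27.val R Y = S27.val R f * S27.val R u := by
      rw [hYfu, S27.val_mul R (LAux.adic_le_one hf hR) (LAux.adic_le_one huR hR)]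
    have h4 : v (S27.val R Y) = Dp := by
      rw [h2, map_prod]
      exact Finset.prod_congr rfl fun i _ => hyval i
    rw [← h4, h3, map_mul, mul_pow]
  have hv2 : v (S27.val R u) ^ C.n ≤ γE.val v * (C.mun v u * XR) := hE v u huV R hR
  -- Mahler measures
  have hm1 : C.mun v Y = C.mun v f * C.mun v u := by rw [hYfu, C.mun_mul v hf huR hf0 hu0]
  have hm2 : C.mun v Y ≤ γ1.val v ^ dg C.oo f * Xp ^ C.κ := by
    rw [hY, mun_prod C v Finset.univ y (fun i _ => hyR i) fun i _ => hy0 i]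
    calc ∏ i, C.mun v (y i) ≤ ∏ i, (γ1.val v * C.X v (Z i) ^ C.κ) :=
          Finset.prod_le_prod (fun i _ => C.mun_nonneg v _) fun i _ => h1 v (Z i) (hZoo i) _ _
      _ = _ := by
          rw [Finset.prod_mul_distrib, Finset.prod_const, Finset.card_univ, Fintype.card_fin,
            Finset.prod_pow]
  have hm3 : C.mun v f = A * Xp := by
    unfold Cv.mun
    rw [zprod_eq_prod hf hf0 Z hZoo hcard]
  have hm4 : A * C.mun v u ≤ γ1.val v ^ dg C.oo f * Xp ^ (C.κ - 1) := by
    have h2 : (A * C.mun v u) * Xp ≤ (γ1.val v ^ dg C.oo f * Xp ^ (C.κ - 1)) * Xp := by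
      calc (A * C.mun v u) * Xp = C.mun v Y := by rw [hm1, hm3]; ring
        _ ≤ γ1.val v ^ dg C.oo f * Xp ^ C.κ := hm2
        _ = _ := by
            rw [mul_assoc, ← pow_succ, Nat.sub_add_cancel hκ]
    exact le_of_mul_le_mul_right h2 hXp0
  -- the product of the distances
  have hz : zprod C.oo f (fun P => C.dn v P R) = Dp ^ C.n / (Xp ^ (C.κ - 1) * XR) := by
    rw [zprod_eq_prod hf hf0 Z hZoo hcard]
    unfold Cv.dn
    rw [Finset.prod_div_distrib, Finset.prod_pow, Finset.prod_pow, Finset.prod_mul_distrib,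
      Finset.prod_const, Finset.card_univ, Fintype.card_fin, mul_pow, ← pow_mul]
  rw [hz, ← mul_div_assoc, div_le_iff₀ (mul_pos (pow_pos hXp0 _) hXR0), hv1]
  have hγE := MC.val_pos γE v
  calc A * (b * v (S27.val R u) ^ C.n)
      ≤ A * (b * (γE.val v * (C.mun v u * XR))) :=
        mul_le_mul_of_nonneg_left (mul_le_mul_of_nonneg_left hv2 hb0) hA0
    _ = (b * γE.val v * XR) * (A * C.mun v u) := by ring
    _ ≤ (b * γE.val v * XR) * (γ1.val v ^ dg C.oo f * Xp ^ (C.κ - 1)) :=
        mul_le_mul_of_nonneg_left hm4 (mul_nonneg (mul_nonneg hb0 hγE.le) hXR0.le)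
    _ = (γE.val v * γ1.val v ^ dg C.oo f) * (b * (Xp ^ (C.κ - 1) * XR)) := by ring
    _ ≤ (γE.mul (γ1.pow (dg C.oo f))).val v * (b * (Xp ^ (C.κ - 1) * XR)) := by
        refine mul_le_mul_of_nonneg_right ?_
          (mul_nonneg hb0 (mul_nonneg (pow_nonneg hXp0.le _) hXR0.le))
        exact le_trans (mul_le_mul_of_nonneg_left (MC.val_pow_le _ _ v) hγE.le)
          (MC.val_mul_le _ _ v)
    _ = _ := by ring

end LAux

open LAux in
theorem Cv.L (C : Cv K F) (m : ℕ) :
    ∃ γ : MC K, ∀ (v : AbsoluteValue K ℝ) (f : F), f ∈ V C.oo m → f ≠ 0 →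
      ∀ R : Place K F, R ≠ C.oo →
        v (C.lc f) ^ C.n * zprod C.oo f (fun P => C.dn v P R) ≤ γ.val v * v (S27.val R f) ^ C.n := by
  choose γs hγs using fun m' : Fin (m + 1) => L_fix C m'
  obtain ⟨γ, hγ⟩ := MC.exists_sup γs
  refine ⟨γ, fun v f hf hf0 R hR => ?_⟩
  have hfReg : f ∈ Reg C.oo := (mem_V_iff.1 hf).1
  by_cases hfR : S27.val R f = 0
  · have hpos := (val_eq_zero_iff_ord hfReg hf0 hR).1 hfR
    have h1 : (R.ord f).toNat ≠ 0 := by omega
    rw [zprod_eq_mul_zprodE hR, C.dn_self, zero_pow h1, zero_mul, mul_zero]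
    exact mul_nonneg (MC.val_pos _ v).le (pow_nonneg (v.nonneg _) _)
  · have hdg : dg C.oo f ≤ m := C.k1_dg_le_of_mem_V hf
    refine le_trans (hγs ⟨dg C.oo f, by omega⟩ v f hfReg hf0 rfl R hR hfR) ?_
    exact mul_le_mul_of_nonneg_right (hγ _ v) (pow_nonneg (v.nonneg _) _)

end Fermat.Agent.S17.El
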