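import Fermat.Agent.S17.El.K2

/-!
# S17/El: (K2') relative derivative version of (K2)   (WP EL-K2D)

`f, y ∈ L(m·oo)` with simple zeros at `P`.  `B := Z(y) - P`; `u ∈ L((m+2g)·oo - B)` with `u(P) ≠ 0` and exact vanishing (`exists_section`);
`w := f u / y ∈ A`, `Z(w) = (Z(f) - P) + (Z(u) - B)`, `w(P) = (f/y)(P) u(P) ≠ 0`, `lc w * lc y = lc f * lc u`.
`Cv.K2` for `w` at `P` (upper bound of `v(w(P))`), `Cv.L` for `u` at `P` (lower bound of `v(u(P))`); divide (all `dn(Q,P) > 0` for `Q ∈ Z(u)`).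
-/

set_option autoImplicit false

open AlgebraicCurve

namespace Fermat.Agent.S17.El

variable {K F : Type*} [Field K] [Field F] [Algebra K F] [IsAlgClosed K] [CharZero K]
  [S27.IsFF K F]

namespace K2dAux

open Classical in
/-- `zprodE` is `zprod` for the function modified at `P`. -/
theorem zprodE_eq_zprod_update {M : Type*} [CommMonoid M] {oo P : Place K F} (f : F) (hP : P ≠ oo)
    (φ : Place K F → M) : zprodE oo f P φ = zprod oo f (Function.update φ P 1) := by
  rw [zprod_eq_mul_zprodE hP, Function.update_self, one_pow, one_mul]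
  unfold zprodE
  refine Finset.prod_congr rfl fun Q hQ => ?_
  rw [Function.update_of_ne (Finset.ne_of_mem_erase hQ)]

open Classical in
/-- if `P` is not a zero, modifying the function at `P` changes nothing. -/
theorem zprod_update_of_ord {M : Type*} [CommMonoid M] {oo P : Place K F} {f : F}
    (h : P.ord f = 0) (φ : Place K F → M) :
    zprod oo f (Function.update φ P 1) = zprod oo f φ := by
  refine LAux.zprod_congr fun Q _ hQ => ?_
  rw [Function.update_of_ne]
  rintro rfl
  omega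

/-- the auxiliary section. -/
theorem exists_aux (oo : Place K F) {m : ℕ} {y : F} (hy : y ∈ V oo m) {P : Place K F}
    (hP : P ≠ oo) (hyP : P.ord y = 1) :
    ∃ u ∈ V oo (m + 2 * genusFF K F), u ≠ 0 ∧ P.ord u = 0 ∧
      ∀ Q : Place K F, Q ≠ oo → Q ≠ P → Q.ord y ≤ Q.ord u := by
  classical
  have hy0 : y ≠ 0 := by
    rintro rfl
    rw [Place.ord_zero] at hyP
    omega
  have hyR : y ∈ Reg oo := (mem_V_iff.1 hy).1
  have hdg : dg oo y ≤ m := K2Aux.dg_le_of_mem_V hy hy0
  have hoo : oo.ord y = -(dg oo y : ℤ) := ord_eq_neg_dg hyR hy0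
  set D : Divisor K F := Finsupp.single oo ((m + 2 * genusFF K F : ℕ) : ℤ) -
    (RR.divOf K y - Finsupp.single oo (oo.ord y) - Finsupp.single P 1) with hD
  have hDoo : D oo = ((m + 2 * genusFF K F : ℕ) : ℤ) := by
    rw [hD]
    simp only [Finsupp.sub_apply, Finsupp.single_eq_same, RR.divOf_apply,
      Finsupp.single_eq_of_ne hP.symm]
    ring
  have hDP : D P = 0 := by
    rw [hD]
    simp only [Finsupp.sub_apply, Finsupp.single_eq_same, RR.divOf_apply,
      Finsupp.single_eq_of_ne hP, hyP]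
    ring
  have hDQ : ∀ Q : Place K F, Q ≠ oo → Q ≠ P → D Q = - Q.ord y := by
    intro Q h1 h2
    rw [hD]
    simp only [Finsupp.sub_apply, RR.divOf_apply, Finsupp.single_eq_of_ne h1,
      Finsupp.single_eq_of_ne h2]
    ring
  have hdeg : 2 * (genusFF K F : ℤ) ≤ Divisor.degree D := by
    rw [hD, map_sub, map_sub, map_sub, Divisor.degree_single, Divisor.degree_single,
      Divisor.degree_single, S27.deg_eq_one, S27.deg_eq_one, RR.degree_divOf, hoo]
    push_cast
    omega
  obtain ⟨u, hu, hu0, huS⟩ := exists_section D hdeg {P}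
  rw [mem_riemannRochSpace_iff] at hu
  have hord : ∀ Q, -D Q ≤ Q.ord u := fun Q => (hu Q).resolve_left hu0
  refine ⟨u, ?_, hu0, ?_, ?_⟩
  · rw [mem_V_iff]
    refine ⟨fun Q hQ => ?_, Or.inr ?_⟩
    · rw [mem_place_iff_zp]
      right
      by_cases hQP : Q = P
      · subst hQP
        have := hord Q
        rw [hDP] at this
        omega
      · have := hord Q
        rw [hDQ Q hQ hQP] at this
        have h2 := ord_nonneg_of_mem_Reg hyR hQ
        omega
    · have := hord oo
      rwa [hDoo] at this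
  · rw [huS P (Finset.mem_singleton_self P), hDP, neg_zero]
  · intro Q h1 h2
    have := hord Q
    rw [hDQ Q h1 h2] at this
    omega

end K2dAux

open K2dAux LAux in
/-- relative derivative version: `f`, `y` have simple zeros at `P`. -/
theorem Cv.K2d (C : Cv K F) (m : ℕ) :
    ∃ γ : MC K, ∀ (v : AbsoluteValue K ℝ) (f y : F), f ∈ V C.oo m → y ∈ V C.oo m →
      ∀ P : Place K F, P ≠ C.oo → P.ord f = 1 → P.ord y = 1 →
        v (S27.val P (f / y)) ^ C.n * (v (C.lc y) ^ C.n * zprodE C.oo y P (fun Q => C.dn v Q P)) ≤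
          γ.val v * (v (C.lc f) ^ C.n * zprodE C.oo f P (fun Q => C.dn v Q P)) := by
  classical
  obtain ⟨γ1, h1⟩ := C.K2 (m + (m + 2 * genusFF K F))
  obtain ⟨γ2, h2⟩ := C.L (m + 2 * genusFF K F)
  refine ⟨γ1.mul γ2, fun v f y hf hy P hP hfP hyP => ?_⟩
  have hf0 : f ≠ 0 := by
    rintro rfl
    rw [Place.ord_zero] at hfP
    omega
  have hy0 : y ≠ 0 := by
    rintro rfl
    rw [Place.ord_zero] at hyP
    omega
  have hfR : f ∈ Reg C.oo := (mem_V_iff.1 hf).1
  have hyR : y ∈ Reg C.oo := (mem_V_iff.1 hy).1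
  obtain ⟨u, hu, hu0, huP, huQ⟩ := exists_aux C.oo hy hP hyP
  have huR : u ∈ Reg C.oo := (mem_V_iff.1 hu).1
  set w : F := f * u / y with hw
  have hw0 : w ≠ 0 := div_ne_zero (mul_ne_zero hf0 hu0) hy0
  have hwy : w * y = f * u := by
    rw [hw, div_mul_cancel₀ _ hy0]
  have hword : ∀ Q : Place K F, Q.ord w = Q.ord f + Q.ord u - Q.ord y := by
    intro Q
    have := congrArg Q.ord hwy
    rw [Q.ord_mul hw0 hy0, Q.ord_mul hf0 hu0] at this
    omega
  have hwP : P.ord w = 0 := by
    rw [hword, hfP, huP, hyP]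
    ring
  have hwR : w ∈ Reg C.oo := by
    intro Q hQ
    rw [mem_place_iff_zp]
    right
    by_cases hQP : Q = P
    · subst hQP
      omega
    · rw [hword]
      have a1 := huQ Q hQ hQP
      have a2 := ord_nonneg_of_mem_Reg hfR hQ
      omega
  have hwV : w ∈ V C.oo (m + (m + 2 * genusFF K F)) := by
    rw [mem_V_iff]
    refine ⟨hwR, Or.inr ?_⟩
    rw [hword]
    have a1 := (mem_V_iff.1 hf).2.resolve_left hf0
    have a2 := (mem_V_iff.1 hu).2.resolve_left hu0
    have a3 := ord_oo_nonpos hyR hy0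
    push_cast at a2 ⊢
    omega
  -- values at `P`
  have hfy0 : f / y ≠ 0 := div_ne_zero hf0 hy0
  have hfyord : P.ord (f / y) = 0 := by
    rw [div_eq_mul_inv, P.ord_mul hf0 (inv_ne_zero hy0), P.ord_inv, hfP, hyP]
    ring
  have hfyadic : P.adicValuation (f / y) = 1 := Cv.adic_eq_one_of_ord hfy0 hfyord
  have huadic : P.adicValuation u = 1 := Cv.adic_eq_one_of_ord hu0 huP
  have hwval : S27.val P w = S27.val P (f / y) * S27.val P u := by
    rw [← S27.val_mul P hfyadic.le huadic.le]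
    congr 1
    rw [hw]
    ring
  have huval : S27.val P u ≠ 0 := by
    rw [Ne, val_eq_zero_iff_ord huR hu0 hP, huP]
    exact lt_irrefl _
  have hfyval : S27.val P (f / y) ≠ 0 := by
    rw [Ne, S27.val_eq_zero_iff P hfyadic.le, hfyadic]
    exact lt_irrefl _
  have hwval0 : S27.val P w ≠ 0 := by
    rw [hwval]
    exact mul_ne_zero hfyval huval
  -- the two estimates
  have e1 := h1 v w hwV P hP hwval0
  have e2 := h2 v u hu hu0 P hP
  set φ : Place K F → ℝ := fun Q => C.dn v Q P with hφ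
  set φ' : Place K F → ℝ := Function.update φ P 1 with hφ'
  rw [← zprod_update_of_ord hwP φ] at e1
  rw [← zprod_update_of_ord huP φ] at e2
  rw [zprodE_eq_zprod_update y hP, zprodE_eq_zprod_update f hP]
  have hz : zprod C.oo w φ' * zprod C.oo y φ' = zprod C.oo f φ' * zprod C.oo u φ' := by
    rw [← zprod_mul hwR hyR hw0 hy0, ← zprod_mul hfR huR hf0 hu0, hwy]
  have hl : C.lc w * C.lc y = C.lc f * C.lc u := by
    rw [← C.lc_mul hwR hyR hw0 hy0, ← C.lc_mul hfR huR hf0 hu0, hwy]
  have hφ'0 : ∀ Q, 0 ≤ φ' Q := by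
    intro Q
    by_cases hQ : Q = P
    · subst hQ
      rw [hφ', Function.update_self]
      exact zero_le_one
    · rw [hφ', Function.update_of_ne hQ]
      exact C.dn_nonneg v Q P
  have hzn : ∀ g : F, 0 ≤ zprod C.oo g φ' := fun g => zprod_nonneg fun Q _ _ => hφ'0 Q
  set a : ℝ := v (S27.val P (f / y)) ^ C.n with ha
  set b : ℝ := v (S27.val P u) ^ C.n with hb
  have hb0 : 0 < b := pow_pos (v.pos huval) _
  have hab : v (S27.val P w) ^ C.n = a * b := by
    rw [hwval, map_mul, mul_pow]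
  rw [hab] at e1
  set W : ℝ := v (C.lc w) ^ C.n * zprod C.oo w φ' with hW
  set Y : ℝ := v (C.lc y) ^ C.n * zprod C.oo y φ' with hY
  set Fv : ℝ := v (C.lc f) ^ C.n * zprod C.oo f φ' with hFv
  set U : ℝ := v (C.lc u) ^ C.n * zprod C.oo u φ' with hU
  have hY0 : 0 ≤ Y := mul_nonneg (pow_nonneg (v.nonneg _) _) (hzn y)
  have hF0 : 0 ≤ Fv := mul_nonneg (pow_nonneg (v.nonneg _) _) (hzn f)
  have hWY : W * Y = Fv * U := by
    have h3 : v (C.lc w) ^ C.n * v (C.lc y) ^ C.n = v (C.lc f) ^ C.n * v (C.lc u) ^ C.n := by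
      rw [← mul_pow, ← mul_pow, ← map_mul, ← map_mul, hl]
    calc W * Y = (v (C.lc w) ^ C.n * v (C.lc y) ^ C.n) *
          (zprod C.oo w φ' * zprod C.oo y φ') := by rw [hW, hY]; ring
      _ = (v (C.lc f) ^ C.n * v (C.lc u) ^ C.n) * (zprod C.oo f φ' * zprod C.oo u φ') := by
          rw [h3, hz]
      _ = Fv * U := by rw [hFv, hU]; ring
  have hg1 := MC.val_pos γ1 v
  have hg2 := MC.val_pos γ2 v
  have key : (a * Y) * b ≤ (γ1.val v * γ2.val v * Fv) * b := by
    calc (a * Y) * b = (a * b) * Y := by ring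
      _ ≤ (γ1.val v * W) * Y := mul_le_mul_of_nonneg_right e1 hY0
      _ = γ1.val v * (Fv * U) := by rw [mul_assoc, hWY]
      _ ≤ γ1.val v * (Fv * (γ2.val v * b)) :=
          mul_le_mul_of_nonneg_left (mul_le_mul_of_nonneg_left e2 hF0) hg1.le
      _ = (γ1.val v * γ2.val v * Fv) * b := by ring
  refine le_trans (le_of_mul_le_mul_right key hb0) ?_
  exact mul_le_mul_of_nonneg_right (MC.val_mul_le _ _ v) hF0

end Fermat.Agent.S17.El
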