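import Fermat.Agent.S17.El.Defs

/-!
# S17/El: bookkeeping for `Reg`, `V`, `dg`, `zprod`, `lc`   (WP EL-ZP)

All elementary from `RR.divOf`, `RR.degree_divOf` (the degree of a principal divisor is `0`, all places have degree one:
`RR.degree_eq_sum`), `S27.val_*`, `S27.const_of_no_pole`.
-/

set_option autoImplicit false

open AlgebraicCurve

namespace Fermat.Agent.S17.El

variable {K F : Type*} [Field K] [Field F] [Algebra K F] [IsAlgClosed K] [CharZero K]
  [S27.IsFF K F]

omit [IsAlgClosed K] [CharZero K] [S27.IsFF K F] in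
theorem mem_place_iff_zp (P : Place K F) (f : F) :
    f ∈ P.toValuationSubring ↔ f = 0 ∨ 0 ≤ P.ord f := by
  rw [← S27.adic_le_one_iff_mem, P.adicValuation_le_one_iff]

omit [IsAlgClosed K] [CharZero K] [S27.IsFF K F] in
theorem ord_nonneg_of_mem_Reg {oo : Place K F} {f : F} (hf : f ∈ Reg oo) {P : Place K F}
    (hP : P ≠ oo) : 0 ≤ P.ord f := by
  rcases (mem_place_iff_zp P f).mp (hf P hP) with rfl | h
  · simp
  · exact h

omit [IsAlgClosed K] [CharZero K] [S27.IsFF K F] in
theorem mem_V_iff {oo : Place K F} {k : ℕ} {f : F} :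
    f ∈ V oo k ↔ f ∈ Reg oo ∧ (f = 0 ∨ -(k : ℤ) ≤ oo.ord f) := by
  classical
  rw [mem_riemannRochSpace_iff]
  constructor
  · intro h
    refine ⟨fun P hP => ?_, ?_⟩
    · have := h P
      rw [Finsupp.single_eq_of_ne hP, neg_zero] at this
      exact (mem_place_iff_zp P f).mpr this
    · have := h oo
      rwa [Finsupp.single_eq_same] at this
  · rintro ⟨h1, h2⟩ P
    by_cases hP : P = oo
    · subst hP
      rwa [Finsupp.single_eq_same]
    · rw [Finsupp.single_eq_of_ne hP, neg_zero]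
      exact (mem_place_iff_zp P f).mp (h1 P hP)

omit [IsAlgClosed K] [CharZero K] [S27.IsFF K F] in
theorem mem_V_dg {oo : Place K F} {f : F} (hf : f ∈ Reg oo) : f ∈ V oo (dg oo f) := by
  rw [mem_V_iff]
  refine ⟨hf, Or.inr ?_⟩
  have := Int.self_le_toNat (-(oo.ord f))
  unfold dg
  omega

omit [IsAlgClosed K] [CharZero K] [S27.IsFF K F] in
theorem V_mono (oo : Place K F) {k l : ℕ} (h : k ≤ l) : V oo k ≤ V oo l := by
  intro f hf
  rw [mem_V_iff] at hf ⊢
  refine ⟨hf.1, hf.2.imp id fun h1 => ?_⟩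
  have : (k : ℤ) ≤ l := by exact_mod_cast h
  omega

open Classical in
theorem ord_oo_add_sum {oo : Place K F} {f : F} (h0 : f ≠ 0) :
    oo.ord f + ∑ P ∈ (RR.divOf K f).support.erase oo, P.ord f = 0 := by
  have h1 := S27.sum_ord_eq_zero (K := K) h0 (insert oo ((RR.divOf K f).support.erase oo)) (by
    intro v hv
    by_cases hvo : v = oo
    · subst hvo; exact Finset.mem_insert_self _ _
    · refine Finset.mem_insert_of_mem (Finset.mem_erase.mpr ⟨hvo, ?_⟩)
      rw [Finsupp.mem_support_iff, RR.divOf_apply]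
      exact hv)
  rwa [Finset.sum_insert (Finset.notMem_erase _ _)] at h1

theorem ord_oo_nonpos {oo : Place K F} {f : F} (hf : f ∈ Reg oo) (h0 : f ≠ 0) : oo.ord f ≤ 0 := by
  classical
  have h1 := ord_oo_add_sum (oo := oo) h0
  have h2 : 0 ≤ ∑ P ∈ (RR.divOf K f).support.erase oo, P.ord f :=
    Finset.sum_nonneg fun P hP => ord_nonneg_of_mem_Reg hf (Finset.mem_erase.mp hP).1
  omega

theorem ord_eq_neg_dg {oo : Place K F} {f : F} (hf : f ∈ Reg oo) (h0 : f ≠ 0) :
    oo.ord f = -(dg oo f : ℤ) := by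
  have h1 := ord_oo_nonpos hf h0
  unfold dg
  omega

theorem dg_mul {oo : Place K F} {f g : F} (hf : f ∈ Reg oo) (hg : g ∈ Reg oo) (hf0 : f ≠ 0)
    (hg0 : g ≠ 0) : dg oo (f * g) = dg oo f + dg oo g := by
  have h1 := ord_eq_neg_dg hf hf0
  have h2 := ord_eq_neg_dg hg hg0
  have h3 := ord_eq_neg_dg ((Reg oo).mul_mem hf hg) (mul_ne_zero hf0 hg0)
  rw [oo.ord_mul hf0 hg0] at h3
  omega

/-- a function of degree `0` in `A` is a constant. -/
theorem exists_const_of_dg_eq_zero {oo : Place K F} {f : F} (hf : f ∈ Reg oo) (h : dg oo f = 0) :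
    ∃ c : K, f = algebraMap K F c := by
  rcases eq_or_ne f 0 with rfl | h0
  · exact ⟨0, by simp⟩
  apply S27.const_of_no_pole
  intro v
  rw [S27.adic_le_one_iff_mem]
  by_cases hv : v = oo
  · subst hv
    rw [mem_place_iff_zp]
    right
    rw [ord_eq_neg_dg hf h0, h]
    simp
  · exact hf v hv

open Classical in
/-- `zprod` may be computed on any larger finite set of affine places. -/
theorem zprod_eq_of_subset {M : Type*} [CommMonoid M] {oo : Place K F} {f : F}
    (φ : Place K F → M) (S : Finset (Place K F))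
    (hS : (RR.divOf K f).support.erase oo ⊆ S) (hoo : oo ∉ S) :
    zprod oo f φ = ∏ P ∈ S, φ P ^ (P.ord f).toNat := by
  unfold zprod
  refine Finset.prod_subset (by convert hS) fun P hP hP' => ?_
  have hPo : P ≠ oo := fun h => hoo (h ▸ hP)
  have : P.ord f = 0 := by
    by_contra hne
    apply hP'
    refine Finset.mem_erase.mpr ⟨hPo, ?_⟩
    rw [Finsupp.mem_support_iff, RR.divOf_apply]
    exact hne
  rw [this]
  simp

theorem zprod_mul {M : Type*} [CommMonoid M] {oo : Place K F} {f g : F} (hf : f ∈ Reg oo)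
    (hg : g ∈ Reg oo) (hf0 : f ≠ 0) (hg0 : g ≠ 0) (φ : Place K F → M) :
    zprod oo (f * g) φ = zprod oo f φ * zprod oo g φ := by
  classical
  set S : Finset (Place K F) := ((RR.divOf K f).support ∪ (RR.divOf K g).support ∪
    (RR.divOf K (f * g)).support).erase oo with hS
  have hoo : oo ∉ S := Finset.notMem_erase _ _
  rw [zprod_eq_of_subset φ S (Finset.erase_subset_erase _ Finset.subset_union_right) hoo,
    zprod_eq_of_subset φ S (Finset.erase_subset_erase _
      (Finset.subset_union_left.trans Finset.subset_union_left)) hoo,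
    zprod_eq_of_subset φ S (Finset.erase_subset_erase _
      (Finset.subset_union_right.trans Finset.subset_union_left)) hoo,
    ← Finset.prod_mul_distrib]
  refine Finset.prod_congr rfl fun P hP => ?_
  have hPo : P ≠ oo := (Finset.mem_erase.mp hP).1
  rw [P.ord_mul hf0 hg0, Int.toNat_add (ord_nonneg_of_mem_Reg hf hPo)
    (ord_nonneg_of_mem_Reg hg hPo), pow_add]

open Classical in
/-- the number of affine zeros is the degree. -/
theorem sum_ord_eq_dg {oo : Place K F} {f : F} (hf : f ∈ Reg oo) (h0 : f ≠ 0) :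
    ∑ P ∈ (RR.divOf K f).support.erase oo, (P.ord f).toNat = dg oo f := by
  have h1 := ord_oo_add_sum (oo := oo) h0
  have h2 := ord_eq_neg_dg hf h0
  have h3 : ((∑ P ∈ (RR.divOf K f).support.erase oo, (P.ord f).toNat : ℕ) : ℤ) =
      ∑ P ∈ (RR.divOf K f).support.erase oo, P.ord f := by
    rw [Nat.cast_sum]
    refine Finset.sum_congr rfl fun P hP => ?_
    exact Int.toNat_of_nonneg (ord_nonneg_of_mem_Reg hf (Finset.mem_erase.mp hP).1)
  omega

/-- the list of the affine zeros of `f`. -/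
theorem exists_zeros {oo : Place K F} {f : F} (hf : f ∈ Reg oo) (h0 : f ≠ 0) :
    ∃ Z : Fin (dg oo f) → Place K F, (∀ i, Z i ≠ oo) ∧
      ∀ P : Place K F, P ≠ oo → (P.ord f).toNat = Nat.card {i // Z i = P} := by
  classical
  set S := (RR.divOf K f).support.erase oo with hS
  let T := Σ P : S, Fin ((P : Place K F).ord f).toNat
  have hcard : Fintype.card T = dg oo f := by
    rw [Fintype.card_sigma]
    simp only [Fintype.card_fin]
    rw [← sum_ord_eq_dg hf h0, Finset.sum_coe_sort S (fun P => (P.ord f).toNat)]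
  let e : T ≃ Fin (dg oo f) := Fintype.equivFinOfCardEq hcard
  refine ⟨fun i => ((e.symm i).1 : Place K F),
    fun i => (Finset.mem_erase.mp (e.symm i).1.2).1, fun P hP => ?_⟩
  by_cases hPS : P ∈ S
  · have e1 : {i // ((e.symm i).1 : Place K F) = P} ≃ {t : T // t.1 = ⟨P, hPS⟩} :=
      e.symm.subtypeEquiv (fun i => by rw [Subtype.ext_iff])
    rw [Nat.card_congr (e1.trans (Equiv.sigmaSubtype _))]
    simp
  · have h1 : P.ord f = 0 := by
      by_contra hne
      exact hPS (Finset.mem_erase.mpr ⟨hP, by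
        rw [Finsupp.mem_support_iff, RR.divOf_apply]; exact hne⟩)
    have : IsEmpty {i // ((e.symm i).1 : Place K F) = P} :=
      ⟨fun ⟨i, hi⟩ => hPS (hi ▸ (e.symm i).1.2)⟩
    rw [h1, Nat.card_of_isEmpty]
    rfl

/-- `zprod` as a product over a list of zeros. -/
theorem zprod_eq_prod {M : Type*} [CommMonoid M] {oo : Place K F} {f : F} (hf : f ∈ Reg oo)
    (h0 : f ≠ 0) {m : ℕ} (Z : Fin m → Place K F) (hZ : ∀ i, Z i ≠ oo)
    (hcard : ∀ P : Place K F, P ≠ oo → (P.ord f).toNat = Nat.card {i // Z i = P})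
    (φ : Place K F → M) : zprod oo f φ = ∏ i, φ (Z i) := by
  classical
  rw [Finset.prod_comp φ Z, zprod_eq_of_subset φ (Finset.univ.image Z) ?_ ?_]
  · refine Finset.prod_congr rfl fun P hP => ?_
    have hPo : P ≠ oo := by
      obtain ⟨i, _, rfl⟩ := Finset.mem_image.mp hP
      exact hZ i
    rw [hcard P hPo]
    congr 1
    rw [Nat.card_eq_fintype_card, Fintype.card_subtype]
  · intro P hP
    obtain ⟨hPo, hPs⟩ := Finset.mem_erase.mp hP
    rw [Finsupp.mem_support_iff, RR.divOf_apply] at hPs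
    have h1 := ord_nonneg_of_mem_Reg hf hPo
    have h2 : 0 < (P.ord f).toNat := by omega
    rw [hcard P hPo] at h2
    obtain ⟨⟨i, hi⟩⟩ := (Nat.card_pos_iff.mp h2).1
    exact Finset.mem_image.mpr ⟨i, Finset.mem_univ _, hi⟩
  · intro h
    obtain ⟨i, _, hi⟩ := Finset.mem_image.mp h
    exact hZ i hi

theorem zprod_eq_mul_zprodE {M : Type*} [CommMonoid M] {oo P : Place K F} {f : F} (hP : P ≠ oo)
    (φ : Place K F → M) :
    zprod oo f φ = φ P ^ (P.ord f).toNat * zprodE oo f P φ := by
  classical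
  unfold zprod zprodE
  by_cases hPS : P ∈ (RR.divOf K f).support.erase oo
  · exact (Finset.mul_prod_erase _ (fun Q => φ Q ^ (Q.ord f).toNat) hPS).symm
  · have h1 : P.ord f = 0 := by
      by_contra hne
      exact hPS (Finset.mem_erase.mpr ⟨hP, by
        rw [Finsupp.mem_support_iff, RR.divOf_apply]; exact hne⟩)
    rw [Finset.erase_eq_of_notMem hPS, h1]
    simp

theorem zprod_const {M : Type*} [CommMonoid M] (oo : Place K F) (c : K) (φ : Place K F → M) :
    zprod oo (algebraMap K F c) φ = 1 := by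
  classical
  unfold zprod
  have : (RR.divOf K (algebraMap K F c)).support = ∅ := by
    ext P
    simp [RR.divOf_apply, S24.Place.ord_algebraMap]
  rw [this]
  simp

namespace Cv

variable (C : Cv K F) (v : AbsoluteValue K ℝ)

omit [IsAlgClosed K] [CharZero K] [S27.IsFF K F] in
theorem t_ne_zero : C.t ≠ 0 := by
  intro h
  have := C.ht
  rw [h, Place.ord_zero] at this
  exact zero_ne_one this

omit [IsAlgClosed K] [CharZero K] [S27.IsFF K F] in
theorem ord_mul_t_pow {f : F} (h0 : f ≠ 0) (d : ℕ) :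
    C.oo.ord (f * C.t ^ d) = C.oo.ord f + d := by
  rw [C.oo.ord_mul h0 (pow_ne_zero _ C.t_ne_zero), ← zpow_natCast, C.oo.ord_zpow, C.ht, mul_one]

omit [IsAlgClosed K] [CharZero K] [S27.IsFF K F] in
theorem adic_eq_one_of_ord {P : Place K F} {f : F} (h0 : f ≠ 0) (h : P.ord f = 0) :
    P.adicValuation f = 1 := by
  rw [P.adicValuation_eq_exp_neg_ord h0, h]
  simp

theorem adic_mul_t_pow {f : F} (hf : f ∈ Reg C.oo) (h0 : f ≠ 0) :
    C.oo.adicValuation (f * C.t ^ dg C.oo f) = 1 := by
  apply adic_eq_one_of_ord (mul_ne_zero h0 (pow_ne_zero _ C.t_ne_zero))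
  rw [C.ord_mul_t_pow h0, ord_eq_neg_dg hf h0]
  omega

theorem lc_ne_zero {f : F} (hf : f ∈ Reg C.oo) (h0 : f ≠ 0) : C.lc f ≠ 0 := by
  have h := C.adic_mul_t_pow hf h0
  unfold lc
  rw [Ne, S27.val_eq_zero_iff _ h.le, h]
  exact lt_irrefl _

theorem lc_mul {f g : F} (hf : f ∈ Reg C.oo) (hg : g ∈ Reg C.oo) (hf0 : f ≠ 0) (hg0 : g ≠ 0) :
    C.lc (f * g) = C.lc f * C.lc g := by
  unfold lc
  rw [dg_mul hf hg hf0 hg0, ← S27.val_mul _ (C.adic_mul_t_pow hf hf0).le
    (C.adic_mul_t_pow hg hg0).le]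
  congr 1
  ring

omit [IsAlgClosed K] [CharZero K] [S27.IsFF K F] in
theorem dg_const (oo : Place K F) (c : K) : dg oo (algebraMap K F c) = 0 := by
  unfold dg
  rw [S24.Place.ord_algebraMap]
  rfl

omit [IsAlgClosed K] [CharZero K] [S27.IsFF K F] in
theorem lc_const (c : K) : C.lc (algebraMap K F c) = c := by
  unfold lc
  rw [dg_const, pow_zero, mul_one, S27.val_algebraMap]

omit [IsAlgClosed K] [CharZero K] [S27.IsFF K F] in
theorem adic_sub_const {f : F} (hf : 0 < dg C.oo f) (c : K) :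
    C.oo.adicValuation (f - algebraMap K F c) = C.oo.adicValuation f := by
  apply Valuation.map_sub_eq_of_lt_left
  refine lt_of_le_of_lt (C.oo.adicValuation_algebraMap_le_one c) ?_
  rw [← not_le, C.oo.not_adicValuation_le_one_iff]
  unfold dg at hf
  omega

omit [IsAlgClosed K] [CharZero K] [S27.IsFF K F] in
theorem dg_sub_const {f : F} (hf : 0 < dg C.oo f) (c : K) :
    dg C.oo (f - algebraMap K F c) = dg C.oo f := by
  unfold dg Place.ord
  rw [C.adic_sub_const hf c]

/-- subtracting a constant does not change the leading coefficient of a nonconstant function. -/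
theorem lc_sub_const {f : F} (hf : 0 < dg C.oo f) (c : K) :
    C.lc (f - algebraMap K F c) = C.lc f := by
  have hord : C.oo.ord f = -(dg C.oo f : ℤ) := by
    unfold dg at hf ⊢
    omega
  have h0 : f ≠ 0 := by
    rintro rfl
    rw [Place.ord_zero] at hord
    omega
  have h1 : C.oo.adicValuation (f * C.t ^ dg C.oo f) = 1 := by
    apply adic_eq_one_of_ord (mul_ne_zero h0 (pow_ne_zero _ C.t_ne_zero))
    rw [C.ord_mul_t_pow h0, hord]
    omega
  have h2 : C.oo.adicValuation (algebraMap K F c * C.t ^ dg C.oo f) < 1 := by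
    rw [S27.adic_lt_one_iff_ord]
    rcases eq_or_ne c 0 with rfl | hc
    · left; simp
    · right
      rw [C.ord_mul_t_pow (by simpa using hc), S24.Place.ord_algebraMap]
      omega
  unfold lc
  rw [C.dg_sub_const hf c, sub_mul, S27.val_sub _ h1.le h2.le,
    (S27.val_eq_zero_iff _ h2.le).mpr h2, sub_zero]

end Cv

end Fermat.Agent.S17.El
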