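import Fermat.Agent.S17.El.NormDef
import Fermat.Agent.S17.El.ZP
import Fermat.Agent.GAL.FFExt

/-!
# S17/El: the norm: integrality, multiplicativity, factorisation   (WP EL-N1)
See the header of `NormDef.lean` for the proof sketch.
-/

set_option autoImplicit false
set_option linter.unusedSectionVars false
set_option linter.style.haveILetI false

open AlgebraicCurve Polynomial

namespace Fermat.Agent.S17.El

variable {K F : Type*} [Field K] [Field F] [Algebra K F]

variable [IsAlgClosed K] [CharZero K] [S27.IsFF K F]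

namespace N1

open IntermediateField S24
open scoped IntermediateField.algebraAdjoinAdjoin

variable {oo : Place K F} {x' : F} (hx' : x' ∈ Reg oo) {n' : ℕ} (hn' : 0 < n')
  (hd : oo.ord x' = -(n' : ℤ))

include hn' hd in
theorem not_mem_range : x' ∉ Set.range (algebraMap K F) := by
  rintro ⟨c, rfl⟩
  rw [S24.Place.ord_algebraMap] at hd
  omega

include hn' hd in
theorem isFiniteParam : S24.IsFiniteParam K x' := by
  obtain ⟨y, hy⟩ := S27.IsFF.exists_param (K := K) (F := F)
  exact hy.of_not_mem_range (not_mem_range hn' hd)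

include hx' hn' hd in
theorem ord_neg_iff (v : Place K F) : v.ord x' < 0 ↔ v = oo := by
  constructor
  · intro h
    by_contra hne
    have := S24.Place.ord_nonneg_of_mem v (hx' v hne)
    omega
  · rintro rfl
    omega

include hx' hn' hd in
theorem mem_iff_ne (v : Place K F) : x' ∈ v.toValuationSubring ↔ v ≠ oo := by
  constructor
  · intro h hv
    have := S24.Place.ord_nonneg_of_mem v h
    rw [hv] at this
    omega
  · exact fun h => hx' v h

include hx' hn' hd in
theorem isIntegral_of_mem_Reg {f : F} (hf : f ∈ Reg oo) : IsIntegral (polyRing K x') f := by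
  have hp := isFiniteParam hn' hd
  by_contra hcon
  have hnot : f ∉ (intRing K x').toSubring := hcon
  haveI : IsIntegrallyClosedIn (intRing K x').toSubring F :=
    inferInstanceAs (IsIntegrallyClosedIn (intRing K x') F)
  obtain ⟨V, hV, hfV⟩ := Subring.exists_le_valuationSubring_of_isIntegrallyClosedIn hnot
  have hA : ∀ a : polyRing K x', (a : F) ∈ V := fun a =>
    hV ((intRing K x').algebraMap_mem a)
  obtain ⟨v, hv⟩ := hp.exists_place_eq V
    (fun a => hA (algebraMap K (polyRing K x') a))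
    (hA ⟨x', Algebra.self_mem_adjoin_singleton K x'⟩)
    (fun h => hfV (h ▸ ValuationSubring.mem_top f))
  apply hfV
  rw [← hv]
  apply hf
  rw [← mem_iff_ne hx' hn' hd, hv]
  exact hA ⟨x', Algebra.self_mem_adjoin_singleton K x'⟩

include hx' hn' hd in
theorem exists_poly {f : F} (hf : f ∈ Reg oo) : ∃ p : K[X], aeval x' p =
    algebraMap (IntermediateField.adjoin K {x'}) F
      (Algebra.norm (IntermediateField.adjoin K {x'}) f) := by
  have hp := isFiniteParam hn' hd
  haveI := hp.isPrincipalIdealRing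
  have h1 : IsIntegral (polyRing K x') (Algebra.norm K⟮x'⟯ f) :=
    Algebra.isIntegral_norm K⟮x'⟯ (isIntegral_of_mem_Reg hx' hn' hd hf)
  obtain ⟨a, ha⟩ := (IsIntegrallyClosed.isIntegral_iff (R := polyRing K x') (K := K⟮x'⟯)).1 h1
  obtain ⟨p, hp'⟩ := (Algebra.adjoin_singleton_eq_range_aeval K x' ▸ a.2 :
    (a : F) ∈ (aeval x' : K[X] →ₐ[K] F).range)
  refine ⟨p, ?_⟩
  rw [← ha]
  exact hp'

/-! ### the rational function field `K(x')` -/

omit [IsAlgClosed K] [CharZero K] [S27.IsFF K F] in
theorem adjoin_gen_eq_top (x' : F) :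
    K⟮AdjoinSimple.gen K x'⟯ = (⊤ : IntermediateField K K⟮x'⟯) := by
  apply IntermediateField.lift_injective
  rw [IntermediateField.lift_adjoin_simple, IntermediateField.lift_top, AdjoinSimple.coe_gen]

omit [IsAlgClosed K] [CharZero K] [S27.IsFF K F] in
theorem isFiniteParam_gen {x' : F} (h : Transcendental K x') :
    S24.IsFiniteParam K (AdjoinSimple.gen K x') :=
  ⟨by
    intro halg
    apply h
    have := halg.algebraMap (A := F)
    rwa [AdjoinSimple.algebraMap_gen] at this, by
    rw [adjoin_gen_eq_top]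
    exact FiniteDimensional.of_finrank_eq_succ (n := 0) IntermediateField.finrank_top⟩

/-- a sum of positive integers equal to `1` has exactly one term. -/
theorem exists_unique_of_sum_eq_one' {ι : Type*} (s : Finset ι) (f : ι → ℤ)
    (hpos : ∀ i ∈ s, 0 < f i) (hsum : ∑ i ∈ s, f i = 1) :
    ∃ i ∈ s, f i = 1 ∧ ∀ j ∈ s, j = i := by
  classical
  have hne : s.Nonempty := by
    rw [Finset.nonempty_iff_ne_empty]
    rintro rfl
    simp at hsum
  obtain ⟨i, hi⟩ := hne
  have h1 := Finset.add_sum_erase s f hi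
  have h2 : 0 ≤ ∑ j ∈ s.erase i, f j :=
    Finset.sum_nonneg fun j hj => (hpos j (Finset.mem_of_mem_erase hj)).le
  have h3 := hpos i hi
  refine ⟨i, hi, by omega, fun j hj => ?_⟩
  by_contra hji
  have h4 : f j ≤ ∑ j ∈ s.erase i, f j :=
    Finset.single_le_sum (f := f) (fun k hk => (hpos k (Finset.mem_of_mem_erase hk)).le)
      (Finset.mem_erase.2 ⟨hji, hj⟩)
  have h5 := hpos j hj
  omega

omit [S27.IsFF K F] in
/-- the place `x' = ξ` of `K(x')`. -/
theorem exists_zero_gen {x' : F} (h : Transcendental K x') (ξ : K) :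
    ∃ v : Place K K⟮x'⟯, v.ord (AdjoinSimple.gen K x' - algebraMap K K⟮x'⟯ ξ) = 1 ∧
      ∀ w : Place K K⟮x'⟯, 0 < w.ord (AdjoinSimple.gen K x' - algebraMap K K⟮x'⟯ ξ) → w = v := by
  have hy := isFiniteParam_gen h
  have hs := hy.sum_fibre ξ
  rw [adjoin_gen_eq_top, IntermediateField.finrank_top] at hs
  obtain ⟨v, -, hv1, hv2⟩ := exists_unique_of_sum_eq_one' (hy.finite_fibre ξ).toFinset
    (fun w => w.ord (AdjoinSimple.gen K x' - algebraMap K K⟮x'⟯ ξ))
    (fun w hw => by
      have h1 : w ∈ {v : Place K K⟮x'⟯ |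
          0 < v.ord (AdjoinSimple.gen K x' - algebraMap K K⟮x'⟯ ξ)} :=
        (hy.finite_fibre ξ).mem_toFinset.1 hw
      exact h1) (by exact_mod_cast hs)
  exact ⟨v, hv1, fun w hw => hv2 w ((hy.finite_fibre ξ).mem_toFinset.2 hw)⟩

omit [IsAlgClosed K] [CharZero K] [S27.IsFF K F] in
theorem aeval_mem_place {E : Type*} [Field E] [Algebra K E] (v : Place K E) {y : E}
    (hy : y ∈ v.toValuationSubring) (g : K[X]) : aeval y g ∈ v.toValuationSubring := by
  induction g using Polynomial.induction_on' with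
  | add p q hp hq => simpa using add_mem hp hq
  | monomial n a =>
    rw [Polynomial.aeval_monomial]
    exact mul_mem (v.algebraMap_mem' a) (pow_mem hy n)

omit [IsAlgClosed K] [CharZero K] [S27.IsFF K F] in
theorem ord_aeval_eq_rootMultiplicity {E : Type*} [Field E] [Algebra K E] (v : Place K E) {y : E}
    (ξ : K) (hv : v.ord (y - algebraMap K E ξ) = 1) (p : K[X]) (hp : p ≠ 0) :
    v.ord (aeval y p) = p.rootMultiplicity ξ := by
  obtain ⟨r, hr, hroot⟩ := Polynomial.exists_eq_pow_rootMultiplicity_mul_and_not_dvd p hp ξ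
  have hy0 : y - algebraMap K E ξ ≠ 0 := by
    intro h
    rw [h, Place.ord_zero] at hv
    omega
  have hymem : y ∈ v.toValuationSubring := by
    have h1 : y - algebraMap K E ξ ∈ v.toValuationSubring :=
      (S24.Place.mem_iff_ord_nonneg v hy0).2 (by omega)
    have h2 := add_mem h1 (v.algebraMap_mem' ξ)
    simpa using h2
  have hc : r.eval ξ ≠ 0 := by
    intro h
    exact hroot (Polynomial.dvd_iff_isRoot.2 h)
  have hdec : aeval y r = algebraMap K E (r.eval ξ) +
      (y - algebraMap K E ξ) * aeval y (r /ₘ (X - C ξ)) := by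
    have h1 := Polynomial.modByMonic_add_div r (X - C ξ)
    rw [Polynomial.modByMonic_X_sub_C_eq_C_eval] at h1
    conv_lhs => rw [← h1]
    simp
  have hc' : algebraMap K E (r.eval ξ) ≠ 0 := by simpa using hc
  have hr0 : v.ord (aeval y r) = 0 := by
    rw [hdec]
    by_cases hs : aeval y (r /ₘ (X - C ξ)) = 0
    · rw [hs, mul_zero, add_zero, S24.Place.ord_algebraMap]
    · rw [S24.Place.ord_add_eq_of_lt v hc' (mul_ne_zero hy0 hs), S24.Place.ord_algebraMap]
      rw [S24.Place.ord_algebraMap, v.ord_mul hy0 hs, hv]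
      have := S24.Place.ord_nonneg_of_mem v (aeval_mem_place v hymem (r /ₘ (X - C ξ)))
      omega
  have hr1 : aeval y r ≠ 0 := by
    intro h
    rw [hdec] at h
    by_cases hs : aeval y (r /ₘ (X - C ξ)) = 0
    · rw [hs, mul_zero, add_zero] at h
      exact hc' h
    · have h2 : algebraMap K E (r.eval ξ) =
          -((y - algebraMap K E ξ) * aeval y (r /ₘ (X - C ξ))) := by
        linear_combination h
      have h3 := congrArg v.ord h2
      rw [S24.Place.ord_algebraMap, S24.Place.ord_neg, v.ord_mul hy0 hs, hv] at h3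
      have := S24.Place.ord_nonneg_of_mem v (aeval_mem_place v hymem (r /ₘ (X - C ξ)))
      omega
  conv_lhs => rw [hr]
  rw [map_mul, map_pow, v.ord_mul (pow_ne_zero _ (by simpa using hy0)) hr1, hr0, add_zero,
    S24.Place.ord_pow]
  simp [hv]

include hx' hn' hd in
/-- the places of `F` above `x' = ξ`. -/
theorem restrict_eq_iff (ξ : K) (v : Place K K⟮x'⟯)
    (hv1 : v.ord (AdjoinSimple.gen K x' - algebraMap K K⟮x'⟯ ξ) = 1)
    (hv2 : ∀ w : Place K K⟮x'⟯,
      0 < w.ord (AdjoinSimple.gen K x' - algebraMap K K⟮x'⟯ ξ) → w = v)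
    [Algebra.IsIntegral K⟮x'⟯ F] (w : Place K F) :
    w.restrict K⟮x'⟯ = v ↔ (w ≠ oo ∧ S27.val w x' = ξ) := by
  have hp := isFiniteParam hn' hd
  have hmap : algebraMap K⟮x'⟯ F (AdjoinSimple.gen K x' - algebraMap K K⟮x'⟯ ξ) =
      x' - algebraMap K F ξ := by
    rw [map_sub, AdjoinSimple.algebraMap_gen, ← IsScalarTower.algebraMap_apply]
  have hne : x' - algebraMap K F ξ ≠ 0 := by
    intro h
    apply hp.transcendental
    rw [sub_eq_zero.1 h]
    exact isAlgebraic_algebraMap ξ
  have hord := w.ord_restrict (F := K⟮x'⟯) (AdjoinSimple.gen K x' - algebraMap K K⟮x'⟯ ξ)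
  rw [hmap] at hord
  have hepos : 0 < Place.ramificationIndex (F := K⟮x'⟯) w := w.ramificationIndex_pos (F := K⟮x'⟯)
  have hepos' : (0 : ℤ) < (Place.ramificationIndex (F := K⟮x'⟯) w : ℤ) := by exact_mod_cast hepos
  constructor
  · intro h
    rw [h, hv1, mul_one] at hord
    have hpos : 0 < w.ord (x' - algebraMap K F ξ) := by omega
    refine ⟨?_, S27.val_unique w ((S27.adic_lt_one_iff_ord w).2 (Or.inr hpos))⟩
    rw [← mem_iff_ne hx' hn' hd]
    have h1 : x' - algebraMap K F ξ ∈ w.toValuationSubring :=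
      (S24.Place.mem_iff_ord_nonneg w hne).2 hpos.le
    have h2 := add_mem h1 (w.algebraMap_mem' ξ)
    simpa using h2
  · rintro ⟨hw, hval⟩
    apply hv2
    have h1 : x' ∈ w.toValuationSubring := hx' w hw
    have h2 := S27.val_spec w ((S27.adic_le_one_iff_mem w).2 h1)
    rw [hval, S27.adic_lt_one_iff_ord] at h2
    rcases h2 with h2 | h2
    · exact absurd h2 hne
    · rw [hord] at h2
      by_contra hcon
      push Not at hcon
      nlinarith

end N1

variable (C : Cv K F) {x' : F} (hx' : x' ∈ Reg C.oo) {n' : ℕ} (hn' : 0 < n')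
  (hd : C.oo.ord x' = -(n' : ℤ))

include hx' hn' hd

theorem finrank_adjoin_eq : Module.finrank (IntermediateField.adjoin K {x'}) F = n' := by
  have hp := N1.isFiniteParam hn' hd
  have h := hp.sum_poles
  have h2 : hp.finite_poles.toFinset = {C.oo} := by
    ext v
    rw [Set.Finite.mem_toFinset, Finset.mem_singleton]
    exact N1.ord_neg_iff hx' hn' hd v
  rw [h2, Finset.sum_singleton, hd] at h
  omega

theorem Nm_spec {f : F} (hf : f ∈ Reg C.oo) :
    aeval x' (Nm K x' f) = algebraMap (IntermediateField.adjoin K {x'}) F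
      (Algebra.norm (IntermediateField.adjoin K {x'}) f) := by
  have h := N1.exists_poly hx' hn' hd hf
  unfold Nm
  rw [dif_pos h]
  exact h.choose_spec

theorem Nm_mul {f g : F} (hf : f ∈ Reg C.oo) (hg : g ∈ Reg C.oo) :
    Nm K x' (f * g) = Nm K x' f * Nm K x' g := by
  have hp := N1.isFiniteParam hn' hd
  have hinj : Function.Injective (aeval x' : K[X] →ₐ[K] F) :=
    transcendental_iff_injective.1 hp.transcendental
  apply hinj
  rw [map_mul, Nm_spec C hx' hn' hd hf, Nm_spec C hx' hn' hd hg,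
    Nm_spec C hx' hn' hd (mul_mem hf hg), map_mul, map_mul]

theorem Nm_ne_zero {f : F} (hf : f ∈ Reg C.oo) (h0 : f ≠ 0) : Nm K x' f ≠ 0 := by
  have hp := N1.isFiniteParam hn' hd
  haveI := hp.finite
  intro h
  have h1 := Nm_spec C hx' hn' hd hf
  rw [h, map_zero] at h1
  have h2 : Algebra.norm (IntermediateField.adjoin K {x'}) f = 0 := by
    apply (algebraMap (IntermediateField.adjoin K {x'}) F).injective
    rw [← h1, map_zero]
  exact h0 (Algebra.norm_eq_zero_iff.1 h2)

open Classical in
/-- the multiplicity of `ξ` as a root of the norm. -/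
theorem rootMultiplicity_Nm {f : F} (hf : f ∈ Reg C.oo) (h0 : f ≠ 0) (ξ : K) :
    (Nm K x' f).rootMultiplicity ξ =
      ∑ P ∈ (RR.divOf K f).support.erase C.oo,
        (P.ord f).toNat * (if S27.val P x' = ξ then 1 else 0) := by
  have hp := N1.isFiniteParam hn' hd
  haveI := hp.finite
  obtain ⟨v, hv1, hv2⟩ := N1.exists_zero_gen hp.transcendental ξ
  have h1 := GAL.FFExt.ord_norm_eq_sum_fiber' (F := IntermediateField.adjoin K {x'}) (F' := F)
    (N1.isFiniteParam_gen hp.transcendental) v h0
  have h2 : Algebra.norm (IntermediateField.adjoin K {x'}) f =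
      aeval (IntermediateField.AdjoinSimple.gen K x') (Nm K x' f) := by
    apply (algebraMap (IntermediateField.adjoin K {x'}) F).injective
    rw [← Nm_spec C hx' hn' hd hf, ← Polynomial.aeval_algebraMap_apply,
      IntermediateField.AdjoinSimple.algebraMap_gen]
  rw [h2, N1.ord_aeval_eq_rootMultiplicity v ξ hv1 _ (Nm_ne_zero C hx' hn' hd hf h0)] at h1
  have hmem : ∀ w : Place K F, w ∈ v.fiber F ↔ (w ≠ C.oo ∧ S27.val w x' = ξ) := fun w => by
    rw [Place.mem_fiber]
    exact N1.restrict_eq_iff hx' hn' hd ξ v hv1 hv2 w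
  have h3 : (∑ w ∈ v.fiber F, w.ord f) = ((∑ P ∈ (RR.divOf K f).support.erase C.oo,
      (P.ord f).toNat * (if S27.val P x' = ξ then 1 else 0) : ℕ) : ℤ) := by
    push_cast
    simp only [mul_ite, mul_one, mul_zero]
    rw [← Finset.sum_filter]
    symm
    have hsub : ((RR.divOf K f).support.erase C.oo).filter (fun P => S27.val P x' = ξ) ⊆
        v.fiber F := by
      intro P hP
      rw [Finset.mem_filter, Finset.mem_erase] at hP
      exact (hmem P).2 ⟨hP.1.1, hP.2⟩
    rw [← Finset.sum_subset hsub]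
    · refine Finset.sum_congr rfl fun P hP => ?_
      rw [Finset.mem_filter, Finset.mem_erase] at hP
      exact Int.toNat_of_nonneg (S24.Place.ord_nonneg_of_mem P (hf P hP.1.1))
    · intro P hP hP'
      obtain ⟨hP1, hP2⟩ := (hmem P).1 hP
      rw [Finset.mem_filter, Finset.mem_erase, Finsupp.mem_support_iff, RR.divOf_apply] at hP'
      by_contra hcon
      exact hP' ⟨⟨hP1, hcon⟩, hP2⟩
  rw [h3] at h1
  exact_mod_cast h1

theorem Nm_factor {f : F} (hf : f ∈ Reg C.oo) (h0 : f ≠ 0) :
    Nm K x' f = Polynomial.C (Nm K x' f).leadingCoeff *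
      zprod C.oo f (fun P => X - Polynomial.C (S27.val P x')) := by
  classical
  have hroots : (Nm K x' f).roots = ∑ P ∈ (RR.divOf K f).support.erase C.oo,
      (P.ord f).toNat • ({S27.val P x'} : Multiset K) := by
    ext ξ
    rw [Polynomial.count_roots, rootMultiplicity_Nm C hx' hn' hd hf h0 ξ, Multiset.count_sum']
    refine Finset.sum_congr rfl fun P _ => ?_
    rw [Multiset.count_nsmul, Multiset.count_singleton]
    congr 1
    by_cases h : S27.val P x' = ξ
    · rw [if_pos h, if_pos h.symm]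
    · rw [if_neg h, if_neg (fun h' => h h'.symm)]
  conv_lhs => rw [(IsAlgClosed.splits (Nm K x' f)).eq_prod_roots]
  congr 1
  rw [hroots, zprod]
  have hmap : Multiset.map (fun x => (X : K[X]) - Polynomial.C x)
      (∑ P ∈ (RR.divOf K f).support.erase C.oo, (P.ord f).toNat • ({S27.val P x'} : Multiset K)) =
      ∑ P ∈ (RR.divOf K f).support.erase C.oo,
        Multiset.map (fun x => (X : K[X]) - Polynomial.C x)
          ((P.ord f).toNat • ({S27.val P x'} : Multiset K)) :=
    map_sum (Multiset.mapAddMonoidHom (fun x => (X : K[X]) - Polynomial.C x)) _ _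
  rw [hmap, Multiset.prod_sum]
  refine Finset.prod_congr rfl fun P _ => ?_
  rw [Multiset.map_nsmul, Multiset.prod_nsmul, Multiset.map_singleton, Multiset.prod_singleton]

theorem natDegree_Nm {f : F} (hf : f ∈ Reg C.oo) (h0 : f ≠ 0) :
    (Nm K x' f).natDegree = dg C.oo f := by
  classical
  have hl : (Nm K x' f).leadingCoeff ≠ 0 :=
    Polynomial.leadingCoeff_ne_zero.2 (Nm_ne_zero C hx' hn' hd hf h0)
  rw [Nm_factor C hx' hn' hd hf h0, Polynomial.natDegree_C_mul hl, zprod,
    Polynomial.natDegree_prod_of_monic _ _ (fun P _ => (Polynomial.monic_X_sub_C _).pow _),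
    ← sum_ord_eq_dg hf h0]
  refine Finset.sum_congr rfl fun P _ => ?_
  rw [Polynomial.natDegree_pow, Polynomial.natDegree_X_sub_C, mul_one]

end Fermat.Agent.S17.El
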