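import Fermat.Agent.GAL.FFExt
import Fermat.Agent.S27.Val

set_option autoImplicit false
set_option linter.unusedSectionVars false

open AlgebraicCurve Polynomial WithZero

namespace Fermat.Agent.S17.El.NormVal

section INT

variable {K E : Type*} [Field K] [Infinite K] [CommRing E] [Algebra K E]

/-- interpolation: if all the values of `p` at the points of `K` lie in the `K`-subspace `M`, so do its
coefficients. -/
theorem coeff_mem_of_eval_mem (M : Submodule K E) (p : E[X])
    (h : ∀ t : K, p.eval (algebraMap K E t) ∈ M) (j : ℕ) : p.coeff j ∈ M := by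
  by_contra hj
  obtain ⟨f, hf, hM⟩ := Submodule.exists_le_ker_of_notMem hj
  let q : K[X] := ∑ i ∈ Finset.range (p.natDegree + 1), Polynomial.monomial i (f (p.coeff i))
  have hq : ∀ t, q.eval t = 0 := by
    intro t
    have h1 : f (p.eval (algebraMap K E t)) = 0 := hM (h t)
    rw [Polynomial.eval_eq_sum_range, map_sum] at h1
    simp only [q, Polynomial.eval_finsetSum, Polynomial.eval_monomial]
    rw [← h1]
    refine Finset.sum_congr rfl fun i _ => ?_
    rw [← map_pow, mul_comm (p.coeff i), ← Algebra.smul_def, map_smul, smul_eq_mul, mul_comm]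
  have hq0 : q = 0 := Polynomial.funext (by simpa using hq)
  have h2 : q.coeff j = f (p.coeff j) := by
    simp only [q, Polynomial.finsetSum_coeff, Polynomial.coeff_monomial]
    rw [Finset.sum_ite_eq']
    split_ifs with hmem
    · rfl
    · have : p.coeff j = 0 :=
        Polynomial.coeff_eq_zero_of_natDegree_lt (by simpa using hmem)
      simp [this]
  rw [hq0, Polynomial.coeff_zero] at h2
  exact hf h2.symm

end INT

section Lev

variable {K E : Type*} [Field K] [Field E] [Algebra K E]

/-- `{x | ord_v x ≥ k}` as a `K`-subspace. -/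
def lev (v : Place K E) (k : ℤ) : Submodule K E where
  carrier := {x | v.adicValuation x ≤ exp (-k)}
  add_mem' := by
    intro a b ha hb
    rw [Set.mem_ofPred_eq] at ha hb ⊢
    exact (Valuation.map_add _ _ _).trans (max_le ha hb)
  zero_mem' := by simp
  smul_mem' := by
    intro c x hx
    rw [Set.mem_ofPred_eq] at hx ⊢
    rw [Algebra.smul_def, map_mul]
    exact (mul_le_mul' (v.adicValuation_algebraMap_le_one c) hx).trans (by rw [one_mul])

theorem mem_lev {v : Place K E} {k : ℤ} {x : E} : x ∈ lev v k ↔ v.adicValuation x ≤ exp (-k) := by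
  show x ∈ {x | v.adicValuation x ≤ exp (-k)} ↔ _
  rw [Set.mem_ofPred_eq]

end Lev


section Main

open Fermat.Agent.S24 Fermat.Agent.GAL.FFExt

variable {K E F : Type*} [Field K] [Field E] [Field F]
  [Algebra K E] [Algebra K F] [Algebra E F] [IsScalarTower K E F]
  [IsAlgClosed K] [CharZero K] [FiniteDimensional E F] [HasPrincipalDivisors K F]

theorem adic_norm_le {y : E} (hy : IsFiniteParam K y) (v : Place K E) (g : F) (m : Place K F → ℤ)
    (h : ∀ w ∈ v.fiber F, w.adicValuation g ≤ exp (-(m w))) :
    v.adicValuation (Algebra.norm E g) ≤ exp (-(∑ w ∈ v.fiber F, m w)) := by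
  rcases eq_or_ne g 0 with rfl | hg
  · rw [Algebra.norm_zero]; simp
  · rw [v.adicValuation_eq_exp_neg_ord (Algebra.norm_ne_zero_iff.mpr hg), exp_le_exp,
      neg_le_neg_iff, ord_norm_eq_sum_fiber' hy v hg]
    refine Finset.sum_le_sum fun w hw => ?_
    have := h w hw
    rwa [w.adicValuation_eq_exp_neg_ord hg, exp_le_exp, neg_le_neg_iff] at this

theorem adic_norm_eq_one {y : E} (hy : IsFiniteParam K y) (v : Place K E) (g : F)
    (h : ∀ w ∈ v.fiber F, w.adicValuation g = 1) :
    v.adicValuation (Algebra.norm E g) = 1 := by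
  have hne : (v.fiber F).Nonempty := fiber_nonempty hy v
  obtain ⟨w0, hw0⟩ := hne
  have hg : g ≠ 0 := by
    rintro rfl
    simpa using h w0 hw0
  rw [v.adicValuation_eq_exp_neg_ord (Algebra.norm_ne_zero_iff.mpr hg),
    ord_norm_eq_sum_fiber' hy v hg, Finset.sum_eq_zero, neg_zero, exp_zero]
  intro w hw
  have := h w hw
  rw [w.adicValuation_eq_exp_neg_ord hg, ← exp_zero, exp_inj] at this
  omega

/-- the characteristic polynomial of (multiplication by) `g`. -/
noncomputable def chi (E : Type*) {F : Type*} [Field E] [Field F] [Algebra E F]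
    [FiniteDimensional E F] (g : F) : E[X] :=
  (Algebra.lmul E F g).charpoly

theorem eval_chi (g : F) (t : E) : (chi E g).eval t = Algebra.norm E (algebraMap E F t - g) := by
  rw [chi, LinearMap.eval_charpoly, Algebra.norm_apply, map_sub (Algebra.lmul E F),
    AlgHom.commutes]

theorem chi_monic (g : F) : (chi E g).Monic := LinearMap.charpoly_monic _

theorem natDegree_chi (g : F) : (chi E g).natDegree = Module.finrank E F :=
  LinearMap.charpoly_natDegree _

/-- `g` is regular at all the places above `v`. -/
def IsInt (v : Place K E) (g : F) : Prop := ∀ w ∈ v.fiber F, w.adicValuation g ≤ 1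

theorem IsInt.sub_const {v : Place K E} {g : F} (hg : IsInt v g) (c : K) :
    IsInt v (g - algebraMap K F c) := fun w hw =>
  (Valuation.map_sub _ _ _).trans (max_le (hg w hw) (w.adicValuation_algebraMap_le_one c))

theorem IsInt.const_sub {v : Place K E} {g : F} (hg : IsInt v g) (c : K) :
    IsInt v (algebraMap K F c - g) := fun w hw =>
  (Valuation.map_sub _ _ _).trans (max_le (w.adicValuation_algebraMap_le_one c) (hg w hw))

theorem IsInt.adic_norm_le_one {y : E} (hy : IsFiniteParam K y) {v : Place K E} {g : F}
    (hg : IsInt v g) : v.adicValuation (Algebra.norm E g) ≤ 1 := by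
  have := adic_norm_le hy v g (fun _ => 0) (fun w hw => by simpa using hg w hw)
  simpa using this

theorem chi_coeff_le_one {y : E} (hy : IsFiniteParam K y) {v : Place K E} {g : F}
    (hg : IsInt v g) (j : ℕ) : v.adicValuation ((chi E g).coeff j) ≤ 1 := by
  have := coeff_mem_of_eval_mem (lev v 0) (chi E g) (fun t => by
    rw [mem_lev, eval_chi, ← IsScalarTower.algebraMap_apply]
    simpa using (hg.const_sub t).adic_norm_le_one hy) j
  simpa [mem_lev] using this

variable [S27.IsFF K E]

/-- the value at `v` as a ring homomorphism. -/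
noncomputable def valHom (v : Place K E) : v.toValuationSubring →+* K where
  toFun x := S27.val v (x : E)
  map_one' := S27.val_one v
  map_mul' x y := S27.val_mul v ((S27.adic_le_one_iff_mem v).2 x.2) ((S27.adic_le_one_iff_mem v).2 y.2)
  map_zero' := by simpa using S27.val_algebraMap v (0 : K)
  map_add' x y := S27.val_add v ((S27.adic_le_one_iff_mem v).2 x.2) ((S27.adic_le_one_iff_mem v).2 y.2)

theorem exists_rchi {y : E} (hy : IsFiniteParam K y) {v : Place K E} {g : F} (hg : IsInt v g) :
    ∃ q : K[X], q.Monic ∧ q.natDegree = Module.finrank E F ∧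
      (∀ j, q.coeff j = S27.val v ((chi E g).coeff j)) ∧
      ∀ t : K, q.eval t = S27.val v (Algebra.norm E (algebraMap K F t - g)) := by
  have hc : (↑(chi E g).coeffs : Set E) ⊆ v.toValuationSubring.toSubring := by
    intro a ha
    obtain ⟨j, -, rfl⟩ := Polynomial.mem_coeffs_iff.1 (Finset.mem_coe.1 ha)
    exact (S27.adic_le_one_iff_mem v).1 (chi_coeff_le_one hy hg j)
  set P := (chi E g).toSubring v.toValuationSubring.toSubring hc with hP
  have hPm : P.Monic := (Polynomial.monic_toSubring _ _ _).2 (chi_monic g)
  refine ⟨P.map (valHom v), hPm.map _, ?_, ?_, ?_⟩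
  · rw [hPm.natDegree_map, hP, Polynomial.natDegree_toSubring, natDegree_chi]
  · intro j
    rw [Polynomial.coeff_map]
    show S27.val v ((P.coeff j : v.toValuationSubring) : E) = _
    rw [hP, Polynomial.coeff_toSubring]
  · intro t
    have h1 : t = valHom v ⟨algebraMap K E t, v.algebraMap_mem' t⟩ := (S27.val_algebraMap v t).symm
    rw [Polynomial.eval_map]
    conv_lhs => rw [h1]
    rw [Polynomial.eval₂_at_apply]
    show S27.val v ((P.eval _ : v.toValuationSubring) : E) = _
    congr 1
    have h2 : P.map v.toValuationSubring.toSubring.subtype = chi E g :=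
      Polynomial.map_toSubring _ _ _
    rw [IsScalarTower.algebraMap_apply K E F, ← eval_chi, ← h2, Polynomial.eval_map]
    exact (Polynomial.hom_eval₂ P (RingHom.id _) v.toValuationSubring.toSubring.subtype _).trans
      (by simp)

theorem adic_algebraMap_unif {v : Place K E} {π : E} (hπ : v.adicValuation π = exp (-1 : ℤ))
    {w : Place K F} (hw : w ∈ v.fiber F) :
    w.adicValuation (algebraMap E F π) = exp (-(w.ramificationIndex E : ℤ)) := by
  have hπ0 : π ≠ 0 := by
    rintro rfl
    rw [map_zero] at hπ
    exact exp_ne_zero hπ.symm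
  have h1 : v.ord π = 1 := by
    rw [v.adicValuation_eq_exp_neg_ord hπ0, exp_inj] at hπ
    omega
  rw [w.adicValuation_eq_exp_neg_ord (by simpa using hπ0), w.ord_restrict, Place.mem_fiber.1 hw, h1,
    mul_one]

open Classical in
theorem le_rootMultiplicity {y : E} (hy : IsFiniteParam K y) {v : Place K E} {g : F}
    (hg : IsInt v g) (c : K)
    (hsp : ∀ w ∈ v.fiber F, S27.val w g = c →
      w.adicValuation (g - algebraMap K F c) ≤ exp (-(w.ramificationIndex E : ℤ)))
    {q : K[X]} (hq0 : q ≠ 0)
    (hq : ∀ t : K, q.eval t = S27.val v (Algebra.norm E (algebraMap K F t - g))) :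
    ∑ w ∈ v.fiber F, (if S27.val w g = c then w.ramificationIndex E else 0) ≤
      q.rootMultiplicity c := by
  set N : ℕ := ∑ w ∈ v.fiber F, (if S27.val w g = c then w.ramificationIndex E else 0) with hN
  obtain ⟨q', -, -, hq'c, hq'e⟩ := exists_rchi hy (hg.sub_const c)
  have hcomp : q' = q.comp (X + C c) := by
    apply Polynomial.funext
    intro t
    rw [hq'e, Polynomial.eval_comp, Polynomial.eval_add, Polynomial.eval_X, Polynomial.eval_C, hq,
      map_add]
    congr 2
    ring
  obtain ⟨π, hπ⟩ := S27.exists_unif v
  have hcoef : ∀ j, ((chi E (g - algebraMap K F c)).comp (C π * X)).coeff j ∈ lev v N := by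
    apply coeff_mem_of_eval_mem
    intro t
    rw [Polynomial.eval_comp, Polynomial.eval_mul, Polynomial.eval_C, Polynomial.eval_X, eval_chi,
      mem_lev]
    have := adic_norm_le hy v (algebraMap E F (π * algebraMap K E t) - (g - algebraMap K F c))
      (fun w => ((if S27.val w g = c then w.ramificationIndex E else 0 : ℕ) : ℤ)) (by
        intro w hw
        have h1 : w.adicValuation (algebraMap E F (π * algebraMap K E t)) ≤
            exp (-(w.ramificationIndex E : ℤ)) := by
          rw [map_mul, map_mul, adic_algebraMap_unif hπ hw, ← IsScalarTower.algebraMap_apply]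
          exact mul_le_of_le_one_right' (w.adicValuation_algebraMap_le_one t)
        split_ifs with hc
        · exact (Valuation.map_sub _ _ _).trans (max_le h1 (hsp w hw hc))
        · refine (Valuation.map_sub _ _ _).trans (max_le (h1.trans ?_) ?_)
          · rw [exp_le_exp]; simp
          · simpa using hg.sub_const c w hw)
    rwa [← Nat.cast_sum] at this
  have hz : ∀ j < N, q'.coeff j = 0 := by
    intro j hj
    rw [hq'c]
    apply S27.val_unique
    rw [map_zero, sub_zero]
    have h1 := hcoef j
    rw [Polynomial.comp_C_mul_X_coeff, mem_lev, map_mul, map_pow, hπ, ← exp_nsmul] at h1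
    by_contra h2
    push Not at h2
    have h3 : exp (j • (-1 : ℤ)) ≤ exp (-(N : ℤ)) :=
      (le_mul_of_one_le_left' h2).trans h1
    rw [exp_le_exp] at h3
    simp at h3
    omega
  have hdvd : X ^ N ∣ q' := Polynomial.X_pow_dvd_iff.2 hz
  rw [Polynomial.le_rootMultiplicity_iff hq0]
  obtain ⟨r, hr⟩ := hdvd
  refine ⟨r.comp (X - C c), ?_⟩
  have h4 : q = q'.comp (X - C c) := by
    rw [hcomp, Polynomial.comp_assoc]
    simp
  rw [h4, hr, Polynomial.mul_comp, Polynomial.pow_comp, Polynomial.X_comp]

theorem sum_ramificationIndex_nat {y : E} (hy : IsFiniteParam K y) (v : Place K E) :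
    ∑ w ∈ v.fiber F, w.ramificationIndex E = Module.finrank E F := by
  have := sum_ramificationIndex (F' := F) hy v
  exact_mod_cast this

/-- the formula for "special" `g` (constant modulo the uniformiser of `v` at each place above `v`). -/
theorem val_norm_const_sub_of_special {y : E} (hy : IsFiniteParam K y) {v : Place K E} {g : F}
    (hg : IsInt v g)
    (hsp : ∀ w ∈ v.fiber F, w.adicValuation (g - algebraMap K F (S27.val w g)) ≤
      exp (-(w.ramificationIndex E : ℤ))) (t : K) :
    S27.val v (Algebra.norm E (algebraMap K F t - g)) =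
      ∏ w ∈ v.fiber F, (t - S27.val w g) ^ w.ramificationIndex E := by
  classical
  obtain ⟨q, hqm, hqd, -, hqe⟩ := exists_rchi hy hg
  set s : Multiset K := ∑ w ∈ v.fiber F, w.ramificationIndex E • {S27.val w g} with hs
  have hle : s ≤ q.roots := by
    rw [Multiset.le_iff_count]
    intro c
    rw [Polynomial.count_roots, hs, Multiset.count_sum']
    refine le_trans (le_of_eq ?_) (le_rootMultiplicity hy hg c (fun w hw hc => by
      have := hsp w hw
      rwa [hc] at this) hqm.ne_zero hqe)
    refine Finset.sum_congr rfl fun w _ => ?_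
    rw [Multiset.count_nsmul, Multiset.count_singleton]
    by_cases h : S27.val w g = c
    · rw [if_pos h, if_pos h.symm, mul_one]
    · rw [if_neg h, if_neg (fun h' => h h'.symm), mul_zero]
  have hcard : Multiset.card s = Module.finrank E F := by
    rw [hs, Multiset.card_sum, ← sum_ramificationIndex_nat hy v]
    refine Finset.sum_congr rfl fun w _ => ?_
    simp
  have hroots : s = q.roots :=
    Multiset.eq_of_le_of_card_le hle (by rw [hcard, ← hqd]; exact q.card_roots')
  have hprod := Polynomial.prod_multiset_X_sub_C_of_monic_of_roots_card_eq hqm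
    (by rw [← hroots, hcard, hqd])
  rw [← hqe, ← hprod, ← hroots, Polynomial.eval_multiset_prod, Multiset.map_map, hs,
    ← Multiset.coe_mapAddMonoidHom, map_sum, Multiset.prod_sum]
  refine Finset.prod_congr rfl fun w _ => ?_
  rw [Multiset.coe_mapAddMonoidHom, Multiset.map_nsmul, Multiset.prod_nsmul]
  simp

/-- norms of `1`-units. -/
theorem val_norm_one_add {y : E} (hy : IsFiniteParam K y) {v : Place K E} {h : F}
    (hh : ∀ w ∈ v.fiber F, w.adicValuation h < 1) :
    S27.val v (Algebra.norm E (1 + h)) = 1 := by
  have hg : IsInt v (-h) := fun w hw => by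
    rw [Valuation.map_neg]; exact (hh w hw).le
  obtain ⟨q, hqm, hqd, -, hqe⟩ := exists_rchi hy hg
  have hr : ∀ a ∈ q.roots, a = 0 := by
    intro a ha
    by_contra ha0
    have h1 : q.eval a = 0 := (Polynomial.mem_roots hqm.ne_zero).1 ha
    rw [hqe] at h1
    have h2 : v.adicValuation (Algebra.norm E (algebraMap K F a - -h)) = 1 := by
      apply adic_norm_eq_one hy
      intro w hw
      rw [sub_neg_eq_add]
      rw [Valuation.map_add_eq_of_lt_left]
      · exact S27.adic_algebraMap w ha0
      · rw [S27.adic_algebraMap w ha0]; exact hh w hw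
    rw [S27.val_eq_zero_iff v h2.le, h2] at h1
    exact lt_irrefl _ h1
  have hcard : Multiset.card q.roots = q.natDegree :=
    (Polynomial.splits_iff_card_roots.1 (IsAlgClosed.splits q))
  have hprod := Polynomial.prod_multiset_X_sub_C_of_monic_of_roots_card_eq hqm hcard
  have h3 : q.eval 1 = 1 := by
    rw [← hprod, Polynomial.eval_multiset_prod, Multiset.map_map]
    apply Multiset.prod_eq_one
    intro x hx
    obtain ⟨a, ha, rfl⟩ := Multiset.mem_map.1 hx
    simp [hr a ha]
  rw [hqe, map_one, sub_neg_eq_add] at h3
  exact h3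

/-- **the value of the norm is the product of the values over the fibre** (with multiplicities). -/
theorem val_norm {y : E} (hy : IsFiniteParam K y) {v : Place K E} {g : F} (hg : IsInt v g) :
    S27.val v (Algebra.norm E g) = ∏ w ∈ v.fiber F, S27.val w g ^ w.ramificationIndex E := by
  classical
  have : S27.IsFF K F := ⟨⟨_, isFiniteParam_algebraMap (F' := F) hy⟩⟩
  by_cases h0 : ∃ w0 ∈ v.fiber F, S27.val w0 g = 0
  · obtain ⟨w0, hw0, h0⟩ := h0
    rw [Finset.prod_eq_zero hw0 (by rw [h0]; exact zero_pow w0.ramificationIndex_pos.ne')]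
    apply S27.val_unique
    rw [map_zero, sub_zero]
    have := adic_norm_le hy v g (fun w => if w = w0 then 1 else 0) (by
      intro w hw
      split_ifs with h
      · subst h
        exact (S27.adic_lt_one_iff w).1 ((S27.val_eq_zero_iff w (hg w hw)).1 h0)
      · simpa using hg w hw)
    rw [Finset.sum_ite_eq' _ _ _, if_pos hw0] at this
    exact (S27.adic_lt_one_iff v).2 this
  · push Not at h0
    obtain ⟨g0, hg0⟩ := S27.exists_approx (v.fiber F) (fun w => algebraMap K F (S27.val w g))
      (Module.finrank E F + 1)
    have hlt : ∀ w ∈ v.fiber F, w.adicValuation (g0 - algebraMap K F (S27.val w g)) < 1 := by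
      intro w hw
      refine lt_of_le_of_lt (hg0 w hw) ?_
      rw [← exp_zero, exp_lt_exp]
      omega
    have hval : ∀ w ∈ v.fiber F, S27.val w g0 = S27.val w g := fun w hw =>
      S27.val_unique w (hlt w hw)
    have hint : IsInt v g0 := by
      intro w hw
      have : g0 = (g0 - algebraMap K F (S27.val w g)) + algebraMap K F (S27.val w g) := by ring
      rw [this]
      exact (Valuation.map_add _ _ _).trans
        (max_le (hlt w hw).le (w.adicValuation_algebraMap_le_one _))
    have hsp : ∀ w ∈ v.fiber F, w.adicValuation (-g0 - algebraMap K F (S27.val w (-g0))) ≤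
        exp (-(w.ramificationIndex E : ℤ)) := by
      intro w hw
      have h1 : S27.val w (-g0) = - S27.val w g := by
        apply S27.val_unique
        have : -g0 - algebraMap K F (-S27.val w g) = -(g0 - algebraMap K F (S27.val w g)) := by
          rw [map_neg]; ring
        rw [this, Valuation.map_neg]
        exact hlt w hw
      have h2 : -g0 - algebraMap K F (-S27.val w g) = -(g0 - algebraMap K F (S27.val w g)) := by
        rw [map_neg]; ring
      rw [h1, h2, Valuation.map_neg]
      refine (hg0 w hw).trans ?_
      rw [exp_le_exp, neg_le_neg_iff]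
      have h3 : w.ramificationIndex E ≤ Module.finrank E F := by
        rw [← sum_ramificationIndex_nat hy v]
        exact Finset.single_le_sum (f := fun w : Place K F => w.ramificationIndex E)
          (fun _ _ => Nat.zero_le _) hw
      omega
    have hintn : IsInt v (-g0) := fun w hw => by rw [Valuation.map_neg]; exact hint w hw
    have hD := val_norm_const_sub_of_special hy hintn hsp 0
    rw [map_zero, zero_sub, neg_neg] at hD
    have hone : ∀ w ∈ v.fiber F, w.adicValuation g0 = 1 := by
      intro w hw
      refine le_antisymm (hint w hw) (not_lt.1 fun hlt' => h0 w hw ?_)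
      rw [← hval w hw]
      exact (S27.val_eq_zero_iff w (hint w hw)).2 hlt'
    obtain ⟨w1, hw1⟩ := fiber_nonempty (F' := F) hy v
    have hg00 : g0 ≠ 0 := by
      rintro rfl
      simpa using hone w1 hw1
    have hE := val_norm_one_add hy (v := v) (h := (g - g0) / g0) (by
      intro w hw
      rw [map_div₀, hone w hw, div_one]
      have : g - g0 = (g - algebraMap K F (S27.val w g)) - (g0 - algebraMap K F (S27.val w g)) := by
        ring
      rw [this]
      exact lt_of_le_of_lt (Valuation.map_sub _ _ _)
        (max_lt (S27.val_spec w (hg w hw)) (hlt w hw)))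
    have hmul : g = g0 * (1 + (g - g0) / g0) := by
      field_simp
      ring
    have hint2 : IsInt v (1 + (g - g0) / g0) := by
      intro w hw
      have : 1 + (g - g0) / g0 = g / g0 := by field_simp; ring
      rw [this, map_div₀, hone w hw, div_one]
      exact hg w hw
    conv_lhs => rw [hmul]
    rw [map_mul, S27.val_mul v (hint.adic_norm_le_one hy) (hint2.adic_norm_le_one hy), hE, mul_one,
      hD]
    refine Finset.prod_congr rfl fun w hw => ?_
    have h1 : S27.val w (-g0) = - S27.val w g := by
      apply S27.val_unique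
      have : -g0 - algebraMap K F (-S27.val w g) = -(g0 - algebraMap K F (S27.val w g)) := by
        rw [map_neg]; ring
      rw [this, Valuation.map_neg]
      exact hlt w hw
    rw [h1, zero_sub, neg_neg]

end Main

end Fermat.Agent.S17.El.NormVal
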