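import Fermat.Agent.S17.El.N1
import Fermat.Agent.S17.El.NormVal

/-!
# S17/El: values of the norm = product over the fibre   (WP EL-N2)
See the header of `NormDef.lean` for the proof sketch.
-/

set_option autoImplicit false

open AlgebraicCurve Polynomial

namespace Fermat.Agent.S17.El

namespace NormVal

open IntermediateField Fermat.Agent.S24

variable {K E : Type*} [Field K] [Field E] [Algebra K E] [IsAlgClosed K] [CharZero K]

/-- in a rational function field `K(t)` the function `t - ξ` has a unique zero, and it is simple. -/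
theorem zero_unique {t : E} (ht : IsFiniteParam K t) (htop : K⟮t⟯ = ⊤) (ξ : K)
    {v1 v2 : Place K E} (h1 : 0 < v1.ord (t - algebraMap K E ξ))
    (h2 : 0 < v2.ord (t - algebraMap K E ξ)) : v1 = v2 ∧ v1.ord (t - algebraMap K E ξ) = 1 := by
  classical
  have hs := ht.sum_fibre ξ
  rw [htop, IntermediateField.finrank_top] at hs
  have hm1 : v1 ∈ (ht.finite_fibre ξ).toFinset := by simpa using h1
  have hm2 : v2 ∈ (ht.finite_fibre ξ).toFinset := by simpa using h2
  have hpos : ∀ v ∈ (ht.finite_fibre ξ).toFinset, 0 ≤ v.ord (t - algebraMap K E ξ) := by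
    intro v hv
    have : 0 < v.ord (t - algebraMap K E ξ) := by simpa using hv
    exact this.le
  have heq : v1 = v2 := by
    by_contra hne
    have hsub : ({v1, v2} : Finset (Place K E)) ⊆ (ht.finite_fibre ξ).toFinset := by
      intro v hv
      rw [Finset.mem_insert, Finset.mem_singleton] at hv
      rcases hv with rfl | rfl
      · exact hm1
      · exact hm2
    have := Finset.sum_le_sum_of_subset_of_nonneg hsub (fun v hv _ => hpos v hv)
    rw [Finset.sum_pair hne, hs] at this
    push_cast at this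
    omega
  refine ⟨heq, ?_⟩
  have := Finset.single_le_sum hpos hm1
  rw [hs] at this
  push_cast at this
  omega

end NormVal

variable {K F : Type*} [Field K] [Field F] [Algebra K F]

variable [IsAlgClosed K] [CharZero K] [S27.IsFF K F]

variable (C : Cv K F) {x' : F} (hx' : x' ∈ Reg C.oo) {n' : ℕ} (hn' : 0 < n')
  (hd : C.oo.ord x' = -(n' : ℤ))

include hx' hn' hd

open IntermediateField Fermat.Agent.S24 in
theorem Nm_eval {f : F} (hf : f ∈ Reg C.oo) (ξ : K) :
    (Nm K x' f).eval ξ = zprod C.oo (x' - algebraMap K F ξ) (fun R' => S27.val R' f) := by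
  classical
  have hxc : x' ∉ Set.range (algebraMap K F) := by
    rintro ⟨c, rfl⟩
    rw [S24.Place.ord_algebraMap] at hd
    omega
  obtain ⟨y, hy⟩ := S27.IsFF.exists_param (K := K) (F := F)
  have hxp : IsFiniteParam K x' := hy.of_not_mem_range hxc
  let t : K⟮x'⟯ := IntermediateField.AdjoinSimple.gen K x'
  have htx : algebraMap K⟮x'⟯ F t = x' := IntermediateField.AdjoinSimple.algebraMap_gen K x'
  have ht : Transcendental K t :=
    (transcendental_algebraMap_iff (algebraMap K⟮x'⟯ F).injective).1 (htx.symm ▸ hxp.transcendental)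
  have htop : K⟮t⟯ = ⊤ := by
    apply IntermediateField.lift_injective
    rw [IntermediateField.lift_adjoin_simple, IntermediateField.lift_top]
    rfl
  have : FiniteDimensional K⟮x'⟯ F := hxp.finite
  have htp : IsFiniteParam K t := ⟨ht, by
    rw [htop]
    exact FiniteDimensional.of_finrank_eq_succ (n := 0) IntermediateField.finrank_top⟩
  have : S27.IsFF K K⟮x'⟯ := ⟨t, htp⟩
  obtain ⟨R0, hR0⟩ := S27.exists_place_val hxc ξ
  set v : Place K K⟮x'⟯ := R0.restrict K⟮x'⟯ with hv
  have hπ : algebraMap K⟮x'⟯ F (t - algebraMap K K⟮x'⟯ ξ) = x' - algebraMap K F ξ := by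
    rw [map_sub, htx, ← IsScalarTower.algebraMap_apply]
  have hne : x' - algebraMap K F ξ ≠ 0 := fun h => hxc ⟨ξ, (sub_eq_zero.1 h).symm⟩
  -- restriction of a zero of `x' - ξ`
  have hres : ∀ w : Place K F, 0 < w.ord (x' - algebraMap K F ξ) →
      0 < (w.restrict K⟮x'⟯).ord (t - algebraMap K K⟮x'⟯ ξ) := by
    intro w hw
    rw [← hπ, w.ord_restrict] at hw
    by_contra h
    push Not at h
    have : (w.ramificationIndex K⟮x'⟯ : ℤ) * (w.restrict K⟮x'⟯).ord (t - algebraMap K K⟮x'⟯ ξ) ≤ 0 :=
      mul_nonpos_of_nonneg_of_nonpos (by positivity) h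
    omega
  have hR0' : 0 < R0.ord (x' - algebraMap K F ξ) := by
    rcases (S27.adic_lt_one_iff_ord R0).1 hR0 with h | h
    · exact absurd h hne
    · exact h
  have hv1 : v.ord (t - algebraMap K K⟮x'⟯ ξ) = 1 :=
    (NormVal.zero_unique htp htop ξ (hres R0 hR0') (hres R0 hR0')).2
  have hord : ∀ w ∈ v.fiber F, w.ord (x' - algebraMap K F ξ) = (w.ramificationIndex K⟮x'⟯ : ℤ) := by
    intro w hw
    rw [← hπ, w.ord_restrict, Place.mem_fiber.1 hw, hv1, mul_one]
  have hx0 : x' ≠ 0 := by
    rintro rfl
    exact hxc ⟨0, map_zero _⟩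
  have hoo : C.oo.ord (x' - algebraMap K F ξ) < 0 := by
    by_contra h
    push Not at h
    rw [← S24.Place.mem_iff_ord_nonneg C.oo hne] at h
    have h2 : x' ∈ C.oo.toValuationSubring := by
      have : x' = (x' - algebraMap K F ξ) + algebraMap K F ξ := by ring
      rw [this]
      exact add_mem h (C.oo.algebraMap_mem' ξ)
    rw [S24.Place.mem_iff_ord_nonneg C.oo hx0] at h2
    omega
  have hfib : v.fiber F = (RR.divOf K (x' - algebraMap K F ξ)).support.erase C.oo := by
    ext w
    rw [Finset.mem_erase, Finsupp.mem_support_iff, RR.divOf_apply]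
    constructor
    · intro hw
      have h1 := hord w hw
      have h2 := w.ramificationIndex_pos (F := K⟮x'⟯)
      refine ⟨?_, by omega⟩
      rintro rfl
      omega
    · rintro ⟨hwoo, hw0⟩
      have h1 : x' - algebraMap K F ξ ∈ w.toValuationSubring :=
        sub_mem (hx' w hwoo) (w.algebraMap_mem' ξ)
      rw [S24.Place.mem_iff_ord_nonneg w hne] at h1
      rw [Place.mem_fiber]
      exact (NormVal.zero_unique htp htop ξ (hres w (by omega)) (hres R0 hR0')).1
  have hint : NormVal.IsInt v f := by
    intro w hw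
    rw [hfib, Finset.mem_erase] at hw
    exact (S27.adic_le_one_iff_mem w).2 (hf w hw.1)
  have hN : Algebra.norm K⟮x'⟯ f = aeval t (Nm K x' f) := by
    apply (algebraMap K⟮x'⟯ F).injective
    rw [← Nm_spec C hx' hn' hd hf, ← Polynomial.aeval_algebraMap_apply, htx]
  have hvt : v.adicValuation (t - algebraMap K K⟮x'⟯ ξ) < 1 :=
    (S27.adic_lt_one_iff_ord v).2 (Or.inr (by omega))
  have hvt1 : v.adicValuation t ≤ 1 := by
    have : t = (t - algebraMap K K⟮x'⟯ ξ) + algebraMap K K⟮x'⟯ ξ := by ring
    rw [this]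
    exact (Valuation.map_add _ _ _).trans (max_le hvt.le (v.adicValuation_algebraMap_le_one ξ))
  have h1 := NormVal.val_norm htp hint
  rw [hN, S27.val_aeval v hvt1, S27.val_unique v hvt] at h1
  rw [h1, zprod, ← hfib]
  refine Finset.prod_congr rfl fun w hw => ?_
  rw [hord w hw, Int.toNat_natCast]

end Fermat.Agent.S17.El
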