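import Fermat.Agent.S17.El.N2
import Fermat.Agent.S19.B.Recip

/-!
# S17/El: leading coefficient of the norm   (WP EL-N3)
See the header of `NormDef.lean` for the proof sketch.
-/

set_option autoImplicit false

open AlgebraicCurve Polynomial

namespace Fermat.Agent.S17.El

variable {K F : Type*} [Field K] [Field F] [Algebra K F]

variable [IsAlgClosed K] [CharZero K] [S27.IsFF K F]

/-- value at a pole `P` of `x'` of `p(x') / x' ^ deg p`. -/
theorem n3_val_aeval_div (P : Place K F) {x' : F} (hx : P.ord x' < 0) (p : K[X]) :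
    P.adicValuation (aeval x' p * (x' ^ p.natDegree)⁻¹) ≤ 1 ∧
      S27.val P (aeval x' p * (x' ^ p.natDegree)⁻¹) = p.leadingCoeff := by
  have hx0 : x' ≠ 0 := by
    rintro rfl
    rw [Place.ord_zero] at hx
    exact lt_irrefl _ hx
  have hy : P.adicValuation x'⁻¹ < 1 := by
    rw [S27.adic_lt_one_iff_ord]
    right
    rw [P.ord_inv]
    omega
  have h1 : aeval x' p * (x' ^ p.natDegree)⁻¹ = aeval x'⁻¹ p.reverse := by
    let : Invertible x' := invertibleOfNonzero hx0
    have h2 := Polynomial.eval₂_reverse_mul_pow (algebraMap K F) x' p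
    rw [invOf_eq_inv] at h2
    rw [aeval_def, aeval_def, ← h2, mul_assoc, mul_inv_cancel₀ (pow_ne_zero _ hx0), mul_one]
  rw [h1]
  refine ⟨S27.adic_aeval_le_one P hy.le _, ?_⟩
  rw [S27.val_aeval P hy.le, (S27.val_eq_zero_iff P hy.le).mpr hy, ← coeff_zero_eq_eval_zero,
    coeff_zero_reverse]

variable (C : Cv K F) {x' : F} (hx' : x' ∈ Reg C.oo) {n' : ℕ} (hn' : 0 < n')
  (hd : C.oo.ord x' = -(n' : ℤ))

include hx' hn' hd

theorem Nm_lead {f : F} (hf : f ∈ Reg C.oo) (h0 : f ≠ 0) :
    (Nm K x' f).leadingCoeff ^ n' * C.lc x' ^ (dg C.oo f * n') = C.lc f ^ (n' * n') := by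
  classical
  have hx0 : x' ≠ 0 := by
    rintro rfl
    rw [Place.ord_zero] at hd
    omega
  have hxc : x' ∉ Set.range (algebraMap K F) := by
    rintro ⟨c, rfl⟩
    rw [S24.Place.ord_algebraMap] at hd
    omega
  obtain ⟨y, hy⟩ := S27.IsFF.exists_param (K := K) (F := F)
  have hgp : S24.IsFiniteParam K x' := hy.of_not_mem_range hxc
  obtain ⟨t, htg⟩ : ∃ t : IntermediateField.adjoin K {x'},
      algebraMap (IntermediateField.adjoin K {x'}) F t = x' :=
    ⟨IntermediateField.AdjoinSimple.gen K x', IntermediateField.AdjoinSimple.algebraMap_gen K x'⟩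
  have ht : Transcendental K t :=
    (transcendental_algebraMap_iff (algebraMap (IntermediateField.adjoin K {x'}) F).injective).1
      (htg.symm ▸ hgp.transcendental)
  have htop : IntermediateField.adjoin K {t} = ⊤ := by
    apply IntermediateField.lift_injective
    rw [IntermediateField.lift_adjoin_simple, IntermediateField.lift_top]
    congr 2
  have : FiniteDimensional (IntermediateField.adjoin K {x'}) F := hgp.finite
  have : S27.IsFF K (IntermediateField.adjoin K {x'}) := ⟨t, ht, by
    rw [htop]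
    exact FiniteDimensional.of_finrank_eq_succ (n := 0) IntermediateField.finrank_top⟩
  set m := dg C.oo f with hm
  set p := Nm K x' f with hp
  have hdeg : p.natDegree = m := natDegree_Nm C hx' hn' hd hf h0
  have hspec : aeval x' p = algebraMap (IntermediateField.adjoin K {x'}) F (Algebra.norm (IntermediateField.adjoin K {x'}) f) := Nm_spec C hx' hn' hd hf
  have hrank : Module.finrank (IntermediateField.adjoin K {x'}) F = n' := finrank_adjoin_eq C hx' hn' hd
  have hdx : dg C.oo x' = n' := by
    unfold dg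
    rw [hd]
    simp
  -- the fibre
  have hfib : (C.oo.restrict (IntermediateField.adjoin K {x'})).fiber F = {C.oo} := by
    rw [Finset.eq_singleton_iff_unique_mem]
    refine ⟨Place.restrict_mem_fiber _, fun w hw => ?_⟩
    by_contra hne
    rw [Place.mem_fiber] at hw
    have h1 : x' ∈ w.toValuationSubring := hx' w hne
    have h2 : t ∈ (w.restrict (IntermediateField.adjoin K {x'})).toValuationSubring := by
      rw [Place.mem_restrict_iff, htg]
      exact h1
    rw [hw, Place.mem_restrict_iff, htg, ← S27.adic_le_one_iff_mem,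
      C.oo.adicValuation_le_one_iff] at h2
    rcases h2 with h2 | h2
    · exact hx0 h2
    · omega
  have hram : C.oo.ramificationIndex (IntermediateField.adjoin K {x'}) = n' := by
    have h1 := S19.VN.sum_ram (F' := F) (C.oo.restrict (IntermediateField.adjoin K {x'}))
    rw [hfib, Finset.sum_singleton, hrank] at h1
    exact h1
  -- the unit `g`
  set g : F := f ^ n' * (x' ^ m)⁻¹ with hg
  have hg0 : g ≠ 0 := mul_ne_zero (pow_ne_zero _ h0) (inv_ne_zero (pow_ne_zero _ hx0))
  have ha : C.oo.adicValuation (f * C.t ^ m) = 1 := C.adic_mul_t_pow hf h0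
  have hb : C.oo.adicValuation (x' * C.t ^ n') = 1 := by
    have := C.adic_mul_t_pow hx' hx0
    rwa [hdx] at this
  have hg' : g = (f * C.t ^ m) ^ n' * ((x' * C.t ^ n') ^ m)⁻¹ := by
    have := C.t_ne_zero
    rw [hg]
    field_simp
    ring
  have hb' : C.oo.adicValuation ((x' * C.t ^ n') ^ m) = 1 := by rw [map_pow, hb, one_pow]
  have hgadic : C.oo.adicValuation g = 1 := by
    rw [hg', map_mul, map_pow, ha, one_pow, map_inv₀, hb', inv_one, one_mul]
  have hgval : S27.val C.oo g = C.lc f ^ n' * (C.lc x' ^ m)⁻¹ := by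
    have h1 : C.oo.adicValuation ((f * C.t ^ m) ^ n') ≤ 1 := by rw [map_pow, ha, one_pow]
    have h2 : C.oo.adicValuation ((x' * C.t ^ n') ^ m)⁻¹ ≤ 1 := by rw [map_inv₀, hb', inv_one]
    rw [hg', S27.val_mul _ h1 h2, S27.val_pow _ ha.le, S27.val_inv _ hb', S27.val_pow _ hb.le]
    unfold Cv.lc
    rw [hdx]
  have hgord : ∀ w ∈ (C.oo.restrict (IntermediateField.adjoin K {x'})).fiber F, w.ord g = 0 := by
    intro w hw
    rw [hfib, Finset.mem_singleton] at hw
    subst hw
    exact (S19.VN.adic_eq_one_iff_ord _ hg0).1 hgadic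
  have key := S19.val_norm (C.oo.restrict (IntermediateField.adjoin K {x'})) hg0 hgord
  rw [hfib, Finset.prod_singleton, hram, hgval, ← S19.val_algebraMap_ext] at key
  have hnorm : algebraMap (IntermediateField.adjoin K {x'}) F (Algebra.norm (IntermediateField.adjoin K {x'}) g) = (aeval x' p * (x' ^ p.natDegree)⁻¹) ^ n' := by
    have h1 : Algebra.norm (IntermediateField.adjoin K {x'}) x' = t ^ n' := by
      have h4 := Algebra.norm_algebraMap (S := F) t
      rw [htg, hrank] at h4
      exact h4
    have h2 : g * x' ^ m = f ^ n' := by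
      rw [hg, mul_assoc, inv_mul_cancel₀ (pow_ne_zero _ hx0), mul_one]
    have h3 := congrArg (fun z => algebraMap (IntermediateField.adjoin K {x'}) F (Algebra.norm (IntermediateField.adjoin K {x'}) z)) h2
    simp only [map_mul, map_pow, h1, htg, ← hspec] at h3
    rw [hdeg, mul_pow, inv_pow, ← h3, ← pow_mul, ← pow_mul, mul_comm n' m, mul_assoc,
      mul_inv_cancel₀ (pow_ne_zero _ hx0), mul_one]
  obtain ⟨hq1, hq2⟩ := n3_val_aeval_div C.oo (x' := x') (by omega) p
  rw [hnorm, S27.val_pow _ hq1, hq2] at key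
  rw [key]
  have hlx : C.lc x' ≠ 0 := C.lc_ne_zero hx' hx0
  rw [mul_pow, inv_pow, ← pow_mul, ← pow_mul, mul_assoc, inv_mul_cancel₀ (pow_ne_zero _ hlx),
    mul_one]

/-- consequence for absolute values. -/
theorem abv_Nm_lead (v : AbsoluteValue K ℝ) {f : F} (hf : f ∈ Reg C.oo) (h0 : f ≠ 0) :
    v (Nm K x' f).leadingCoeff * v (C.lc x') ^ dg C.oo f = v (C.lc f) ^ n' := by
  have h := congrArg v (Nm_lead C hx' hn' hd hf h0)
  rw [map_mul, map_pow, map_pow, map_pow, pow_mul, pow_mul, ← mul_pow] at h
  exact (pow_left_inj₀ (by positivity) (by positivity) hn'.ne').mp h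

end Fermat.Agent.S17.El
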