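import Fermat.Agent.S17.El.N1

/-!
# S17/El: the norm is a homogeneous polynomial map   (WP EL-N4)
See the header of `NormDef.lean` for the proof sketch.
-/

set_option autoImplicit false

open AlgebraicCurve Polynomial

namespace Fermat.Agent.S17.El

variable {K F : Type*} [Field K] [Field F] [Algebra K F]

namespace N4Aux

/-- determinant of a matrix of linear forms is homogeneous. -/
theorem isHomogeneous_det {ι R : Type*} [CommRing R] {n : ℕ}
    (A : Matrix (Fin n) (Fin n) (MvPolynomial ι R)) (hA : ∀ a b, (A a b).IsHomogeneous 1) :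
    (A.det).IsHomogeneous n := by
  rw [Matrix.det_apply]
  apply MvPolynomial.IsHomogeneous.sum
  intro σ _
  have h1 : (∏ i, A (σ i) i).IsHomogeneous (∑ _i : Fin n, 1) :=
    MvPolynomial.IsHomogeneous.prod _ _ _ (fun i _ => hA (σ i) i)
  have h2 : (∑ _i : Fin n, 1) = n := by simp
  rw [h2] at h1
  rcases Int.units_eq_one_or (Equiv.Perm.sign σ) with h | h
  · rw [h, one_smul]; exact h1
  · rw [h, Units.neg_smul, one_smul]
    exact (MvPolynomial.homogeneousSubmodule ι R n).neg_mem h1

/-- apply a `K`-linear form to the coefficients of a polynomial with coefficients in `L`. -/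
noncomputable def mapCoeff {ι L : Type*} [Field L] [Algebra K L] (ℓ : L →ₗ[K] K)
    (P : MvPolynomial ι L) : MvPolynomial ι K :=
  ∑ α ∈ P.support, MvPolynomial.monomial α (ℓ (P.coeff α))

theorem mapCoeff_isHomogeneous {ι L : Type*} [Field L] [Algebra K L] (ℓ : L →ₗ[K] K)
    (P : MvPolynomial ι L) {n : ℕ} (hP : P.IsHomogeneous n) : (mapCoeff ℓ P).IsHomogeneous n := by
  unfold mapCoeff
  apply MvPolynomial.IsHomogeneous.sum
  intro α hα
  apply MvPolynomial.isHomogeneous_monomial
  have := hP (MvPolynomial.mem_support_iff.mp hα)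
  rw [Finsupp.degree_eq_weight_one]
  exact this

theorem eval_mapCoeff {ι L : Type*} [Field L] [Algebra K L] (ℓ : L →ₗ[K] K)
    (P : MvPolynomial ι L) (c : ι → K) :
    MvPolynomial.eval c (mapCoeff ℓ P) =
      ℓ (MvPolynomial.eval (fun i => algebraMap K L (c i)) P) := by
  unfold mapCoeff
  rw [map_sum, MvPolynomial.eval_eq, map_sum]
  refine Finset.sum_congr rfl (fun α _ => ?_)
  rw [MvPolynomial.eval_monomial]
  have : P.coeff α * ∏ i ∈ α.support, (algebraMap K L (c i)) ^ α i =
      (∏ i ∈ α.support, c i ^ α i) • P.coeff α := by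
    rw [Algebra.smul_def, map_prod, mul_comm]
    simp only [map_pow]
  rw [this, map_smul, smul_eq_mul, mul_comm]
  rfl

theorem aeval_injective [IsAlgClosed K] (oo : Place K F) {x' : F} {n' : ℕ} (hn' : 0 < n')
    (hd : oo.ord x' = -(n' : ℤ)) : Function.Injective (aeval x' : K[X] →ₐ[K] F) := by
  rw [← transcendental_iff_injective]
  intro halg
  have hint : IsIntegral K x' := halg.isIntegral
  have hdeg := IsAlgClosed.degree_eq_one_of_irreducible K (minpoly.irreducible hint)
  obtain ⟨a, rfl⟩ := minpoly.mem_range_of_degree_eq_one K x' hdeg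
  rw [Fermat.Agent.S24.Place.ord_algebraMap] at hd
  omega

end N4Aux

open N4Aux

variable [IsAlgClosed K] [CharZero K] [S27.IsFF K F]

variable (C : Cv K F) {x' : F} (hx' : x' ∈ Reg C.oo) {n' : ℕ} (hn' : 0 < n')
  (hd : C.oo.ord x' = -(n' : ℤ))

include hx' hn' hd

theorem Nm_poly {ι : Type*} [Finite ι] [Fintype ι] (φ : ι → F) (hφ : ∀ i, φ i ∈ Reg C.oo) :
    ∃ Φ : ℕ → MvPolynomial ι K, (∀ j, (Φ j).IsHomogeneous n') ∧
      ∀ (c : ι → K) (j : ℕ), (Nm K x' (∑ i, c i • φ i)).coeff j = MvPolynomial.eval c (Φ j) := by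
  classical
  set L := IntermediateField.adjoin K {x'} with hL
  have hrank : Module.finrank L F = n' := finrank_adjoin_eq C hx' hn' hd
  have : Module.Finite L F := Module.finite_of_finrank_pos (by rw [hrank]; exact hn')
  let b : Module.Basis (Fin n') L F := Module.finBasisOfFinrankEq L F hrank
  -- the matrix of linear forms
  let A : Matrix (Fin n') (Fin n') (MvPolynomial ι L) :=
    ∑ i, (MvPolynomial.X i : MvPolynomial ι L) •
      (Algebra.leftMulMatrix b (φ i)).map (MvPolynomial.C : L →+* MvPolynomial ι L)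
  have hA : ∀ a a', (A a a').IsHomogeneous 1 := by
    intro a a'
    have : A a a' = ∑ i, (MvPolynomial.X i : MvPolynomial ι L) *
        MvPolynomial.C (Algebra.leftMulMatrix b (φ i) a a') := by
      simp [A, Matrix.sum_apply]
    rw [this]
    apply MvPolynomial.IsHomogeneous.sum
    intro i _
    have h1 := (MvPolynomial.isHomogeneous_X L i).mul
      (MvPolynomial.isHomogeneous_C ι (Algebra.leftMulMatrix b (φ i) a a'))
    simpa using h1
  let P : MvPolynomial ι L := A.det
  have hP : P.IsHomogeneous n' := isHomogeneous_det A hA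
  have hPeval : ∀ c : ι → K, MvPolynomial.eval (fun i => algebraMap K L (c i)) P =
      Algebra.norm L (∑ i, c i • φ i) := by
    intro c
    rw [Algebra.norm_eq_matrix_det b]
    change MvPolynomial.eval (fun i => algebraMap K L (c i)) A.det = _
    rw [RingHom.map_det]
    congr 1
    have e1 : Algebra.leftMulMatrix b (∑ i, c i • φ i) =
        ∑ i, algebraMap K L (c i) • Algebra.leftMulMatrix b (φ i) := by
      rw [map_sum]
      refine Finset.sum_congr rfl (fun i _ => ?_)
      have : c i • φ i = (algebraMap K L (c i)) • φ i := by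
        rw [algebraMap_smul]
      rw [this, _root_.map_smul (Algebra.leftMulMatrix b)]
    rw [e1]
    change (MvPolynomial.eval fun i => (algebraMap K L) (c i)).mapMatrix (∑ i, _) = _
    rw [map_sum]
    refine Finset.sum_congr rfl (fun i _ => ?_)
    ext a a'
    rw [RingHom.mapMatrix_apply, Matrix.map_apply, Matrix.smul_apply, Matrix.map_apply,
      Matrix.smul_apply, smul_eq_mul, smul_eq_mul, map_mul, MvPolynomial.eval_X,
      MvPolynomial.eval_C]
  -- a `K`-linear retraction of `aeval x'`
  have hinj : Function.Injective (aeval x' : K[X] →ₐ[K] F) := aeval_injective C.oo hn' hd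
  obtain ⟨g, hg⟩ := LinearMap.exists_leftInverse_of_injective (aeval x' : K[X] →ₐ[K] F).toLinearMap
    (LinearMap.ker_eq_bot.mpr hinj)
  let ℓ : ℕ → L →ₗ[K] K := fun j =>
    (Polynomial.lcoeff K j) ∘ₗ g ∘ₗ (IsScalarTower.toAlgHom K L F).toLinearMap
  refine ⟨fun j => mapCoeff (ℓ j) P, fun j => mapCoeff_isHomogeneous _ _ hP, fun c j => ?_⟩
  rw [eval_mapCoeff, hPeval]
  have hmem : (∑ i, c i • φ i) ∈ Reg C.oo :=
    (Reg C.oo).sum_mem (fun i _ => (Reg C.oo).smul_mem (hφ i) _)
  have hs := Nm_spec C hx' hn' hd hmem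
  change _ = (g (algebraMap L F (Algebra.norm L (∑ i, c i • φ i)))).coeff j
  rw [← hs]
  have := LinearMap.congr_fun hg (Nm K x' (∑ i, c i • φ i))
  change g (aeval x' (Nm K x' (∑ i, c i • φ i))) = _ at this
  rw [this]
  rfl

end Fermat.Agent.S17.El
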