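import Fermat.Agent.S17.El.Geo
import Fermat.Agent.S17.El.BPF

/-!
# S17/El: comparison of sizes   (WP EL-SIZE)

* `size_le`: `bpf_curve` for `G = (n m)·oo`, `φ = (1, x^m)`, `ψ = u^n`.
* `X_pow_le'`: `bpf_curve` for `G = (n m)·oo`, `φ` = all products of `n` of the `φ_a` (base point free because `L(m·oo)` is, `exists_section`),
  `ψ = 1` and `ψ = x^m`;  `|product of n values| ≤ (max)^n`.   `X_pow_le` is the case `m = κ`, `φ = e`.
* `X_pow_le_of`: `bpf_curve` for `G = (n n')·oo`, `φ = (1, x'^n)`, `ψ = x^n'`.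
* `dn_le`: `v(pl) ≤ 2_v max v(e_a(P)) max v(e_b(R))`, `size_le` for the `e_a`.
-/

set_option autoImplicit false

open AlgebraicCurve

namespace Fermat.Agent.S17.El

variable {K F : Type*} [Field K] [Field F] [Algebra K F] [IsAlgClosed K] [CharZero K]
  [S27.IsFF K F]

namespace SizeAux

omit [IsAlgClosed K] [CharZero K] [S27.IsFF K F] in
theorem ord_pow' (P : Place K F) (f : F) (k : ℕ) : P.ord (f ^ k) = k * P.ord f := by
  rw [← zpow_natCast, P.ord_zpow]

omit [IsAlgClosed K] [CharZero K] [S27.IsFF K F] in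
theorem pow_mem_V {oo : Place K F} {m : ℕ} {u : F} (hu : u ∈ V oo m) (k : ℕ) :
    u ^ k ∈ V oo (k * m) := by
  rw [mem_V_iff] at hu ⊢
  refine ⟨pow_mem hu.1 k, ?_⟩
  rcases hu.2 with rfl | h
  · rcases Nat.eq_zero_or_pos k with rfl | hk
    · right; simp
    · left; exact zero_pow hk.ne'
  · right
    rw [ord_pow']
    push_cast
    nlinarith [Int.natCast_nonneg k]

omit [IsAlgClosed K] [CharZero K] [S27.IsFF K F] in
theorem one_mem_V (oo : Place K F) (m : ℕ) : (1 : F) ∈ V oo m := by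
  rw [mem_V_iff]
  refine ⟨one_mem _, Or.inr ?_⟩
  rw [oo.ord_one]
  omega

omit [IsAlgClosed K] [CharZero K] [S27.IsFF K F] in
theorem adic_le_one {oo : Place K F} {f : F} (hf : f ∈ Reg oo) {P : Place K F} (hP : P ≠ oo) :
    P.adicValuation f ≤ 1 := (S27.adic_le_one_iff_mem P).2 (hf P hP)

/-- comparison with the size defined by `y ∈ A` of degree `d`. -/
theorem cmp {oo : Place K F} {y : F} (hy : y ∈ Reg oo) (hy0 : y ≠ 0) {d : ℕ}
    (hd : oo.ord y = -(d : ℤ)) (a : ℕ) {ψ : F} (hψ : ψ ∈ V oo (a * d)) :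
    ∃ γ : MC K, ∀ (v : AbsoluteValue K ℝ) (P : Place K F), P ≠ oo →
      v (S27.val P ψ) ≤ γ.val v * (max 1 (v (S27.val P y))) ^ a := by
  classical
  have hyV : y ∈ V oo d := by
    rw [mem_V_iff]
    exact ⟨hy, Or.inr hd.ge⟩
  obtain ⟨γ, hγ⟩ := bpf_curve (fun b : Bool => cond b (y ^ a) 1)
    (Finsupp.single oo ((a * d : ℕ) : ℤ))
    (by
      intro b
      cases b with
      | false => exact one_mem_V oo _
      | true => exact pow_mem_V hyV a)
    (by
      intro P
      by_cases hP : P = oo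
      · subst hP
        refine ⟨true, pow_ne_zero _ hy0, ?_⟩
        simp only [cond_true]
        rw [ord_pow', hd, Finsupp.single_eq_same]
        push_cast
        ring
      · refine ⟨false, one_ne_zero, ?_⟩
        simp only [cond_false]
        rw [P.ord_one, Finsupp.single_eq_of_ne hP, neg_zero])
    ψ hψ
  refine ⟨γ, fun v P hP => (hγ v P (Finsupp.single_eq_of_ne hP)).trans ?_⟩
  refine mul_le_mul_of_nonneg_left ?_ (γ.val_pos v).le
  have h1 : (1 : ℝ) ≤ max 1 (v (S27.val P y)) := le_max_left _ _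
  refine nrm_le v (by positivity) fun b => ?_
  cases b with
  | false =>
    simp only [cond_false]
    rw [S27.val_one, map_one]
    exact one_le_pow₀ h1
  | true =>
    simp only [cond_true]
    rw [S27.val_pow P (adic_le_one hy hP), map_pow]
    exact pow_le_pow_left₀ (v.nonneg _) (le_max_right _ _) a

end SizeAux

open SizeAux

namespace Cv

variable (C : Cv K F) (v : AbsoluteValue K ℝ)

omit [IsAlgClosed K] [CharZero K] [S27.IsFF K F] in
theorem x_ne_zero' : C.x ≠ 0 := by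
  intro h
  have := C.hxn
  rw [h, C.oo.ord_zero] at this
  have := C.hn
  omega

/-- a fixed `u ∈ L(m·oo)` satisfies `v(u(P)) ≤ γ |P|^m`. -/
theorem size_le (m : ℕ) {u : F} (hu : u ∈ V C.oo m) :
    ∃ γ : MC K, ∀ (v : AbsoluteValue K ℝ) (P : Place K F), P ≠ C.oo →
      v (S27.val P u) ^ C.n ≤ γ.val v * C.X v P ^ m := by
  obtain ⟨γ, hγ⟩ := cmp C.hx C.x_ne_zero' C.hxn m (ψ := u ^ C.n)
    (by rw [mul_comm]; exact pow_mem_V hu C.n)
  refine ⟨γ, fun v P hP => ?_⟩
  have := hγ v P hP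
  rwa [S27.val_pow P (adic_le_one (mem_V_iff.1 hu).1 hP), map_pow] at this

omit [IsAlgClosed K] [CharZero K] [S27.IsFF K F] in
theorem X_pow_eq (P : Place K F) (m : ℕ) :
    C.X v P ^ m = max 1 (v (S27.val P C.x) ^ m) := by
  unfold X
  rcases le_total 1 (v (S27.val P C.x)) with h | h
  · rw [max_eq_right h, max_eq_right (one_le_pow₀ h)]
  · rw [max_eq_left h, max_eq_left (pow_le_one₀ (v.nonneg _) h), one_pow]

/-- more generally for any spanning family of `L(m·oo)`, `m ≥ 2g`. -/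
theorem X_pow_le' (m : ℕ) (hm : 2 * genusFF K F ≤ m) {ι : Type*} [Finite ι] (φ : ι → F)
    (hφ : Submodule.span K (Set.range φ) = V C.oo m) :
    ∃ γ : MC K, ∀ (v : AbsoluteValue K ℝ) (P : Place K F), P ≠ C.oo →
      C.X v P ^ m ≤ γ.val v * (nrm v fun a => S27.val P (φ a)) ^ C.n := by
  classical
  have hφV : ∀ a, φ a ∈ V C.oo m := fun a => hφ ▸ Submodule.subset_span ⟨a, rfl⟩
  have hbpf0 : ∀ P : Place K F, ∃ a, φ a ≠ 0 ∧
      P.ord (φ a) = - (Finsupp.single C.oo (m : ℤ) : Divisor K F) P := by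
    intro P
    obtain ⟨f, hf, hf0, hfP⟩ := exists_section (Finsupp.single C.oo (m : ℤ) : Divisor K F)
      (by
        rw [Divisor.degree_single, S27.deg_eq_one]
        simp only [Nat.cast_one, mul_one]
        exact_mod_cast hm) {P}
    have hfP := hfP P (Finset.mem_singleton_self P)
    by_contra hcon
    push Not at hcon
    have hle : V C.oo m ≤
        riemannRochSpace ((Finsupp.single C.oo (m : ℤ) : Divisor K F) - Finsupp.single P 1) := by
      rw [← hφ, Submodule.span_le]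
      rintro _ ⟨a, rfl⟩
      rw [SetLike.mem_coe, mem_riemannRochSpace_iff]
      intro Q
      by_cases ha0 : φ a = 0
      · exact Or.inl ha0
      right
      have h1 := (mem_riemannRochSpace_iff.1 (hφV a) Q).resolve_left ha0
      by_cases hQ : Q = P
      · subst hQ
        have h2 := hcon a ha0
        rw [Finsupp.sub_apply, Finsupp.single_eq_same]
        omega
      · rw [Finsupp.sub_apply, Finsupp.single_eq_of_ne hQ]
        omega
    have h3 := (mem_riemannRochSpace_iff.1 (hle hf) P).resolve_left hf0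
    rw [Finsupp.sub_apply, Finsupp.single_eq_same] at h3
    omega
  have hG : ∀ a, φ a ^ C.n ∈ riemannRochSpace
      (Finsupp.single C.oo ((C.n * m : ℕ) : ℤ) : Divisor K F) := fun a => pow_mem_V (hφV a) C.n
  have hbpf : ∀ P : Place K F, ∃ a, φ a ^ C.n ≠ 0 ∧
      P.ord (φ a ^ C.n) = - (Finsupp.single C.oo ((C.n * m : ℕ) : ℤ) : Divisor K F) P := by
    intro P
    obtain ⟨a, ha0, ha⟩ := hbpf0 P
    refine ⟨a, pow_ne_zero _ ha0, ?_⟩
    rw [ord_pow', ha]
    by_cases hP : P = C.oo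
    · subst hP
      rw [Finsupp.single_eq_same, Finsupp.single_eq_same]
      push_cast
      ring
    · rw [Finsupp.single_eq_of_ne hP, Finsupp.single_eq_of_ne hP]
      simp
  obtain ⟨γ₁, h₁⟩ := bpf_curve (fun a => φ a ^ C.n) _ hG hbpf 1 (one_mem_V C.oo _)
  have hxV : C.x ∈ V C.oo C.n := by
    rw [mem_V_iff]
    exact ⟨C.hx, Or.inr C.hxn.ge⟩
  obtain ⟨γ₂, h₂⟩ := bpf_curve (fun a => φ a ^ C.n) _ hG hbpf (C.x ^ m)
    (by rw [mul_comm]; exact pow_mem_V hxV m)
  refine ⟨γ₁.mul γ₂, fun v P hP => ?_⟩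
  have hn : (nrm v fun a => S27.val P (φ a ^ C.n)) ≤ (nrm v fun a => S27.val P (φ a)) ^ C.n := by
    refine nrm_le v (pow_nonneg (nrm_nonneg v _) _) fun a => ?_
    rw [S27.val_pow P (adic_le_one (mem_V_iff.1 (hφV a)).1 hP), map_pow]
    exact pow_le_pow_left₀ (v.nonneg _) (le_nrm v (fun a => S27.val P (φ a)) a) _
  have hP0 : (Finsupp.single C.oo ((C.n * m : ℕ) : ℤ) : Divisor K F) P = 0 :=
    Finsupp.single_eq_of_ne hP
  rw [X_pow_eq]
  refine max_le ?_ ?_
  · have := h₁ v P hP0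
    rw [S27.val_one, map_one] at this
    refine this.trans ?_
    exact mul_le_mul (MC.le_mul_left _ _ _) hn (nrm_nonneg v _) ((γ₁.mul γ₂).val_pos v).le
  · have := h₂ v P hP0
    rw [S27.val_pow P (adic_le_one C.hx hP), map_pow] at this
    refine this.trans ?_
    exact mul_le_mul (MC.le_mul_right _ _ _) hn (nrm_nonneg v _) ((γ₁.mul γ₂).val_pos v).le

/-- `|P|^κ ≤ γ max_a v(e_a(P))`. -/
theorem X_pow_le :
    ∃ γ : MC K, ∀ (v : AbsoluteValue K ℝ) (P : Place K F), P ≠ C.oo →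
      C.X v P ^ C.κ ≤ γ.val v * (nrm v fun a => S27.val P (C.e a)) ^ C.n :=
  C.X_pow_le' C.κ (by have := C.hκ; omega) C.e C.hspan

/-- comparison of the sizes defined by two functions: `x' ∈ A` of degree `n' > 0`. -/
theorem X_pow_le_of {x' : F} (hx' : x' ∈ Reg C.oo) {n' : ℕ} (hn' : 0 < n')
    (hd : C.oo.ord x' = -(n' : ℤ)) :
    ∃ γ : MC K, ∀ (v : AbsoluteValue K ℝ) (P : Place K F), P ≠ C.oo →
      C.X v P ^ n' ≤ γ.val v * (max 1 (v (S27.val P x'))) ^ C.n := by
  have hx0 : x' ≠ 0 := by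
    rintro rfl
    rw [C.oo.ord_zero] at hd
    omega
  have hxV : C.x ∈ V C.oo C.n := by
    rw [mem_V_iff]
    exact ⟨C.hx, Or.inr C.hxn.ge⟩
  obtain ⟨γ, hγ⟩ := cmp hx' hx0 hd C.n (ψ := C.x ^ n') (by rw [mul_comm]; exact pow_mem_V hxV n')
  refine ⟨γ, fun v P hP => ?_⟩
  rw [X_pow_eq]
  refine max_le ?_ ?_
  · have h1 : (1 : ℝ) ≤ max 1 (v (S27.val P x')) := le_max_left _ _
    calc (1 : ℝ) = 1 * 1 := (one_mul 1).symm
      _ ≤ γ.val v * (max 1 (v (S27.val P x'))) ^ C.n :=
        mul_le_mul (γ.one_le_val v) (one_le_pow₀ h1) zero_le_one (γ.val_pos v).le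
  · have := hγ v P hP
    rwa [S27.val_pow P (adic_le_one C.hx hP), map_pow] at this

/-- the trivial bound `d(P,R) ≤ γ |P| |R|`. -/
theorem dn_le :
    ∃ γ : MC K, ∀ (v : AbsoluteValue K ℝ) (P R : Place K F), P ≠ C.oo → R ≠ C.oo →
      C.dn v P R ≤ γ.val v * (C.X v P * C.X v R) := by
  classical
  choose γs hγs using fun a => C.size_le C.κ (C.e_mem a)
  obtain ⟨γ₀, hγ₀⟩ := MC.exists_sup γs
  refine ⟨((MC.ofNat 2).pow C.n).mul (γ₀.mul γ₀), fun v P R hP hR => ?_⟩
  set γ := ((MC.ofNat 2 : MC K).pow C.n).mul (γ₀.mul γ₀) with hγ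
  have hXP := C.one_le_X v P
  have hXR := C.one_le_X v R
  have hXX : 0 < C.X v P * C.X v R := by positivity
  have he : ∀ (Q : Place K F), Q ≠ C.oo → ∀ a,
      v (S27.val Q (C.e a)) ^ C.n ≤ γ₀.val v * C.X v Q ^ C.κ := fun Q hQ a =>
    (hγs a v Q hQ).trans (mul_le_mul_of_nonneg_right (hγ₀ a v) (by
      have := C.one_le_X v Q
      positivity))
  have hprod : ∀ a b, v (S27.val P (C.e a) * S27.val R (C.e b)) ^ C.n
      ≤ (γ₀.mul γ₀).val v * (C.X v P * C.X v R) ^ C.κ := by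
    intro a b
    rw [map_mul, mul_pow, mul_pow]
    calc v (S27.val P (C.e a)) ^ C.n * v (S27.val R (C.e b)) ^ C.n
        ≤ (γ₀.val v * C.X v P ^ C.κ) * (γ₀.val v * C.X v R ^ C.κ) :=
          mul_le_mul (he P hP a) (he R hR b) (by positivity)
            (mul_nonneg (γ₀.val_pos v).le (by positivity))
      _ = (γ₀.val v * γ₀.val v) * (C.X v P ^ C.κ * C.X v R ^ C.κ) := by ring
      _ ≤ (γ₀.mul γ₀).val v * (C.X v P ^ C.κ * C.X v R ^ C.κ) :=
          mul_le_mul_of_nonneg_right (MC.val_mul_le _ _ _) (by positivity)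
  have hpl : ∀ a b, v (C.pl P R a b) ^ C.n ≤ γ.val v * (C.X v P * C.X v R) ^ C.κ := by
    intro a b
    set s := S27.val P (C.e a) * S27.val R (C.e b) with hs
    set t := S27.val P (C.e b) * S27.val R (C.e a) with ht
    have h1 : C.pl P R a b = ∑ i : Bool, cond i s (-t) := by
      rw [Fintype.sum_bool]
      simp only [cond_true, cond_false, pl, ← hs, ← ht]
      ring
    have h2 : v (C.pl P R a b) ≤ (MC.ofNat 2 : MC K).val v * max (v s) (v t) := by
      rw [h1]
      have := MC.sum_le (Finset.univ : Finset Bool) (fun i => cond i s (-t)) v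
        (B := max (v s) (v t)) (le_max_of_le_left (v.nonneg _)) (by
          intro i _
          cases i with
          | false => simp
          | true => simp)
      simpa using this
    have h3 : max (v s) (v t) ^ C.n ≤ (γ₀.mul γ₀).val v * (C.X v P * C.X v R) ^ C.κ := by
      rcases le_total (v s) (v t) with h | h
      · rw [max_eq_right h]
        exact hprod b a
      · rw [max_eq_left h]
        exact hprod a b
    calc v (C.pl P R a b) ^ C.n ≤ ((MC.ofNat 2 : MC K).val v * max (v s) (v t)) ^ C.n :=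
          pow_le_pow_left₀ (v.nonneg _) h2 _
      _ = (MC.ofNat 2 : MC K).val v ^ C.n * max (v s) (v t) ^ C.n := mul_pow _ _ _
      _ ≤ ((MC.ofNat 2 : MC K).pow C.n).val v * ((γ₀.mul γ₀).val v * (C.X v P * C.X v R) ^ C.κ) :=
          mul_le_mul (MC.val_pow_le _ _ _) h3 (by positivity) (MC.val_pos _ _).le
      _ = (((MC.ofNat 2 : MC K).pow C.n).val v * (γ₀.mul γ₀).val v) * (C.X v P * C.X v R) ^ C.κ := by
          ring
      _ ≤ γ.val v * (C.X v P * C.X v R) ^ C.κ :=
          mul_le_mul_of_nonneg_right (MC.val_mul_le _ _ _) (by positivity)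
  have hD : C.D v P R ^ C.n ≤ γ.val v * (C.X v P * C.X v R) ^ C.κ := by
    rcases isEmpty_or_nonempty (Fin C.r × Fin C.r) with hemp | hne
    · have : C.D v P R = 0 := by
        unfold D
        exact Real.iSup_of_isEmpty _
      rw [this, zero_pow C.hn.ne']
      exact mul_nonneg (γ.val_pos v).le (by positivity)
    · obtain ⟨ab, hab⟩ := exists_eq_nrm v (fun ab : Fin C.r × Fin C.r => C.pl P R ab.1 ab.2)
      have : C.D v P R = v (C.pl P R ab.1 ab.2) := hab
      rw [this]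
      exact hpl _ _
  unfold dn
  rw [div_le_iff₀ (by positivity)]
  refine hD.trans (le_of_eq ?_)
  obtain ⟨k, hk⟩ : ∃ k, C.κ = k + 1 := ⟨C.κ - 1, by have := C.hκ; omega⟩
  rw [hk, Nat.add_sub_cancel, pow_succ]
  ring

end Cv

end Fermat.Agent.S17.El
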