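import Fermat.Agent.S17.El.Defs

/-!
# S17/El: the norm `A → K[X]` attached to a nonconstant `x' ∈ A`   (definition; FROZEN; WPs EL-N1 .. EL-N4 in N1.lean .. N4.lean)

`x' ∈ A = Reg oo`, `ord_oo x' = -n'`, `n' > 0`.  `F / K(x')` is finite of degree `n'`
(`S24.IsFiniteParam`, RED/FF `degree_polarDiv_eq`: the polar divisor of `x'` is `n'·oo`), `oo` is the only place
above `x' = ∞`, `A` is the integral closure of `K[x']` in `F`.

* EL-N1 `Nm_spec`, `Nm_mul`, `Nm_ne_zero`, `Nm_factor`: the field norm of an integral element lies in `K[x']`
  (integrally closed); `ord_{X-ξ} N f = ∑_{P | ξ} ord_P f` is `GAL/FFExt ord_norm_eq_sum_fiber'`.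
* EL-N2 `Nm_eval`: `N f (ξ) = ∏_{R' ∈ Z(x'-ξ)} f(R')^{e}`.  Let `O` be the local ring of `K(x')` at `ξ`, `B` its
  integral closure in `F` (semilocal PID, free of rank `n'` over `O`); `N f = det(f | B)`;
  reduce mod `(x'-ξ)`: `B/(x'-ξ)B = ∏_{R'} B/m_{R'}^{e}` and `f` acts on the factor `R'` as `f(R')` + nilpotent.
  (Alternative: `Algebra.norm` = product over the embeddings + completion-free argument of your choice.)
* EL-N3 `Nm_lead`: the same at the place `x' = ∞` applied to `g = f^{n'} / x'^{m}` (a unit at `oo`).
* EL-N4 `Nm_poly`: `N(∑ c_i φ_i) = det(∑ c_i M_i)`, `M_i` the matrix of `φ_i` in a `K(x')`-basis of `F`: a homogeneous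
  polynomial of degree `n'` in `c` with coefficients in `K(x')`; its values lie in `K[x']` (of bounded degree), hence so
  do its coefficients (interpolation over the infinite field `K`; e.g. `MvPolynomial.funext`-type argument or
  induction on the number of variables with Vandermonde/Lagrange).
-/

set_option autoImplicit false

open AlgebraicCurve Polynomial

namespace Fermat.Agent.S17.El

variable {K F : Type*} [Field K] [Field F] [Algebra K F]

variable (K) in
open Classical in
/-- the norm of `f` from `F` to `K(x')`, as a polynomial in `x'` (junk `0` if it is not one). -/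
noncomputable def Nm (x' f : F) : K[X] :=
  if h : ∃ p : K[X], aeval x' p =
      algebraMap (IntermediateField.adjoin K {x'}) F
        (Algebra.norm (IntermediateField.adjoin K {x'}) f) then h.choose else 0

end Fermat.Agent.S17.El
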